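import Fermat.Agent.S17.Defs

/-!
# S17 / VAL leaf `Est`: a homogeneous integral equation gives a uniform bound

`E ∈ K[T_none, T_0..T_r]` homogeneous of degree `N`, coefficient of `T_none^N` equal to `1`,
`E(a y, b y) = 0` for all `y`.  Then `|a y|_v ≤ C_v max_i |b_i y|_v`.

Proof.  `S :=` the nonzero coefficients of `E`.  Fix `v`, `y`; `M := max_i v (b_i y)`, `t := v (a y)`.
`a^N = - ∑_{m ≠ single none N} coeff_m a^(m none) ∏ b_i^(m i)`, each monomial has `m none < N` and
total degree `N`, so `t^N ≤ ∑_m |coeff_m| t^(m none) M^(N - m none)` (resp. `max` if `v` is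
nonarchimedean).  With `C := max 1 (∑_m |coeff_m|)` (resp. `C = 1` if nonarchimedean and all
`|coeff_m| ≤ 1`): if `t > C M` then `t^(m none) M^(N - m none) ≤ t^(N-1) M < t^N / C`, contradiction.
(`N = 0` is impossible unless `Y` is empty.)
To have ONE definition of `C` with the property `C = 1` in the good case use
`C := if IsNonarchimedean v ∧ ∀ a ∈ S, v a = 1 then 1 else max 1 (∑ ...)`.
-/

set_option autoImplicit false

namespace Fermat.Agent.S17

open MvPolynomial

theorem Est_nonarch_sum_le {K : Type*} [Field K] (v : AbsoluteValue K ℝ) (hv : IsNonarchimedean v)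
    {ι : Type*} (s : Finset ι) (l : ι → K) (B : ℝ) (hB : 0 ≤ B) (h : ∀ i ∈ s, v (l i) ≤ B) :
    v (∑ i ∈ s, l i) ≤ B := by
  classical
  induction s using Finset.induction_on with
  | empty => simpa using hB
  | insert i s hi ih =>
    rw [Finset.sum_insert hi]
    exact (hv _ _).trans (max_le (h i (Finset.mem_insert_self _ _))
      (ih fun j hj => h j (Finset.mem_insert_of_mem hj)))

theorem Est_monomial_le {K : Type*} [Field K] {r : ℕ} (v : AbsoluteValue K ℝ)
    (x : Option (Fin (r + 1)) → K) (M : ℝ) (hM : ∀ i, v (x (some i)) ≤ M) (hMt : M ≤ v (x none))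
    (ht : 0 < v (x none)) (N : ℕ) (m : Option (Fin (r + 1)) →₀ ℕ) (hdeg : ∑ o, m o = N)
    (hne : m ≠ Finsupp.single none N) :
    v (∏ o, x o ^ m o) ≤ v (x none) ^ N * (M / v (x none)) := by
  have hM0 : 0 ≤ M := (v.nonneg _).trans (hM 0)
  set t := v (x none) with ht'
  rw [Fintype.sum_option] at hdeg
  rw [Fintype.prod_option, map_mul, map_pow, map_prod, ← ht']
  set e := ∑ i, m (some i) with he
  have he1 : e ≠ 0 := by
    intro h0
    apply hne
    have hz : ∀ i, m (some i) = 0 := by
      intro i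
      exact (Finset.sum_eq_zero_iff.mp h0) i (Finset.mem_univ _)
    ext o
    cases o with
    | none => rw [Finsupp.single_eq_same]; omega
    | some i => rw [Finsupp.single_eq_of_ne (by simp), hz]
  obtain ⟨e', he'⟩ := Nat.exists_eq_succ_of_ne_zero he1
  have h1 : ∏ i, v (x (some i) ^ m (some i)) ≤ M ^ e := by
    rw [he, ← Finset.prod_pow_eq_pow_sum]
    refine Finset.prod_le_prod (fun i _ => v.nonneg _) fun i _ => ?_
    rw [map_pow]
    exact pow_le_pow_left₀ (v.nonneg _) (hM i) _
  have h2 : M ^ e ≤ t ^ e' * M := by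
    rw [he', pow_succ]
    exact mul_le_mul_of_nonneg_right (pow_le_pow_left₀ hM0 hMt _) hM0
  have h3 : t ^ N * (M / t) = t ^ m none * (t ^ e' * M) := by
    rw [← hdeg, he', pow_add, pow_succ]
    field_simp
  rw [h3]
  exact mul_le_mul_of_nonneg_left (h1.trans h2) (pow_nonneg ht.le _)

theorem Est_core {K : Type*} [Field K] {r : ℕ} (v : AbsoluteValue K ℝ)
    (x : Option (Fin (r + 1)) → K) (N : ℕ) (E : MvPolynomial (Option (Fin (r + 1))) K)
    (hE : E.IsHomogeneous N) (h1 : E.coeff (Finsupp.single none N) = 1) (h0 : eval x E = 0)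
    (C : ℝ) (hC : 1 ≤ C)
    (hsum : ∀ B : ℝ, 0 ≤ B →
      (∀ m ∈ E.support.erase (Finsupp.single none N), v (∏ o, x o ^ m o) ≤ B) →
      v (∑ m ∈ E.support.erase (Finsupp.single none N), E.coeff m * ∏ o, x o ^ m o) ≤ C * B)
    (M : ℝ) (hM : ∀ i, v (x (some i)) ≤ M) : v (x none) ≤ C * M := by
  by_contra hcon
  push_neg at hcon
  have hM0 : 0 ≤ M := (v.nonneg _).trans (hM 0)
  have hMt : M ≤ v (x none) := by nlinarith
  have ht : 0 < v (x none) := lt_of_le_of_lt (mul_nonneg (by linarith) hM0) hcon
  have hmem : Finsupp.single none N ∈ E.support := by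
    rw [mem_support_iff, h1]; exact one_ne_zero
  rw [eval_eq', ← Finset.add_sum_erase _ _ hmem, h1, one_mul] at h0
  have hx : ∏ o, x o ^ (Finsupp.single none N : Option (Fin (r + 1)) →₀ ℕ) o = x none ^ N := by
    rw [Fintype.prod_option, Finsupp.single_eq_same]
    simp
  rw [hx] at h0
  have h2 : v (x none) ^ N =
      v (∑ m ∈ E.support.erase (Finsupp.single none N), E.coeff m * ∏ o, x o ^ m o) := by
    rw [← map_pow, eq_neg_of_add_eq_zero_left h0, map_neg_eq_map]
  have hB := hsum (v (x none) ^ N * (M / v (x none))) (by positivity) (fun m hm => by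
    have hm' := Finset.mem_erase.mp hm
    refine Est_monomial_le v x M hM hMt ht N m ?_ hm'.1
    have h5 := hE (mem_support_iff.mp hm'.2)
    rw [← h5, Finsupp.weight_apply, Finsupp.sum_fintype _ _ (fun _ => by simp)]
    simp)
  rw [← h2] at hB
  have h6 : v (x none) ^ N * v (x none) ≤ v (x none) ^ N * (C * M) := by
    have h7 := mul_le_mul_of_nonneg_right hB ht.le
    calc v (x none) ^ N * v (x none) ≤ C * (v (x none) ^ N * (M / v (x none))) * v (x none) := h7
      _ = v (x none) ^ N * (C * M) := by field_simp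
  have h8 := le_of_mul_le_mul_left h6 (pow_pos ht N)
  linarith

theorem ubound_of_integral_eq {K : Type*} [Field K] {Y : Type*} {r : ℕ} (a : Y → K)
    (b : Fin (r + 1) → Y → K) (N : ℕ) (E : MvPolynomial (Option (Fin (r + 1))) K)
    (hE : E.IsHomogeneous N) (h1 : E.coeff (Finsupp.single none N) = 1)
    (h0 : ∀ y, eval (fun o : Option (Fin (r + 1)) => o.elim (a y) fun i => b i y) E = 0) :
    UBound (fun (v : AbsoluteValue K ℝ) y => v (a y))
      (fun v y => Finset.univ.sup' Finset.univ_nonempty fun i => v (b i y)) := by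
  classical
  refine ⟨E.support.image E.coeff, ?_, fun v => ?_⟩
  · intro c hc
    obtain ⟨m, hm, rfl⟩ := Finset.mem_image.mp hc
    exact mem_support_iff.mp hm
  have hMle : ∀ (y : Y) (i : Fin (r + 1)), v (b i y) ≤
      Finset.univ.sup' Finset.univ_nonempty fun i => v (b i y) := fun y i =>
    Finset.le_sup' (fun i => v (b i y)) (Finset.mem_univ i)
  by_cases hgood : IsNonarchimedean v ∧ ∀ c ∈ E.support.image E.coeff, v c = 1
  · refine ⟨1, le_rfl, fun _ _ => rfl, fun y => ?_⟩
    refine Est_core v (fun o : Option (Fin (r + 1)) => o.elim (a y) fun i => b i y) N E hE h1 (h0 y)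
      1 le_rfl ?_ _ (hMle y)
    intro B hB hm
    rw [one_mul]
    refine Est_nonarch_sum_le v hgood.1 _ _ B hB fun m hm' => ?_
    rw [map_mul, hgood.2 _ (Finset.mem_image_of_mem _ (Finset.mem_of_mem_erase hm')), one_mul]
    exact hm m hm'
  · refine ⟨max 1 (∑ m ∈ E.support, v (E.coeff m)), le_max_left _ _,
      fun h1 h2 => absurd ⟨h1, h2⟩ hgood, fun y => ?_⟩
    refine Est_core v (fun o : Option (Fin (r + 1)) => o.elim (a y) fun i => b i y) N E hE h1 (h0 y)
      _ (le_max_left _ _) ?_ _ (hMle y)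
    intro B hB hm
    calc v (∑ m ∈ E.support.erase (Finsupp.single none N), E.coeff m *
          ∏ o, (fun o : Option (Fin (r + 1)) => o.elim (a y) fun i => b i y) o ^ m o)
        ≤ ∑ m ∈ E.support.erase (Finsupp.single none N), v (E.coeff m *
          ∏ o, (fun o : Option (Fin (r + 1)) => o.elim (a y) fun i => b i y) o ^ m o) :=
          v.sum_le _ _
      _ ≤ ∑ m ∈ E.support.erase (Finsupp.single none N), v (E.coeff m) * B := by
          refine Finset.sum_le_sum fun m hm' => ?_
          rw [map_mul]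
          exact mul_le_mul_of_nonneg_left (hm m hm') (v.nonneg _)
      _ = (∑ m ∈ E.support.erase (Finsupp.single none N), v (E.coeff m)) * B := by
          rw [Finset.sum_mul]
      _ ≤ (∑ m ∈ E.support, v (E.coeff m)) * B := by
          refine mul_le_mul_of_nonneg_right ?_ hB
          exact Finset.sum_le_sum_of_subset_of_nonneg (Finset.erase_subset _ _)
            fun _ _ _ => v.nonneg _
      _ ≤ max 1 (∑ m ∈ E.support, v (E.coeff m)) * B :=
          mul_le_mul_of_nonneg_right (le_max_right _ _) hB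

end Fermat.Agent.S17
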