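import Fermat.Agent.S17.Val.Crit
import Fermat.Agent.S17.Val.Est

/-!
# S17 / VAL leaf `Transfer`: the valuative transfer principle

`Y` any set, `a, b_0..b_r : Y → K`.  Suppose that for every `K`-algebra homomorphism
`π : (Y → K) → Ω` to a field and every valuation subring `V ⊇ K` of `Ω` there is `i` with
`v(π a) ≤ v(π b_i)`.  Then `|a y|_v ≤ C_v max_i |b_i y|_v` uniformly (`UBound`).

Proof.  Let `𝓔` be the set of `E ∈ K[T_none, T_i]` which are homogeneous (of some degree `N`) with
coefficient `1` at `T_none^N`: a submonoid.  Let `M ⊆ (Y → K)` be its image under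
`E ↦ aeval (a, b) E` (a submonoid of the ring `A = Y → K`).  If `0 ∈ M` we are done by
`ubound_of_integral_eq` (evaluate at `y`: `Pi.evalAlgHom`).  Otherwise there is a prime `P` of `A`
disjoint from `M` (`Ideal.exists_le_prime_disjoint ⊥ M`).  `Ω := FractionRing (A ⧸ P)`,
`π : A → Ω`.  By `exists_integral_eq` applied to `π a, π b_i` (hypothesis `H`) there is `E ∈ 𝓔` with
`aeval (π a, π b) E = 0 = π (aeval (a, b) E)`, so `aeval (a,b) E ∈ P ∩ M`, contradiction
(`A ⧸ P → FractionRing` is injective).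
-/

set_option autoImplicit false

namespace Fermat.Agent.S17

universe u w

open MvPolynomial in
/-- the coefficient of `T_none ^ N` of a homogeneous polynomial is its value at `(1, 0, .., 0)`. -/
theorem Transfer_eval_pt {K : Type*} [Field K] {r : ℕ} {N : ℕ}
    {E : MvPolynomial (Option (Fin (r + 1))) K} (hE : E.IsHomogeneous N) :
    eval (fun o : Option (Fin (r + 1)) => o.elim (1 : K) fun _ => 0) E =
      E.coeff (Finsupp.single none N) := by
  classical
  rw [eval_eq', Finset.sum_eq_single (Finsupp.single none N)]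
  · rw [Fintype.prod_option]
    simp
  · intro d hd hne
    rw [Fintype.prod_option]
    have hex : ∃ i : Fin (r + 1), d (some i) ≠ 0 := by
      by_contra hcon
      push Not at hcon
      have h1 : d = Finsupp.single none (d none) := by
        ext o
        cases o with
        | none => simp
        | some i => simp [hcon i]
      have h2 : d.degree = N := by
        by_contra h2
        exact (mem_support_iff.mp hd) (hE.coeff_eq_zero h2)
      rw [h1, Finsupp.degree_single] at h2
      exact hne (by rw [h1, h2])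
    obtain ⟨i, hi⟩ := hex
    have h3 : ∏ j : Fin (r + 1), ((some j : Option (Fin (r + 1))).elim (1 : K) fun _ => 0) ^ d (some j)
        = 0 := Finset.prod_eq_zero (Finset.mem_univ i) (by simp [hi])
    rw [h3, mul_zero, mul_zero]
  · intro h
    rw [notMem_support_iff.mp h, zero_mul]

/-- a finite supremum of uniformly bounded functions is uniformly bounded. -/
theorem Transfer_ubound_sup {K : Type*} [Field K] {α ι : Type*} (s : Finset ι) (hs : s.Nonempty)
    {A : ι → AbsoluteValue K ℝ → α → ℝ} {B : AbsoluteValue K ℝ → α → ℝ} (hB : ∀ v x, 0 ≤ B v x)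
    (h : ∀ i ∈ s, UBound (A i) B) : UBound (fun v x => s.sup' hs fun i => A i v x) B := by
  classical
  choose S hS hC using fun i : s => h i.1 i.2
  have hs' : s.attach.Nonempty := hs.attach
  refine ⟨s.attach.biUnion S, ?_, fun v => ?_⟩
  · intro a ha
    obtain ⟨i, -, hi⟩ := Finset.mem_biUnion.mp ha
    exact hS i a hi
  · choose C hC1 hC2 hC3 using fun i : s => hC i v
    obtain ⟨i₀, hi₀⟩ := hs'
    refine ⟨s.attach.sup' ⟨i₀, hi₀⟩ C, (hC1 i₀).trans (Finset.le_sup' C hi₀), ?_, fun x => ?_⟩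
    · intro hv hunit
      have hall : ∀ i : s, C i = 1 := fun i =>
        hC2 i hv fun a ha => hunit a (Finset.mem_biUnion.mpr ⟨i, Finset.mem_attach _ _, ha⟩)
      apply le_antisymm
      · exact Finset.sup'_le _ _ fun i _ => (hall i).le
      · exact (hall i₀).ge.trans (Finset.le_sup' C hi₀)
    · refine Finset.sup'_le _ _ fun i hi => ?_
      calc A i v x ≤ C ⟨i, hi⟩ * B v x := hC3 ⟨i, hi⟩ x
        _ ≤ s.attach.sup' ⟨i₀, hi₀⟩ C * B v x :=
          mul_le_mul_of_nonneg_right (Finset.le_sup' C (Finset.mem_attach _ _)) (hB v x)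

open MvPolynomial in
theorem transfer {K : Type u} [Field K] {Y : Type w} {r : ℕ} (a : Y → K) (b : Fin (r + 1) → Y → K)
    (H : ∀ (Ω : Type (max u w)) [Field Ω] [Algebra K Ω] (π : (Y → K) →ₐ[K] Ω)
      (V : ValuationSubring Ω), (∀ c : K, algebraMap K Ω c ∈ V) →
      ∃ i, V.valuation (π a) ≤ V.valuation (π (b i))) :
    UBound (fun (v : AbsoluteValue K ℝ) y => v (a y))
      (fun v y => Finset.univ.sup' Finset.univ_nonempty fun i => v (b i y)) := by
  classical
  let ev : Option (Fin (r + 1)) → (Y → K) := fun o => o.elim a b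
  let pt : Option (Fin (r + 1)) → K := fun o => o.elim (1 : K) fun _ => 0
  let 𝓔 : Submonoid (MvPolynomial (Option (Fin (r + 1))) K) :=
    { carrier := {E | (∃ N, E.IsHomogeneous N) ∧ eval pt E = 1}
      one_mem' := ⟨⟨0, isHomogeneous_one _ _⟩, map_one _⟩
      mul_mem' := by
        rintro x y ⟨⟨N, hN⟩, h1⟩ ⟨⟨N', hN'⟩, h1'⟩
        exact ⟨⟨N + N', hN.mul hN'⟩, by rw [map_mul, h1, h1', one_mul]⟩ }
  let M : Submonoid (Y → K) :=
    𝓔.map ((aeval ev : MvPolynomial (Option (Fin (r + 1))) K →ₐ[K] (Y → K)) :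
      MvPolynomial (Option (Fin (r + 1))) K →* (Y → K))
  by_cases h0 : (0 : Y → K) ∈ M
  · obtain ⟨E, ⟨⟨N, hN⟩, h1⟩, hE0⟩ := h0
    have hE0' : aeval ev E = 0 := hE0
    refine ubound_of_integral_eq a b N E hN (by rw [← Transfer_eval_pt hN]; exact h1) fun y => ?_
    have h2 : (Pi.evalAlgHom K (fun _ : Y => K) y) (aeval ev E) = 0 := by
      rw [hE0', map_zero]
    rw [← AlgHom.comp_apply, comp_aeval, aeval_eq_eval] at h2
    rw [← h2]
    congr 2
    funext o
    cases o <;> rfl
  · exfalso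
    have hdisj0 : Disjoint ((⊥ : Ideal (Y → K)) : Set (Y → K)) (M : Set (Y → K)) := by
      rw [Set.disjoint_left]
      intro x hx hxM
      have hx0 : x = 0 := hx
      exact h0 (hx0 ▸ hxM)
    obtain ⟨P, hPprime, -, hdisj⟩ := Ideal.exists_le_prime_disjoint (⊥ : Ideal (Y → K)) M hdisj0
    let π : (Y → K) →ₐ[K] FractionRing ((Y → K) ⧸ P) :=
      (IsScalarTower.toAlgHom K ((Y → K) ⧸ P) (FractionRing ((Y → K) ⧸ P))).comp
        (Ideal.Quotient.mkₐ K P)
    obtain ⟨N, E, hN, h1, hE0⟩ := exists_integral_eq (K := K) (π a) (fun i => π (b i))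
      (H (FractionRing ((Y → K) ⧸ P)) π)
    have h2 : π (aeval ev E) = 0 := by
      rw [← AlgHom.comp_apply, comp_aeval, ← hE0]
      congr 2
      funext o
      cases o <;> rfl
    have h3 : aeval ev E ∈ P := by
      have h4 : algebraMap ((Y → K) ⧸ P) (FractionRing ((Y → K) ⧸ P))
          (Ideal.Quotient.mk P (aeval ev E)) = 0 := h2
      rw [map_eq_zero_iff _ (IsFractionRing.injective ((Y → K) ⧸ P) (FractionRing ((Y → K) ⧸ P)))]
        at h4
      exact Ideal.Quotient.eq_zero_iff_mem.mp h4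
    have h5 : aeval ev E ∈ M := ⟨E, ⟨⟨N, hN⟩, by rw [Transfer_eval_pt hN]; exact h1⟩, rfl⟩
    exact Set.disjoint_left.mp hdisj h3 h5

/-- Version with finite index sets: `sup_α |a_α| ≤ C sup_β |b_β|`. -/
theorem transfer_sup {K : Type u} [Field K] {Y : Type w} {ι κ : Type*} (s : Finset ι)
    (hs : s.Nonempty) (t : Finset κ) (ht : t.Nonempty) (a : ι → Y → K) (b : κ → Y → K)
    (H : ∀ (Ω : Type (max u w)) [Field Ω] [Algebra K Ω] (π : (Y → K) →ₐ[K] Ω)
      (V : ValuationSubring Ω), (∀ c : K, algebraMap K Ω c ∈ V) →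
      ∀ i ∈ s, ∃ j ∈ t, V.valuation (π (a i)) ≤ V.valuation (π (b j))) :
    UBound (fun (v : AbsoluteValue K ℝ) y => s.sup' hs fun i => v (a i y))
      (fun v y => t.sup' ht fun j => v (b j y)) := by
  classical
  obtain ⟨r, hr⟩ : ∃ r, t.card = r + 1 := ⟨t.card - 1, by have := ht.card_pos; omega⟩
  let e : Fin (r + 1) ≃ t := (finCongr hr.symm).trans t.equivFin.symm
  have hB : ∀ (v : AbsoluteValue K ℝ) (y : Y), 0 ≤ t.sup' ht fun j => v (b j y) := by
    intro v y
    obtain ⟨j, hj⟩ := ht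
    exact (v.nonneg _).trans (Finset.le_sup' (fun j => v (b j y)) hj)
  refine Transfer_ubound_sup s hs hB fun i hi => ?_
  obtain ⟨S, hS, hC⟩ := transfer (a i) (fun k => b (e k : κ)) (by
    intro Ω _ _ π V hV
    obtain ⟨j, hj, hle⟩ := H Ω π V hV i hi
    exact ⟨e.symm ⟨j, hj⟩, by rw [Equiv.apply_symm_apply]; exact hle⟩)
  refine ⟨S, hS, fun v => ?_⟩
  obtain ⟨C, hC1, hC2, hC3⟩ := hC v
  refine ⟨C, hC1, hC2, fun y => (hC3 y).trans ?_⟩
  refine mul_le_mul_of_nonneg_left ?_ (zero_le_one.trans hC1)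
  exact Finset.sup'_le _ _ fun k _ => Finset.le_sup' (fun j => v (b j y)) (e k).2

end Fermat.Agent.S17
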