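import Fermat.Agent.S17.Glob.Defs
import Fermat.Agent.S17.Val.Transfer
import Fermat.Agent.S17.Loc.UB

/-!
# S17 / VAL: the EASY half of the Vandermonde estimate

`StmtVV F` : the valuative inequality (valuations trivial on `K`), proved in `Val/VV.lean`.
`vdm_easy_of_vv` (leaf `VE`): `StmtVV F → UBound vdmA vdmB` by the transfer principle.

Proof of `vdm_easy_of_vv`.  `Y := Fin d → (R →ₐ[K] K)`.  Index sets:
`s := {(I, α, α')}`, `I ∈ idxFam n d`, `α, α' : Fin d × Fin d → ℕ` with values in `idx n1`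
(use `Fintype.piFinset`), `a_(I,α,α') y := det (y a (e (I b))) * ∏_{p ∈ pairs d} y p.1 (e (α p)) * y p.2 (e (α' p))`;
`t := {(κ, β, β')}`, `κ ∈ idxFam n d`,
`b_(κ,β,β') y := (∏_a y a (e (κ a))) * ∏_{p ∈ pairs d} (y p.1 (e (β p)) * y p.2 (e (β' p)) - y p.1 (e (β' p)) * y p.2 (e (β p)))`.
For an absolute value `v` (multiplicative!) `vdmA F v n y = sup_s v (a y)` (choose maximisers:
`Finset.exists_mem_eq_sup'`; `≥` is not needed, only `vdmA ≤ sup`), and `sup_t v (b y) ≤ vdmB F v n y`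
(`Finset.le_sup'`; the `2 × 2` determinant is `Matrix.det_fin_two`).  For `π : (Y → K) →ₐ[K] Ω` put
`ψ a : R →ₐ[K] Ω`, `ψ a r := π (fun y => y a r)`; then `π (a_(..)) =` the same expression in `ψ`
(`map_prod`, `RingHom.map_det`), `v (π a_(..)) ≤ vdmA F v n ψ ≤ vdmB F v n ψ = v (π b_(..))` for the maximising
`(κ, β, β')`.  Conclude by `transfer_sup`.
-/

set_option autoImplicit false

namespace Fermat.Agent.S17

universe u w

variable {K : Type u} {R : Type w} [Field K] [CommRing R] [Algebra K R]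

/-- The valuative form of the easy half: for every field `Ω ⊇ K`, every valuation subring `V ⊇ K`
and all `Ω`-valued points. -/
def StmtVV (F : Frame K R) : Prop :=
  ∀ (Ω : Type (max u w)) [Field Ω] [Algebra K Ω] (V : ValuationSubring Ω),
    (∀ c : K, algebraMap K Ω c ∈ V) → ∀ (n d : ℕ) (ψ : Fin d → (R →ₐ[K] Ω)),
      vdmA F V.valuation n ψ ≤ vdmB F V.valuation n ψ

section VEaux

variable (F : Frame K R)

/-- index type for the monomials of `vdmA`. -/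
abbrev VE_IA (d : ℕ) : Type := (Fin d → ℕ) × (Fin d × Fin d → ℕ) × (Fin d × Fin d → ℕ)

/-- index type for the monomials of `vdmB`. -/
abbrev VE_IB (d : ℕ) : Type := (Fin d → ℕ) × (Fin d × Fin d → Fin 2 → ℕ)

/-- index set for `vdmA`. -/
noncomputable def VE_sA (n d : ℕ) : Finset (VE_IA d) :=
  F.idxFam n d ×ˢ (Fintype.piFinset (fun _ : Fin d × Fin d => F.idx F.n1) ×ˢ
    Fintype.piFinset (fun _ : Fin d × Fin d => F.idx F.n1))

/-- index set for `vdmB`. -/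
noncomputable def VE_sB (n d : ℕ) : Finset (VE_IB d) :=
  F.idxFam n d ×ˢ Fintype.piFinset (fun _ : Fin d × Fin d => F.idxFam F.n1 2)

theorem mem_VE_sA {n d : ℕ} {σ : VE_IA d} : σ ∈ VE_sA F n d ↔
    σ.1 ∈ F.idxFam n d ∧ (∀ p, σ.2.1 p ∈ F.idx F.n1) ∧ ∀ p, σ.2.2 p ∈ F.idx F.n1 := by
  simp only [VE_sA, Finset.mem_product, Fintype.mem_piFinset]

theorem mem_VE_sB {n d : ℕ} {τ : VE_IB d} : τ ∈ VE_sB F n d ↔
    τ.1 ∈ F.idxFam n d ∧ ∀ p, τ.2 p ∈ F.idxFam F.n1 2 := by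
  simp only [VE_sB, Finset.mem_product, Fintype.mem_piFinset]

theorem VE_two_coe {α β : Type*} (f : α → β) (x y : α) (a : Fin 2) :
    f (two x y a) = two (f x) (f y) a := by
  fin_cases a <;> rfl

section ring

variable {Ω : Type*} [CommRing Ω]

/-- the monomials of `vdmA`. -/
noncomputable def VE_a {d : ℕ} (σ : VE_IA d) (ψ : Fin d → R → Ω) : Ω :=
  (F.mat ψ σ.1).det * ∏ p ∈ pairs d, (ψ p.1 (F.e (σ.2.1 p)) * ψ p.2 (F.e (σ.2.2 p)))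

/-- the monomials of `vdmB`. -/
noncomputable def VE_b {d : ℕ} (τ : VE_IB d) (ψ : Fin d → R → Ω) : Ω :=
  (∏ a, ψ a (F.e (τ.1 a))) *
    ∏ p ∈ pairs d, (F.mat (fun a => two (ψ p.1) (ψ p.2) a) (τ.2 p)).det

theorem VE_a_map {Ω' : Type*} [CommRing Ω'] (θ : Ω →+* Ω') {d : ℕ} (σ : VE_IA d)
    (ψ : Fin d → R → Ω) : θ (VE_a F σ ψ) = VE_a F σ (fun a r => θ (ψ a r)) := by
  unfold VE_a
  rw [map_mul, map_prod, RingHom.map_det]
  simp only [map_mul]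
  rfl

theorem VE_b_map {Ω' : Type*} [CommRing Ω'] (θ : Ω →+* Ω') {d : ℕ} (τ : VE_IB d)
    (ψ : Fin d → R → Ω) : θ (VE_b F τ ψ) = VE_b F τ (fun a r => θ (ψ a r)) := by
  unfold VE_b
  rw [map_mul, map_prod, map_prod]
  congr 1
  refine Finset.prod_congr rfl fun p _ => ?_
  rw [RingHom.map_det]
  congr 1
  ext i j
  fin_cases i <;> rfl

section order

variable {Γ : Type*} [LinearOrder Γ]

/-- `vdmA` for families of functions. -/
noncomputable def VE_A [CommMonoid Γ] (φ : Ω → Γ) (n : ℕ) {d : ℕ} (ψ : Fin d → R → Ω) : Γ :=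
  F.wdg φ n ψ * ∏ p ∈ pairs d, (F.nrm φ F.n1 (ψ p.1) * F.nrm φ F.n1 (ψ p.2))

/-- `vdmB` for families of functions. -/
noncomputable def VE_B [CommMonoid Γ] (φ : Ω → Γ) (n : ℕ) {d : ℕ} (ψ : Fin d → R → Ω) : Γ :=
  (∏ a, F.nrm φ n (ψ a)) * ∏ p ∈ pairs d, F.wdg φ F.n1 (fun a => two (ψ p.1) (ψ p.2) a)

omit [LinearOrder Γ] in
theorem VE_map_prod [CommMonoid Γ] (φ : Ω → Γ) (h1 : φ 1 = 1)
    (hm : ∀ x y, φ (x * y) = φ x * φ y) {ι : Type*} (s : Finset ι) (f : ι → Ω) :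
    φ (∏ i ∈ s, f i) = ∏ i ∈ s, φ (f i) :=
  map_prod (⟨⟨φ, h1⟩, hm⟩ : Ω →* Γ) f s

theorem VE_A_max [CommMonoid Γ] (φ : Ω → Γ) (h1 : φ 1 = 1) (hm : ∀ x y, φ (x * y) = φ x * φ y)
    (n : ℕ) {d : ℕ} (ψ : Fin d → R → Ω) :
    ∃ σ ∈ VE_sA F n d, VE_A F φ n ψ = φ (VE_a F σ ψ) := by
  obtain ⟨I, hI, eI⟩ := Finset.exists_mem_eq_sup' (F.idxFam_nonempty n d)
    (fun J => φ (F.mat ψ J).det)
  have hα : ∀ a : Fin d, ∃ i ∈ F.idx F.n1, F.nrm φ F.n1 (ψ a) = φ (ψ a (F.e i)) :=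
    fun a => Finset.exists_mem_eq_sup' (F.idx_nonempty _) _
  choose α hα1 hα2 using hα
  refine ⟨(I, fun p => α p.1, fun p => α p.2), ?_, ?_⟩
  · rw [mem_VE_sA]; exact ⟨hI, fun p => hα1 _, fun p => hα1 _⟩
  · unfold VE_A VE_a
    rw [hm, VE_map_prod φ h1 hm]
    simp only [hm]
    congr 1
    exact Finset.prod_congr rfl fun p _ => by rw [hα2, hα2]

theorem VE_B_max [CommMonoid Γ] (φ : Ω → Γ) (h1 : φ 1 = 1) (hm : ∀ x y, φ (x * y) = φ x * φ y)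
    (n : ℕ) {d : ℕ} (ψ : Fin d → R → Ω) :
    ∃ τ ∈ VE_sB F n d, VE_B F φ n ψ = φ (VE_b F τ ψ) := by
  have hκ : ∀ a : Fin d, ∃ i ∈ F.idx n, F.nrm φ n (ψ a) = φ (ψ a (F.e i)) :=
    fun a => Finset.exists_mem_eq_sup' (F.idx_nonempty _) _
  choose κ hκ1 hκ2 using hκ
  have hβ : ∀ p : Fin d × Fin d, ∃ J ∈ F.idxFam F.n1 2,
      F.wdg φ F.n1 (fun a => two (ψ p.1) (ψ p.2) a) =
        φ (F.mat (fun a => two (ψ p.1) (ψ p.2) a) J).det :=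
    fun p => Finset.exists_mem_eq_sup' (F.idxFam_nonempty _ _) _
  choose β hβ1 hβ2 using hβ
  refine ⟨(κ, β), ?_, ?_⟩
  · rw [mem_VE_sB]
    refine ⟨?_, hβ1⟩
    rw [F.mem_idxFam]
    exact fun b => F.mem_idx.mp (hκ1 b)
  · unfold VE_B VE_b
    rw [hm, VE_map_prod φ h1 hm, VE_map_prod φ h1 hm]
    congr 1
    · exact Finset.prod_congr rfl fun a _ => hκ2 a
    · exact Finset.prod_congr rfl fun p _ => hβ2 p

variable [CommMonoidWithZero Γ] [PosMulMono Γ] [MulPosMono Γ] [ZeroLEOneClass Γ]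

theorem VE_a_le (φ : Ω → Γ) (h1 : φ 1 = 1) (hm : ∀ x y, φ (x * y) = φ x * φ y)
    (h0 : ∀ x, 0 ≤ φ x) (n : ℕ) {d : ℕ} (ψ : Fin d → R → Ω) {σ : VE_IA d}
    (hσ : σ ∈ VE_sA F n d) : φ (VE_a F σ ψ) ≤ VE_A F φ n ψ := by
  rw [mem_VE_sA] at hσ
  obtain ⟨hI, hα, hα'⟩ := hσ
  have hn : ∀ (a : Fin d) {i : ℕ}, i ∈ F.idx F.n1 → φ (ψ a (F.e i)) ≤ F.nrm φ F.n1 (ψ a) :=
    fun a i hi => Finset.le_sup' (fun i => φ (ψ a (F.e i))) hi
  have hw : φ (F.mat ψ σ.1).det ≤ F.wdg φ n ψ :=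
    Finset.le_sup' (fun J => φ (F.mat ψ J).det) hI
  unfold VE_A VE_a
  rw [hm, VE_map_prod φ h1 hm]
  simp only [hm]
  refine mul_le_mul hw (Finset.prod_le_prod (fun p _ => mul_nonneg (h0 _) (h0 _)) fun p _ => ?_)
    (Finset.prod_nonneg fun p _ => mul_nonneg (h0 _) (h0 _)) ((h0 _).trans hw)
  exact mul_le_mul (hn _ (hα p)) (hn _ (hα' p)) (h0 _) ((h0 _).trans (hn _ (hα p)))

theorem VE_b_le (φ : Ω → Γ) (h1 : φ 1 = 1) (hm : ∀ x y, φ (x * y) = φ x * φ y)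
    (h0 : ∀ x, 0 ≤ φ x) (n : ℕ) {d : ℕ} (ψ : Fin d → R → Ω) {τ : VE_IB d}
    (hτ : τ ∈ VE_sB F n d) : φ (VE_b F τ ψ) ≤ VE_B F φ n ψ := by
  rw [mem_VE_sB] at hτ
  obtain ⟨hκ, hβ⟩ := hτ
  rw [F.mem_idxFam] at hκ
  have hn : ∀ a : Fin d, φ (ψ a (F.e (τ.1 a))) ≤ F.nrm φ n (ψ a) :=
    fun a => Finset.le_sup' (fun i => φ (ψ a (F.e i))) (F.mem_idx.mpr (hκ a))
  have hw : ∀ p : Fin d × Fin d, φ (F.mat (fun a => two (ψ p.1) (ψ p.2) a) (τ.2 p)).det ≤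
      F.wdg φ F.n1 (fun a => two (ψ p.1) (ψ p.2) a) :=
    fun p => Finset.le_sup' (fun J => φ (F.mat (fun a => two (ψ p.1) (ψ p.2) a) J).det) (hβ p)
  unfold VE_B VE_b
  rw [hm, VE_map_prod φ h1 hm, VE_map_prod φ h1 hm]
  exact mul_le_mul (Finset.prod_le_prod (fun a _ => h0 _) fun a _ => hn a)
    (Finset.prod_le_prod (fun p _ => h0 _) fun p _ => hw p)
    (Finset.prod_nonneg fun p _ => h0 _)
    (Finset.prod_nonneg fun a _ => (h0 _).trans (hn a))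

end order

end ring

theorem VE_vdmA_eq {Ω Γ : Type*} [CommRing Ω] [Algebra K Ω] [LinearOrder Γ] [CommMonoid Γ]
    (φ : Ω → Γ) (n : ℕ) {d : ℕ} (P : Fin d → (R →ₐ[K] Ω)) :
    vdmA F φ n P = VE_A F φ n (fun a => ⇑(P a)) := rfl

theorem VE_vdmB_eq {Ω Γ : Type*} [CommRing Ω] [Algebra K Ω] [LinearOrder Γ] [CommMonoid Γ]
    (φ : Ω → Γ) (n : ℕ) {d : ℕ} (P : Fin d → (R →ₐ[K] Ω)) :
    vdmB F φ n P = VE_B F φ n (fun a => ⇑(P a)) := by
  unfold vdmB VE_B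
  have e : ∀ p : Fin d × Fin d, (fun a => ⇑(two (P p.1) (P p.2) a)) =
      fun a => two (⇑(P p.1) : R → Ω) (⇑(P p.2)) a := fun p => by
    funext a
    exact VE_two_coe (fun f : R →ₐ[K] Ω => (⇑f : R → Ω)) (P p.1) (P p.2) a
  simp only [e]

end VEaux

/-- EASY half from the valuative inequality. -/
theorem vdm_easy_of_vv (F : Frame K R) (h : StmtVV F) (n d : ℕ) :
    UBound (α := Fin d → (R →ₐ[K] K)) (fun v P => vdmA F v n P) (fun v P => vdmB F v n P) := by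
  -- the universal point
  let ev : Fin d → (R →ₐ[K] ((Fin d → (R →ₐ[K] K)) → K)) :=
    fun a => AlgHom.pi (fun y : Fin d → (R →ₐ[K] K) => y a)
  have hsA : (VE_sA F n d).Nonempty := by
    obtain ⟨σ, hσ, -⟩ := VE_A_max F (Ω := K) (Γ := ℕ) (fun _ => 1) rfl (fun _ _ => rfl) n
      (d := d) (fun _ _ => 0)
    exact ⟨σ, hσ⟩
  have hsB : (VE_sB F n d).Nonempty := by
    obtain ⟨τ, hτ, -⟩ := VE_B_max F (Ω := K) (Γ := ℕ) (fun _ => 1) rfl (fun _ _ => rfl) n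
      (d := d) (fun _ _ => 0)
    exact ⟨τ, hτ⟩
  have evA : ∀ (σ : VE_IA d) (y : Fin d → (R →ₐ[K] K)),
      VE_a F σ (fun a => ⇑(ev a)) y = VE_a F σ (fun a => ⇑(y a)) := fun σ y =>
    VE_a_map F (Pi.evalRingHom (fun _ : Fin d → (R →ₐ[K] K) => K) y) σ (fun a => ⇑(ev a))
  have evB : ∀ (τ : VE_IB d) (y : Fin d → (R →ₐ[K] K)),
      VE_b F τ (fun a => ⇑(ev a)) y = VE_b F τ (fun a => ⇑(y a)) := fun τ y =>
    VE_b_map F (Pi.evalRingHom (fun _ : Fin d → (R →ₐ[K] K) => K) y) τ (fun a => ⇑(ev a))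
  have h1 := transfer_sup (K := K) (Y := Fin d → (R →ₐ[K] K)) (VE_sA F n d) hsA (VE_sB F n d) hsB
    (fun σ => VE_a F σ (fun a => ⇑(ev a))) (fun τ => VE_b F τ (fun a => ⇑(ev a))) (by
      intro Ω _ _ π V hV σ hσ
      let ψ : Fin d → (R →ₐ[K] Ω) := fun a => π.comp (ev a)
      obtain ⟨τ, hτ, hmax⟩ := VE_B_max F (⇑V.valuation) (map_one _) (map_mul _) n
        (fun a => ⇑(ψ a))
      refine ⟨τ, hτ, ?_⟩
      have e1 : π (VE_a F σ (fun a => ⇑(ev a))) = VE_a F σ (fun a => ⇑(ψ a)) :=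
        VE_a_map F (π : ((Fin d → (R →ₐ[K] K)) → K) →+* Ω) σ (fun a => ⇑(ev a))
      have e2 : π (VE_b F τ (fun a => ⇑(ev a))) = VE_b F τ (fun a => ⇑(ψ a)) :=
        VE_b_map F (π : ((Fin d → (R →ₐ[K] K)) → K) →+* Ω) τ (fun a => ⇑(ev a))
      rw [e1, e2, ← hmax, ← VE_vdmB_eq]
      refine le_trans ?_ (h Ω V hV n d ψ)
      rw [VE_vdmA_eq]
      exact VE_a_le F (⇑V.valuation) (map_one _) (map_mul _) (fun _ => zero_le) n _ hσ)
  refine (UBound.of_le fun v y => ?_).trans (h1.trans (UBound.of_le fun v y => ?_))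
  · obtain ⟨σ, hσ, hmax⟩ := VE_A_max F (⇑v) (map_one _) (map_mul _) n (fun a => ⇑(y a))
    rw [VE_vdmA_eq, hmax, ← evA]
    exact Finset.le_sup' (fun σ => v (VE_a F σ (fun a => ⇑(ev a)) y)) hσ
  · refine Finset.sup'_le _ _ fun τ hτ => ?_
    rw [VE_vdmB_eq, evB]
    exact VE_b_le F (⇑v) (map_one _) (map_mul _) (fun _ => v.nonneg _) n _ hτ

end Fermat.Agent.S17
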