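import Fermat.Agent.S17.Val.LocB
import Fermat.Agent.S17.Val.VE

/-!
# S17 / VAL: the valuative inequality `StmtVV` (assembly of `LocA`, `LocB`)

`v = V.valuation`.  Points `ψ_c : R →ₐ[K] Ω`.  `TypeA ψ` : `ψ(R) ⊆ V`.  `Rel ψ ψ'` : same reduction
(both reduce to `∞`, or both finite and congruent mod `m_V`).

* `nrm_typeA`, `nrm_typeB`.
* `vv_sep`: not related ⟹ `|ψ|_{n1} |ψ'|_{n1} ≤ |ξ(ψ) ∧ ξ(ψ')|_{n1}`.  (Both finite: they differ mod `m_V` on some `e i`, `wt i ≤ n1`
  (`adjoin_eq_top`): minor with columns `0, i` is a unit.  One finite, one infinite: minor with columns `0, t`,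
  `wt t = n1`: `ψ'(e t) - ψ(e t)` has valuation `v(ψ'(e t)) = |ψ'|_{n1}` (`> 1 ≥`).)
* `vv_class`: a family of pairwise related points: parameter `τ`, normalisers `u`.
  Type A: `τ_c = ψ_c (e i)` from `locA`, `u = 1`.  Type B: `τ_c = ψ_c (e t')/ψ_c (e t)`, `u_c = ψ_c (e (dim n - 1))`, `locB`, `locB_val`.
* `vv_det`: pure matrix lemma: `M = diag(u) * T * Λ`, `T c l = [rel c l] ∏_{c' < l, rel c' l} (τ c - τ c')` is lower triangular
  (`Matrix.det_of_lowerTriangular`), `Λ` has entries in `V` (so `det Λ ∈ V`, `v ≤ 1`).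
* `stmtVV`: for `I ∈ idxFam n d`: apply `vv_class` to each class `{c | Rel (ψ a) (ψ c)}` (as a subtype of `Fin d`, choose the data
  once per class, e.g. via the minimal element of the class), reindex sums over the subtype as filtered sums over
  `Fin d`, `vv_det` gives `v (det) ≤ ∏_c |ψ_c|_n * ∏_{a<b related} v (τ_b - τ_a)`; multiply by `∏_{a<b} |ψ_a|_{n1}|ψ_b|_{n1}` and use
  `vv_class` (ii) for related pairs and `vv_sep` for unrelated pairs.
-/

set_option autoImplicit false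

namespace Fermat.Agent.S17

universe u w

variable {K : Type u} {R : Type w} [Field K] [CommRing R] [Algebra K R] (F : Frame K R)
variable {Ω : Type*} [Field Ω] [Algebra K Ω] (V : ValuationSubring Ω)

/-- finite reduction. -/
def TypeA (ψ : R →ₐ[K] Ω) : Prop := ∀ r, ψ r ∈ V

/-- same reduction. -/
def Rel (ψ ψ' : R →ₐ[K] Ω) : Prop :=
  (¬ TypeA V ψ ∧ ¬ TypeA V ψ') ∨
    (TypeA V ψ ∧ TypeA V ψ' ∧ ∀ r, V.valuation (ψ r - ψ' r) < 1)

theorem rel_refl (ψ : R →ₐ[K] Ω) : Rel V ψ ψ := by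
  by_cases h : TypeA V ψ
  · exact Or.inr ⟨h, h, fun r => by rw [sub_self, map_zero]; exact zero_lt_one⟩
  · exact Or.inl ⟨h, h⟩

theorem rel_symm {ψ ψ' : R →ₐ[K] Ω} (h : Rel V ψ ψ') : Rel V ψ' ψ := by
  rcases h with ⟨h1, h2⟩ | ⟨h1, h2, h3⟩
  · exact Or.inl ⟨h2, h1⟩
  · exact Or.inr ⟨h2, h1, fun r => by rw [Valuation.map_sub_swap]; exact h3 r⟩

theorem rel_trans {ψ ψ' ψ'' : R →ₐ[K] Ω} (h : Rel V ψ ψ') (h' : Rel V ψ' ψ'') : Rel V ψ ψ'' := by
  rcases h with ⟨h1, h2⟩ | ⟨h1, h2, h3⟩ <;> rcases h' with ⟨g1, g2⟩ | ⟨g1, g2, g3⟩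
  · exact Or.inl ⟨h1, g2⟩
  · exact absurd g1 h2
  · exact absurd h2 g1
  · refine Or.inr ⟨h1, g2, fun r => ?_⟩
    have h4 : ψ r - ψ'' r = (ψ r - ψ' r) + (ψ' r - ψ'' r) := by ring
    rw [h4]
    exact Valuation.map_add_lt _ (h3 r) (g3 r)

theorem nrm_typeA (ψ : R →ₐ[K] Ω) (h : TypeA V ψ) (n : ℕ) : F.nrm V.valuation n ψ = 1 := by
  unfold Frame.nrm
  apply le_antisymm
  · exact Finset.sup'_le _ _ fun i _ => (V.valuation_le_one_iff _).2 (h _)
  · have h0 : (0 : ℕ) ∈ F.idx n := Finset.mem_range.mpr (F.dim_pos n)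
    have h1 : V.valuation (ψ (F.e 0)) ≤ (F.idx n).sup' (F.idx_nonempty n)
        (fun i => V.valuation (ψ (F.e i))) :=
      Finset.le_sup' (fun i => V.valuation (ψ (F.e i))) h0
    rw [F.e_zero, map_one, map_one] at h1
    exact h1

theorem nrm_typeB [IsAlgClosed K] (hK : ∀ c : K, algebraMap K Ω c ∈ V) (ψ : R →ₐ[K] Ω)
    (h : ¬ TypeA V ψ) (n : ℕ) :
    F.nrm V.valuation n ψ = V.valuation (ψ (F.e (F.dim n - 1))) := by
  have hB : ∃ r, ψ r ∉ V := by
    unfold TypeA at h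
    push Not at h
    exact h
  obtain ⟨-, hval⟩ := locB_val F V hK ψ hB
  have hmono : ∀ i j, i ≤ j → V.valuation (ψ (F.e i)) ≤ V.valuation (ψ (F.e j)) := by
    intro i j hij
    rcases hij.lt_or_eq with h1 | rfl
    · exact ((hval _ _ (F.e.ne_zero i) (F.e.ne_zero j)).1
        (by rw [F.deg_e, F.deg_e]; exact F.wt_strictMono h1)).le
    · exact le_rfl
  unfold Frame.nrm
  apply le_antisymm
  · refine Finset.sup'_le _ _ fun i hi => hmono _ _ ?_
    have h1 := Finset.mem_range.1 hi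
    omega
  · exact Finset.le_sup' (fun i => V.valuation (ψ (F.e i)))
      (Finset.mem_range.2 (by have := F.dim_pos n; omega))

/-- the minor with columns `0, i`. -/
theorem VV_minor_le (ψ ψ' : R →ₐ[K] Ω) {i : ℕ} (hi : F.wt i ≤ F.n1) :
    V.valuation (ψ' (F.e i) - ψ (F.e i)) ≤
      F.wdg V.valuation F.n1 (fun a => ⇑(two ψ ψ' a)) := by
  have hJ : (![0, i] : Fin 2 → ℕ) ∈ F.idxFam F.n1 2 := by
    rw [F.mem_idxFam]
    intro b
    fin_cases b
    · simp [F.wt_zero]
    · simpa using hi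
  have h1 := Finset.le_sup' (fun J => V.valuation (F.mat (fun a => ⇑(two ψ ψ' a)) J).det) hJ
  have hdet : (F.mat (fun a => ⇑(two ψ ψ' a)) ![0, i]).det = ψ' (F.e i) - ψ (F.e i) := by
    rw [Matrix.det_fin_two]
    simp [Frame.mat, two, F.e_zero]
  simp only [hdet] at h1
  exact h1

/-- two finite points which are congruent on the generators are congruent. -/
theorem VV_congr (ψ ψ' : R →ₐ[K] Ω) (h1 : TypeA V ψ) (h2 : TypeA V ψ')
    (hall : ∀ i, F.wt i ≤ F.n1 → V.valuation (ψ (F.e i) - ψ' (F.e i)) < 1) (r : R) :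
    V.valuation (ψ r - ψ' r) < 1 := by
  let A : Subalgebra K R :=
    { carrier := {r | V.valuation (ψ r - ψ' r) < 1}
      mul_mem' := by
        intro a b ha hb
        show V.valuation (ψ (a * b) - ψ' (a * b)) < 1
        have h3 : ψ (a * b) - ψ' (a * b) = ψ a * (ψ b - ψ' b) + (ψ a - ψ' a) * ψ' b := by
          rw [map_mul, map_mul]
          ring
        rw [h3]
        refine Valuation.map_add_lt _ ?_ ?_
        · rw [map_mul]
          exact (mul_le_of_le_one_left' ((V.valuation_le_one_iff _).2 (h1 a))).trans_lt hb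
        · rw [map_mul]
          exact (mul_le_of_le_one_right' ((V.valuation_le_one_iff _).2 (h2 b))).trans_lt ha
      add_mem' := by
        intro a b ha hb
        show V.valuation (ψ (a + b) - ψ' (a + b)) < 1
        have h3 : ψ (a + b) - ψ' (a + b) = (ψ a - ψ' a) + (ψ b - ψ' b) := by
          rw [map_add, map_add]
          ring
        rw [h3]
        exact Valuation.map_add_lt _ ha hb
      algebraMap_mem' := by
        intro c
        show V.valuation (ψ (algebraMap K R c) - ψ' (algebraMap K R c)) < 1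
        rw [AlgHom.commutes, AlgHom.commutes, sub_self, map_zero]
        exact zero_lt_one }
  have hA : A = ⊤ := by
    rw [eq_top_iff, ← F.adjoin_eq_top]
    refine Algebra.adjoin_le ?_
    rintro _ ⟨i, hi, rfl⟩
    exact hall i hi
  have hr : r ∈ A := by
    rw [hA]
    exact Algebra.mem_top
  exact hr

/-- one finite point, one point reducing to `∞`. -/
theorem VV_sep_mixed [IsAlgClosed K] (hK : ∀ c : K, algebraMap K Ω c ∈ V) (ψ ψ' : R →ₐ[K] Ω)
    (h1 : TypeA V ψ) (h2 : ¬ TypeA V ψ') :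
    ∃ t, F.wt t ≤ F.n1 ∧ F.nrm V.valuation F.n1 ψ' = V.valuation (ψ' (F.e t)) ∧
      V.valuation (ψ (F.e t)) < V.valuation (ψ' (F.e t)) := by
  have hB : ∃ r, ψ' r ∉ V := by
    unfold TypeA at h2
    push Not at h2
    exact h2
  obtain ⟨-, hval⟩ := locB_val F V hK ψ' hB
  have hdim : F.dim F.n1 = F.n1 + 1 - F.g := F.dim_eq (by unfold Frame.n1; omega)
  have hn1 : F.n1 = 4 * F.g + 2 := rfl
  refine ⟨F.dim F.n1 - 1, F.lt_dim_iff.1 (by omega), nrm_typeB F V hK ψ' h2 F.n1, ?_⟩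
  have h3 : V.valuation (ψ' (F.e 0)) < V.valuation (ψ' (F.e (F.dim F.n1 - 1))) :=
    (hval _ _ (F.e.ne_zero 0) (F.e.ne_zero _)).1
      (by rw [F.deg_e, F.deg_e]; exact F.wt_strictMono (by omega))
  rw [F.e_zero, map_one, map_one] at h3
  exact ((V.valuation_le_one_iff _).2 (h1 _)).trans_lt h3

theorem vv_sep [IsAlgClosed K] (hK : ∀ c : K, algebraMap K Ω c ∈ V) (ψ ψ' : R →ₐ[K] Ω)
    (h : ¬ Rel V ψ ψ') :
    F.nrm V.valuation F.n1 ψ * F.nrm V.valuation F.n1 ψ' ≤
      F.wdg V.valuation F.n1 (fun a => ⇑(two ψ ψ' a)) := by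
  by_cases h1 : TypeA V ψ <;> by_cases h2 : TypeA V ψ'
  · rw [nrm_typeA F V ψ h1, nrm_typeA F V ψ' h2, one_mul]
    by_contra hcon
    apply h
    refine Or.inr ⟨h1, h2, VV_congr F V ψ ψ' h1 h2 fun i hi => ?_⟩
    rw [Valuation.map_sub_swap]
    exact (VV_minor_le F V ψ ψ' hi).trans_lt (not_le.1 hcon)
  · obtain ⟨t, ht, hn, hlt⟩ := VV_sep_mixed F V hK ψ ψ' h1 h2
    rw [nrm_typeA F V ψ h1, one_mul, hn, ← Valuation.map_sub_eq_of_lt_left _ hlt]
    exact VV_minor_le F V ψ ψ' ht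
  · obtain ⟨t, ht, hn, hlt⟩ := VV_sep_mixed F V hK ψ' ψ h2 h1
    rw [nrm_typeA F V ψ' h2, mul_one, hn, ← Valuation.map_sub_eq_of_lt_left _ hlt,
      Valuation.map_sub_swap]
    exact VV_minor_le F V ψ ψ' ht
  · exact absurd (Or.inl ⟨h1, h2⟩) h

/-- a `2 × 2` minor is bounded by the wedge norm. -/
theorem VVclass_le_wdg (ψ ψ' : R →ₐ[K] Ω) {i j : ℕ} (hi : F.wt i ≤ F.n1) (hj : F.wt j ≤ F.n1) :
    V.valuation (ψ (F.e i) * ψ' (F.e j) - ψ (F.e j) * ψ' (F.e i)) ≤
      F.wdg V.valuation F.n1 (fun a => ⇑(two ψ ψ' a)) := by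
  have hmem : (![i, j] : Fin 2 → ℕ) ∈ F.idxFam F.n1 2 := by
    rw [F.mem_idxFam]
    intro b
    fin_cases b
    · exact hi
    · exact hj
  have h1 := Finset.le_sup' (fun J => V.valuation (F.mat (fun a => ⇑(two ψ ψ' a)) J).det) hmem
  have h2 : (F.mat (fun a => ⇑(two ψ ψ' a)) ![i, j]).det =
      ψ (F.e i) * ψ' (F.e j) - ψ (F.e j) * ψ' (F.e i) := by
    rw [Matrix.det_fin_two]
    rfl
  rw [← h2]
  exact h1

theorem VVclass_dim_sub_one {n t : ℕ} (ht : F.wt t = n) : F.dim n - 1 = t := by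
  have h1 : t < F.dim n := F.lt_dim_iff.mpr ht.le
  have h2 : ¬ (t + 1 < F.dim n) := by
    rw [F.lt_dim_iff, not_le, ← ht]
    exact F.wt_strictMono (Nat.lt_succ_self t)
  omega

theorem vv_class [IsAlgClosed K] [CharZero K] (hS : F.Smooth)
    (hK : ∀ c : K, algebraMap K Ω c ∈ V) {ι : Type*} [Fintype ι] [LinearOrder ι]
    (ψ : ι → (R →ₐ[K] Ω)) (hrel : ∀ c c', Rel V (ψ c) (ψ c')) :
    ∃ τ : ι → Ω,
      (∀ c c', V.valuation (τ c - τ c') *
          (F.nrm V.valuation F.n1 (ψ c) * F.nrm V.valuation F.n1 (ψ c')) ≤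
        F.wdg V.valuation F.n1 (fun a => ⇑(two (ψ c) (ψ c') a))) ∧
      ∀ n : ℕ, ∃ u : ι → Ω, (∀ c, V.valuation (u c) = F.nrm V.valuation n (ψ c)) ∧
        ∀ j, F.wt j ≤ n → ∃ x : ι → Ω, IsNewton V τ x ∧ ∀ c, ψ c (F.e j) = u c * x c := by
  classical
  rcases isEmpty_or_nonempty ι with hι | ⟨⟨c₀⟩⟩
  · exact ⟨fun _ => 0, fun c => isEmptyElim c, fun n => ⟨fun _ => 0, fun c => isEmptyElim c,
      fun j _ => ⟨fun _ => 0, ⟨fun _ => 0, fun l => isEmptyElim l, fun c => isEmptyElim c⟩,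
        fun c => isEmptyElim c⟩⟩⟩
  by_cases hA0 : TypeA V (ψ c₀)
  · -- finite reduction
    have hA : ∀ c, TypeA V (ψ c) := by
      intro c
      rcases hrel c₀ c with h | h
      · exact absurd hA0 h.1
      · exact h.2.1
    have hcong : ∀ c c' r, V.valuation (ψ c r - ψ c' r) < 1 := by
      intro c c' r
      rcases hrel c c' with h | h
      · exact absurd (hA c) h.1
      · exact h.2.2 r
    obtain ⟨i, hi, hN⟩ := locA F V hS hK ψ hA hcong
    refine ⟨fun c => ψ c (F.e i), fun c c' => ?_, fun n => ⟨fun _ => 1, fun c => ?_, fun j _ =>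
      ⟨fun c => ψ c (F.e j), hN (F.e j), fun c => (one_mul _).symm⟩⟩⟩
    · rw [nrm_typeA F V _ (hA c), nrm_typeA F V _ (hA c'), mul_one, mul_one]
      have h1 := VVclass_le_wdg F V (ψ c) (ψ c') (i := 0) (j := i)
        (by rw [F.wt_zero]; exact Nat.zero_le _) hi
      rw [F.e_zero, map_one, map_one, one_mul, mul_one, Valuation.map_sub_swap] at h1
      exact h1
    · rw [nrm_typeA F V _ (hA c), map_one]
  · -- reduction to the point at infinity
    have hB' : ∀ c, ¬ TypeA V (ψ c) := by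
      intro c
      rcases hrel c₀ c with h | h
      · exact h.2
      · exact absurd h.1 hA0
    have hB : ∀ c, ∃ r, ψ c r ∉ V := by
      intro c
      have := hB' c
      unfold TypeA at this
      push Not at this
      exact this
    have hne : ∀ c l, ψ c (F.e l) ≠ 0 := fun c l =>
      (locB_val F V hK (ψ c) (hB c)).1 _ (F.e.ne_zero l)
    obtain ⟨t, ht⟩ := F.exists_wt_eq (n := F.n1) (by rw [Frame.n1]; omega)
    obtain ⟨t', ht'⟩ := F.exists_wt_eq (n := F.n1 - 1) (by rw [Frame.n1]; omega)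
    have ht'1 : F.wt t' + 1 = F.n1 := by rw [ht', Frame.n1]; omega
    refine ⟨fun c => ψ c (F.e t') / ψ c (F.e t), fun c c' => ?_, fun n =>
      ⟨fun c => ψ c (F.e (F.dim n - 1)), fun c => (nrm_typeB F V hK _ (hB' c) n).symm, fun j hj =>
        ⟨fun c => ψ c (F.e j) / ψ c (F.e (F.dim n - 1)), ?_, fun c => ?_⟩⟩⟩
    · rw [nrm_typeB F V hK _ (hB' c), nrm_typeB F V hK _ (hB' c'), VVclass_dim_sub_one F ht,
        ← map_mul, ← map_mul]
      have h1 := VVclass_le_wdg F V (ψ c) (ψ c') (i := t') (j := t) (by omega) ht.le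
      have h2 : (ψ c (F.e t') / ψ c (F.e t) - ψ c' (F.e t') / ψ c' (F.e t)) *
          (ψ c (F.e t) * ψ c' (F.e t)) =
          ψ c (F.e t') * ψ c' (F.e t) - ψ c (F.e t) * ψ c' (F.e t') := by
        have e1 := hne c t
        have e2 := hne c' t
        field_simp
      rw [h2]
      exact h1
    · refine locB F V hK ψ hB t t' ht ht'1 (F.e j) (F.e (F.dim n - 1)) (F.e.ne_zero _) ?_
      rw [F.deg_e, F.deg_e]
      have h1 : j < F.dim n := F.lt_dim_iff.mpr hj
      exact F.wt_strictMono.monotone (by omega)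
    · exact (mul_div_cancel₀ _ (hne c _)).symm

open Classical in
theorem vv_det {d : ℕ} (rel : Fin d → Fin d → Prop) (τ u : Fin d → Ω)
    (M : Matrix (Fin d) (Fin d) Ω)
    (hM : ∀ b, ∃ lam : Fin d → Ω, (∀ l, lam l ∈ V) ∧ ∀ c, M c b = u c *
      ∑ l ∈ Finset.univ.filter (fun l => rel c l), lam l *
        ∏ c' ∈ Finset.univ.filter (fun c' => c' < l ∧ rel c' l), (τ c - τ c')) :
    V.valuation M.det ≤ (∏ c, V.valuation (u c)) *
      ∏ p ∈ (pairs d).filter (fun p => rel p.1 p.2), V.valuation (τ p.2 - τ p.1) := by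
  choose lam hlamV hM' using hM
  set T : Matrix (Fin d) (Fin d) Ω := Matrix.of fun c l =>
    if rel c l then ∏ c' ∈ Finset.univ.filter (fun c' => c' < l ∧ rel c' l), (τ c - τ c') else 0
    with hT
  set Λ : Matrix (Fin d) (Fin d) Ω := Matrix.of fun l b => lam b l with hΛ
  have hMeq : M = Matrix.diagonal u * (T * Λ) := by
    ext c b
    rw [Matrix.diagonal_mul, Matrix.mul_apply, hM' b c, Finset.sum_filter]
    congr 1
    refine Finset.sum_congr rfl fun l _ => ?_
    simp only [hT, hΛ, Matrix.of_apply]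
    by_cases h : rel c l
    · rw [if_pos h, if_pos h, mul_comm]
    · rw [if_neg h, if_neg h, zero_mul]
  have htri : T.BlockTriangular OrderDual.toDual := by
    intro c l hcl
    have hcl' : c < l := hcl
    simp only [hT, Matrix.of_apply]
    by_cases h : rel c l
    · rw [if_pos h]
      exact Finset.prod_eq_zero (i := c)
        (Finset.mem_filter.2 ⟨Finset.mem_univ _, hcl', h⟩) (sub_self _)
    · rw [if_neg h]
  have hΛdet : V.valuation Λ.det ≤ 1 := by
    rw [ValuationSubring.valuation_le_one_iff]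
    have h1 : Λ = (Matrix.of fun l b => (⟨lam b l, hlamV b l⟩ : V)).map V.subtype := by
      ext l b
      rfl
    rw [h1, ← RingHom.mapMatrix_apply, ← RingHom.map_det]
    exact Subtype.property _
  have hpairs : ∏ p ∈ (pairs d).filter (fun p => rel p.1 p.2), V.valuation (τ p.2 - τ p.1) =
      ∏ l, ∏ c' ∈ Finset.univ.filter (fun c' => c' < l ∧ rel c' l),
        V.valuation (τ l - τ c') := by
    rw [pairs, Finset.filter_filter, Finset.prod_filter, Fintype.prod_prod_type, Finset.prod_comm]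
    refine Finset.prod_congr rfl fun l _ => ?_
    rw [Finset.prod_filter]
  have hTll : ∀ l, V.valuation (T l l) ≤
      ∏ c' ∈ Finset.univ.filter (fun c' => c' < l ∧ rel c' l), V.valuation (τ l - τ c') := by
    intro l
    simp only [hT, Matrix.of_apply]
    by_cases h : rel l l
    · rw [if_pos h, map_prod]
    · rw [if_neg h, map_zero]
      exact zero_le
  rw [hMeq, Matrix.det_mul, Matrix.det_mul, Matrix.det_diagonal,
    Matrix.det_of_isLowerTriangular T htri, map_mul, map_mul, map_prod, map_prod, hpairs]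
  refine mul_le_mul' le_rfl ?_
  calc (∏ l, V.valuation (T l l)) * V.valuation Λ.det
      ≤ (∏ l, ∏ c' ∈ Finset.univ.filter (fun c' => c' < l ∧ rel c' l),
          V.valuation (τ l - τ c')) * 1 :=
        mul_le_mul' (Finset.prod_le_prod' fun l _ => hTll l) hΛdet
    _ = _ := mul_one _

/-- the setoid of points with the same reduction. -/
def vvSetoid {d : ℕ} (ψ : Fin d → (R →ₐ[K] Ω)) : Setoid (Fin d) where
  r c l := Rel V (ψ c) (ψ l)
  iseqv := ⟨fun c => rel_refl V (ψ c), fun h => rel_symm V h, fun h h' => rel_trans V h h'⟩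

open Classical in
theorem vv_main [IsAlgClosed K] [CharZero K] (hS : F.Smooth)
    (hK : ∀ c : K, algebraMap K Ω c ∈ V) (n d : ℕ) (ψ : Fin d → (R →ₐ[K] Ω)) :
    ∃ τ : Fin d → Ω,
      (∀ c c', Rel V (ψ c) (ψ c') → V.valuation (τ c - τ c') *
          (F.nrm V.valuation F.n1 (ψ c) * F.nrm V.valuation F.n1 (ψ c')) ≤
        F.wdg V.valuation F.n1 (fun a => ⇑(two (ψ c) (ψ c') a))) ∧
      ∃ u : Fin d → Ω, (∀ c, V.valuation (u c) = F.nrm V.valuation n (ψ c)) ∧
        ∀ j, F.wt j ≤ n → ∃ lam : Fin d → Ω, (∀ l, lam l ∈ V) ∧ ∀ c, ψ c (F.e j) = u c *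
          ∑ l ∈ Finset.univ.filter (fun l => Rel V (ψ c) (ψ l)), lam l *
            ∏ c' ∈ Finset.univ.filter (fun c' => c' < l ∧ Rel V (ψ c') (ψ l)), (τ c - τ c') := by
  let s : Setoid (Fin d) := vvSetoid V ψ
  have hrel : ∀ {c l : Fin d}, (Quotient.mk s c = Quotient.mk s l) ↔ Rel V (ψ c) (ψ l) :=
    fun {c l} => Quotient.eq (r := s)
  have hcl := fun q : Quotient s => vv_class F V hS hK
    (ι := {c : Fin d // Quotient.mk s c = q}) (fun c => ψ c.1)
    (fun c c' => hrel.1 (c.2.trans c'.2.symm))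
  choose τq hτ1 hτ2 using hcl
  choose uq hu1 hu2 using fun q => hτ2 q n
  let τ : Fin d → Ω := fun c => τq (Quotient.mk s c) ⟨c, rfl⟩
  let u : Fin d → Ω := fun c => uq (Quotient.mk s c) ⟨c, rfl⟩
  have hτg : ∀ q (c : {c : Fin d // Quotient.mk s c = q}), τq q c = τ c.1 := by
    rintro _ ⟨c, rfl⟩
    rfl
  have hug : ∀ q (c : {c : Fin d // Quotient.mk s c = q}), uq q c = u c.1 := by
    rintro _ ⟨c, rfl⟩
    rfl
  refine ⟨τ, ?_, u, ?_, ?_⟩
  · intro c c' h
    have := hτ1 (Quotient.mk s c) ⟨c, rfl⟩ ⟨c', (hrel.2 h).symm⟩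
    rw [hτg, hτg] at this
    exact this
  · intro c
    exact hu1 (Quotient.mk s c) ⟨c, rfl⟩
  · intro j hj
    choose x hx1 hx2 using fun q => hu2 q j hj
    choose lamq hl1 hl2 using hx1
    let lam : Fin d → Ω := fun l => lamq (Quotient.mk s l) ⟨l, rfl⟩
    have hlg : ∀ q (l : {c : Fin d // Quotient.mk s c = q}), lamq q l = lam l.1 := by
      rintro _ ⟨l, rfl⟩
      rfl
    refine ⟨lam, fun l => hl1 _ _, fun c => ?_⟩
    have h1 := hx2 (Quotient.mk s c) ⟨c, rfl⟩
    rw [hl2, hug] at h1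
    simp only at h1
    rw [h1]
    congr 1
    rw [Finset.sum_subtype (p := fun l => Quotient.mk s l = Quotient.mk s c)
      (Finset.univ.filter (fun l => Rel V (ψ c) (ψ l)))
      (fun l => by
        simp only [Finset.mem_filter, Finset.mem_univ, true_and]
        rw [← hrel]
        exact eq_comm)]
    refine Finset.sum_congr rfl fun l _ => ?_
    rw [hlg]
    congr 1
    unfold newt
    rw [Finset.prod_filter]
    simp only [hτg]
    trans (∏ x : {l : Fin d // Quotient.mk s l = Quotient.mk s c},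
        (fun c' : Fin d => if c' < l.1 then τ c - τ c' else 1) x.1)
    · refine Finset.prod_congr rfl fun x _ => ?_
      by_cases h : x < l
      · rw [if_pos h]
        exact (if_pos (show x.1 < l.1 from h)).symm
      · rw [if_neg h]
        exact (if_neg (show ¬ x.1 < l.1 from h)).symm
    rw [← Finset.prod_subtype (p := fun l => Quotient.mk s l = Quotient.mk s c)
      (Finset.univ.filter (fun c' => Quotient.mk s c' = Quotient.mk s c))
      (fun l => by simp) (fun c' => if c' < l.1 then τ c - τ c' else 1),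
      ← Finset.prod_filter, Finset.filter_filter]
    refine Finset.prod_congr ?_ fun _ _ => rfl
    ext c'
    simp only [Finset.mem_filter, Finset.mem_univ, true_and]
    rw [← hrel, l.2]
    exact and_comm

/-- **The valuative inequality.** -/
theorem stmtVV [IsAlgClosed K] [CharZero K] (hS : F.Smooth) : StmtVV F := by
  classical
  intro Ω _ _ V hK n d ψ
  obtain ⟨τ, hτ, u, hu, hN⟩ := vv_main F V hS hK n d ψ
  unfold vdmA vdmB
  obtain ⟨I, hI, hIeq⟩ := Finset.exists_mem_eq_sup' (F.idxFam_nonempty n d)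
    (fun J => V.valuation (F.mat (fun a => ⇑(ψ a)) J).det)
  have hw : F.wdg V.valuation n (fun a => ⇑(ψ a))
      = V.valuation (F.mat (fun a => ⇑(ψ a)) I).det := hIeq
  rw [hw]
  have hdet := vv_det V (fun c l => Rel V (ψ c) (ψ l)) τ u (F.mat (fun a => ⇑(ψ a)) I)
    (fun b => by
      obtain ⟨lam, hl, hlam⟩ := hN (I b) (F.mem_idxFam.1 hI b)
      exact ⟨lam, hl, fun c => hlam c⟩)
  rw [Finset.prod_congr rfl (fun c _ => hu c), Finset.prod_filter] at hdet
  refine le_trans (mul_le_mul_left hdet _) ?_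
  rw [mul_assoc, ← Finset.prod_mul_distrib]
  refine mul_le_mul_right (Finset.prod_le_prod' fun p _ => ?_) _
  by_cases hp : Rel V (ψ p.1) (ψ p.2)
  · rw [if_pos hp, Valuation.map_sub_swap]
    exact hτ p.1 p.2 hp
  · rw [if_neg hp, one_mul]
    exact vv_sep F V hK (ψ p.1) (ψ p.2) hp

end Fermat.Agent.S17
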