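import Fermat.Agent.S17.Defs

/-!
# S17 / VAL leaf `Crit`: the valuative criterion of integral dependence (field form)

`Ω ⊇ K` fields, `a, b_0 .. b_r ∈ Ω`.  If for every valuation subring `V ⊇ K` of `Ω` there is `i`
with `v(a) ≤ v(b_i)` (multiplicative notation of Mathlib: `a ∈ ∑ b_i V`), then `a` satisfies a
homogeneous equation `E(a, b) = 0`, `E ∈ K[T_none, T_0 .. T_r]` homogeneous of degree `N`,
monic in `T_none`.

Proof.  `a = 0`: take `E = T_none`.  Otherwise `B := K[b_i / a] ⊆ Ω`
(`Algebra.adjoin K (Set.range fun i => b i / a)`), `I :=` the ideal of `B` generated by the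
`b_i / a`.  If `I ≠ ⊤` take a maximal ideal `m ⊇ I` and a valuation subring `V` of `Ω` dominating
`B_m` (Mathlib: `LocalSubring.exists_le_valuationSubring` / `ValuationSubring` +
`LocalSubring.ofPrime`, file `Mathlib/RingTheory/Valuation/LocalSubring.lean`): then `K ⊆ V`, all
`b_i / a ∈ m_V`, i.e. `v(b_i) < v(a)` for all `i`, contradiction.  So `1 ∈ I`:
`1 = ∑_i g_i(b/a) * (b_i/a)` with `g_i ∈ K[X]`; i.e. `1 = p(b/a)` with `p ∈ K[X_0..X_r]` without
constant term.  Let `N = totalDegree p`, `E := T_none^N - ∑_{j=1}^{N} T_none^(N-j) * p_j(T)`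
(`p_j` the homogeneous component of degree `j`).
-/

set_option autoImplicit false

namespace Fermat.Agent.S17

open MvPolynomial

theorem Crit_aeval_mul {K Ω : Type*} [Field K] [Field Ω] [Algebra K Ω] {n : ℕ}
    {φ : MvPolynomial (Fin n) K} {j : ℕ} (hφ : φ.IsHomogeneous j) (a : Ω) (x : Fin n → Ω) :
    aeval (fun i => a * x i) φ = a ^ j * aeval x φ := by
  rw [aeval_def, aeval_def, eval₂_eq', eval₂_eq', Finset.mul_sum]
  refine Finset.sum_congr rfl fun d hd => ?_
  have hdeg : ∑ i, d i = j := by
    rw [← Finsupp.degree_eq_sum]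
    by_contra hne
    exact (mem_support_iff.1 hd) (hφ.coeff_eq_zero hne)
  simp only [mul_pow, Finset.prod_mul_distrib, Finset.prod_pow_eq_pow_sum, hdeg]
  ring

theorem Crit_homogenize {K Ω : Type*} [Field K] [Field Ω] [Algebra K Ω] {n : ℕ} (a : Ω)
    (x : Fin n → Ω) (p : MvPolynomial (Fin n) K) (hp0 : coeff 0 p = 0) (hp : aeval x p = 1) :
    ∃ (N : ℕ) (E : MvPolynomial (Option (Fin n)) K), E.IsHomogeneous N ∧
      E.coeff (Finsupp.single none N) = 1 ∧
      aeval (fun o : Option (Fin n) => o.elim a (fun i => a * x i)) E = 0 := by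
  classical
  refine ⟨p.totalDegree, X none ^ p.totalDegree - ∑ j ∈ Finset.range (p.totalDegree + 1),
    X none ^ (p.totalDegree - j) * rename some (homogeneousComponent j p), ?_, ?_, ?_⟩
  · refine (isHomogeneous_X_pow none _).sub (IsHomogeneous.sum _ _ _ fun j hj => ?_)
    have hj' : j ≤ p.totalDegree := Nat.lt_succ_iff.1 (Finset.mem_range.1 hj)
    have h1 := (isHomogeneous_X_pow (R := K) (none : Option (Fin n)) (p.totalDegree - j)).mul
      ((homogeneousComponent_isHomogeneous j p).rename_isHomogeneous (f := some))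
    rwa [Nat.sub_add_cancel hj'] at h1
  · rw [coeff_sub, coeff_X_pow, if_pos rfl, coeff_sum, Finset.sum_eq_zero, sub_zero]
    intro j _
    rw [X_pow_eq_monomial, coeff_monomial_mul']
    split_ifs with hle
    · rw [one_mul]
      apply coeff_rename_eq_zero
      intro u hu
      have hu0 : u = 0 := by
        ext i
        have h2 := DFunLike.congr_fun hu (some i)
        rw [Finsupp.mapDomain_apply (Option.some_injective _)] at h2
        simpa using h2
      rw [hu0, coeff_homogeneousComponent, hp0, ite_self]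
    · rfl
  · rw [map_sub, map_pow, aeval_X, map_sum]
    have h1 : ∀ j ∈ Finset.range (p.totalDegree + 1),
        aeval (fun o : Option (Fin n) => o.elim a (fun i => a * x i))
          (X none ^ (p.totalDegree - j) * rename some (homogeneousComponent j p)) =
        a ^ p.totalDegree * aeval x (homogeneousComponent j p) := by
      intro j hj
      have hj' : j ≤ p.totalDegree := Nat.lt_succ_iff.1 (Finset.mem_range.1 hj)
      rw [map_mul, map_pow, aeval_X, aeval_rename]
      have h2 : ((fun o : Option (Fin n) => o.elim a (fun i => a * x i)) ∘ some) =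
          fun i => a * x i := rfl
      rw [h2, Crit_aeval_mul (homogeneousComponent_isHomogeneous j p), ← mul_assoc]
      show a ^ (p.totalDegree - j) * a ^ j * _ = _
      rw [← pow_add, Nat.sub_add_cancel hj']
    rw [Finset.sum_congr rfl h1, ← Finset.mul_sum, ← map_sum, sum_homogeneousComponent, hp, mul_one]
    exact sub_self _

theorem exists_integral_eq {K Ω : Type*} [Field K] [Field Ω] [Algebra K Ω] {r : ℕ} (a : Ω)
    (b : Fin (r + 1) → Ω)
    (H : ∀ V : ValuationSubring Ω, (∀ c : K, algebraMap K Ω c ∈ V) →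
      ∃ i, V.valuation a ≤ V.valuation (b i)) :
    ∃ (N : ℕ) (E : MvPolynomial (Option (Fin (r + 1))) K), E.IsHomogeneous N ∧
      E.coeff (Finsupp.single none N) = 1 ∧ aeval (fun o : Option (Fin (r + 1)) => o.elim a b) E = 0 := by
  classical
  by_cases ha : a = 0
  · refine ⟨1, X none, isHomogeneous_X _ _, by rw [coeff_X, if_pos rfl], ?_⟩
    rw [aeval_X]
    exact ha
  set x : Fin (r + 1) → Ω := fun i => b i / a with hx
  have hax : (fun i => a * x i) = b := by
    funext i
    rw [hx]
    field_simp
  suffices hex : ∃ p : MvPolynomial (Fin (r + 1)) K, coeff 0 p = 0 ∧ aeval x p = 1 by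
    obtain ⟨p, hp0, hp⟩ := hex
    have := Crit_homogenize a x p hp0 hp
    rwa [hax] at this
  let B : Subalgebra K Ω := Algebra.adjoin K (Set.range x)
  have hxB : ∀ i, x i ∈ B.toSubring := fun i => Algebra.subset_adjoin ⟨i, rfl⟩
  let I : Ideal B.toSubring := Ideal.span (Set.range fun i => (⟨x i, hxB i⟩ : B.toSubring))
  by_cases hI : I = ⊤
  · have h1 : (1 : B.toSubring) ∈ I := by rw [hI]; trivial
    obtain ⟨c, hc⟩ := (Ideal.mem_span_range_iff_exists_fun).1 h1
    have hg : ∀ i, ∃ g : MvPolynomial (Fin (r + 1)) K, aeval x g = (c i : Ω) := by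
      intro i
      have h2 : (c i : Ω) ∈ Algebra.adjoin K (Set.range x) := (c i).2
      rw [Algebra.adjoin_range_eq_range_aeval] at h2
      exact h2
    choose g hg using hg
    refine ⟨∑ i, g i * X i, ?_, ?_⟩
    · rw [← constantCoeff_eq, map_sum]
      refine Finset.sum_eq_zero fun i _ => ?_
      rw [map_mul, constantCoeff_X, mul_zero]
    · rw [map_sum]
      have h3 : (∑ i, (c i : Ω) * x i) = 1 := by
        simpa using congrArg (Subtype.val : B.toSubring → Ω) hc
      simp only [map_mul, aeval_X, hg]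
      exact h3
  · exfalso
    obtain ⟨V, hAV, hIV⟩ := Ideal.image_subset_nonunits_valuationSubring I hI
    obtain ⟨i, hi⟩ := H V (fun c => hAV (B.algebraMap_mem c))
    have h1 : x i ∈ V.nonunits :=
      hIV ⟨⟨x i, hxB i⟩, Ideal.subset_span ⟨i, rfl⟩, rfl⟩
    rw [ValuationSubring.mem_nonunits_iff] at h1
    have h2 : V.valuation (b i) = V.valuation (x i) * V.valuation a := by
      rw [← map_mul, hx]
      congr 1
      field_simp
    have h3 : 0 < V.valuation a := zero_lt_iff.2 ((map_ne_zero _).2 ha)
    have h4 : V.valuation (x i) * V.valuation a < 1 * V.valuation a :=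
      mul_lt_mul_of_pos_right h1 h3
    rw [one_mul, ← h2] at h4
    exact absurd hi (not_le.2 h4)

end Fermat.Agent.S17
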