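import Fermat.Agent.S17.Val.Newton

/-!
# S17 / VAL leaf `Wrap`: the Nakayama + Newton lemmas for vectors with entries in `Ω`

`V` a valuation subring of `Ω`; `ι → Ω` is a `V`-algebra.  `s` a finite set of vectors with entries in `V`.
`B = Algebra.adjoin V s`.  This is `adjoin_le_of_cotangent` + `exists_newton_of_mem_adjoin` transported along the
injective `V`-algebra homomorphism `(ι → V) → (ι → Ω)` (`Pi` of `V.subtype`): every element of `B` is the image
of an element of `Algebra.adjoin V s'`, `s'` the preimage of `s` (`Algebra.adjoin_induction` / `AlgHom.map_adjoin`);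
`x ∈ maximalIdeal V ↔ V.valuation x < 1` (`ValuationSubring.valuation_lt_one_iff`).

`inv_mem_adjoin`: a vector `β ∈ B` all of whose entries are units of `V` has its inverse in `B`:
`∏_c (X - β_c) = X^n + a_1 X^(n-1) + … + a_n`, `a_i ∈ V`, `a_n = ± ∏ β_c` a unit, kills `β`; so
`β⁻¹ = - a_n⁻¹ (β^(n-1) + a_1 β^(n-2) + … + a_(n-1))`.
-/

set_option autoImplicit false

namespace Fermat.Agent.S17

variable {Ω : Type*} [Field Ω] (V : ValuationSubring Ω)
variable {ι : Type*} [Fintype ι] [LinearOrder ι]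

/-- the inclusion `(ι → V) → (ι → Ω)`. -/
noncomputable def Wrap_j : (ι → ↥V) →ₐ[↥V] (ι → Ω) := (Algebra.ofId ↥V Ω).compLeft ι

theorem Wrap_j_apply (x : ι → ↥V) (c : ι) : Wrap_j V x c = (x c : Ω) := rfl

theorem Wrap_j_injective : Function.Injective (Wrap_j (ι := ι) V) := by
  intro x y h
  funext c
  exact Subtype.ext (congrFun h c)

/-- entries of elements of `V[s]` are in `V`. -/
theorem adjoin_entries_mem (s : Set (ι → Ω)) (hsV : ∀ u ∈ s, ∀ c, u c ∈ V) {x : ι → Ω}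
    (hx : x ∈ Algebra.adjoin V s) (c : ι) : x c ∈ V := by
  induction hx using Algebra.adjoin_induction with
  | mem u hu => exact hsV u hu c
  | algebraMap r => exact r.2
  | add a b _ _ ha hb => exact V.add_mem _ _ ha hb
  | mul a b _ _ ha hb => exact V.mul_mem _ _ ha hb

theorem Wrap_image_preimage (s : Set (ι → Ω)) (hsV : ∀ u ∈ s, ∀ c, u c ∈ V) :
    Wrap_j V '' (Wrap_j V ⁻¹' s) = s := by
  apply Set.image_preimage_eq_of_subset
  intro u hu
  exact ⟨fun c => ⟨u c, hsV u hu c⟩, rfl⟩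

theorem Wrap_mem_adjoin_iff (s : Set (ι → Ω)) (hsV : ∀ u ∈ s, ∀ c, u c ∈ V) {x : ι → Ω} :
    x ∈ Algebra.adjoin V s ↔ ∃ x' ∈ Algebra.adjoin ↥V (Wrap_j V ⁻¹' s), Wrap_j V x' = x := by
  conv_lhs => rw [← Wrap_image_preimage V s hsV, ← AlgHom.map_adjoin]
  rfl

theorem Wrap_newt (τ' : ι → ↥V) (l c : ι) :
    ((newt τ' l c : ↥V) : Ω) = newt (Wrap_j V τ') l c := by
  unfold newt
  rw [← ValuationSubring.subtype_apply, map_prod]
  rfl

theorem isNewton_of_mem_adjoin (s : Set (ι → Ω)) (hs : s.Finite) (hsV : ∀ u ∈ s, ∀ c, u c ∈ V)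
    (τ : ι → Ω) (hτ : τ ∈ Algebra.adjoin V s)
    (hcong : ∀ u ∈ s, ∀ c c', V.valuation (u c - u c') < 1)
    (hcot : ∀ u ∈ s, ∃ a b : V, u - a • (1 : ι → Ω) - b • τ ∈ Submodule.span V
      ({x | ∃ p q, p ∈ Algebra.adjoin V s ∧ q ∈ Algebra.adjoin V s ∧
          (∀ c, V.valuation (p c) < 1) ∧ (∀ c, V.valuation (q c) < 1) ∧ x = p * q} ∪
        {x | ∃ m : V, V.valuation (m : Ω) < 1 ∧ ∃ β ∈ Algebra.adjoin V s, x = m • β}))
    {x : ι → Ω} (hx : x ∈ Algebra.adjoin V s) : IsNewton V τ x := by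
  classical
  set s' : Set (ι → ↥V) := Wrap_j V ⁻¹' s with hs'
  have hfin : s'.Finite := hs.preimage (Wrap_j_injective V).injOn
  obtain ⟨τ', hτ', rfl⟩ := (Wrap_mem_adjoin_iff V s hsV).mp hτ
  obtain ⟨x', hx', rfl⟩ := (Wrap_mem_adjoin_iff V s hsV).mp hx
  have hcong' : ∀ u ∈ s', ∀ c c', u c - u c' ∈ IsLocalRing.maximalIdeal ↥V := by
    intro u hu c c'
    rw [ValuationSubring.valuation_lt_one_iff]
    exact hcong _ hu c c'
  have hcot' : ∀ u ∈ s', ∃ a b : ↥V, u - a • 1 - b • τ' ∈ Submodule.span ↥V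
      ({x | ∃ p q, p ∈ Algebra.adjoin ↥V s' ∧ q ∈ Algebra.adjoin ↥V s' ∧
          (∀ c, p c ∈ IsLocalRing.maximalIdeal ↥V) ∧ (∀ c, q c ∈ IsLocalRing.maximalIdeal ↥V) ∧
          x = p * q} ∪
        {x | ∃ m ∈ IsLocalRing.maximalIdeal ↥V, ∃ β ∈ Algebra.adjoin ↥V s', x = m • β}) := by
    intro u hu
    obtain ⟨a, b, hab⟩ := hcot _ hu
    refine ⟨a, b, ?_⟩
    set T' : Set (ι → ↥V) := ({x | ∃ p q, p ∈ Algebra.adjoin ↥V s' ∧ q ∈ Algebra.adjoin ↥V s' ∧
          (∀ c, p c ∈ IsLocalRing.maximalIdeal ↥V) ∧ (∀ c, q c ∈ IsLocalRing.maximalIdeal ↥V) ∧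
          x = p * q} ∪
        {x | ∃ m ∈ IsLocalRing.maximalIdeal ↥V, ∃ β ∈ Algebra.adjoin ↥V s', x = m • β}) with hT'
    have hsub : Submodule.span ↥V
      ({x | ∃ p q, p ∈ Algebra.adjoin V s ∧ q ∈ Algebra.adjoin V s ∧
          (∀ c, V.valuation (p c) < 1) ∧ (∀ c, V.valuation (q c) < 1) ∧ x = p * q} ∪
        {x | ∃ m : V, V.valuation (m : Ω) < 1 ∧ ∃ β ∈ Algebra.adjoin V s, x = m • β}) ≤
        (Submodule.span ↥V T').map (Wrap_j V).toLinearMap := by
      rw [Submodule.map_span]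
      apply Submodule.span_mono
      rintro y (⟨p, q, hp, hq, hpv, hqv, rfl⟩ | ⟨m, hm, β, hβ, rfl⟩)
      · obtain ⟨p', hp', rfl⟩ := (Wrap_mem_adjoin_iff V s hsV).mp hp
        obtain ⟨q', hq', rfl⟩ := (Wrap_mem_adjoin_iff V s hsV).mp hq
        refine ⟨p' * q', Or.inl ⟨p', q', hp', hq', fun c => ?_, fun c => ?_, rfl⟩, map_mul (Wrap_j V) _ _⟩
        · rw [ValuationSubring.valuation_lt_one_iff]
          exact hpv c
        · rw [ValuationSubring.valuation_lt_one_iff]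
          exact hqv c
      · obtain ⟨β', hβ', rfl⟩ := (Wrap_mem_adjoin_iff V s hsV).mp hβ
        refine ⟨m • β', Or.inr ⟨m, ?_, β', hβ', rfl⟩, map_smul (Wrap_j V).toLinearMap m β'⟩
        rw [ValuationSubring.valuation_lt_one_iff]
        exact hm
    obtain ⟨y, hy, hyj⟩ := hsub hab
    have h1 : Wrap_j V y = Wrap_j V (u - a • 1 - b • τ') := by
      rw [map_sub, map_sub, map_smul, map_smul, map_one]
      exact hyj
    rw [← Wrap_j_injective V h1]
    exact hy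
  have hle := adjoin_le_of_cotangent s' hfin τ' hτ' hcong' hcot'
  obtain ⟨lam, hlam⟩ := exists_newton_of_mem_adjoin τ' (hle hx')
  refine ⟨fun l => (lam l : Ω), fun l => (lam l).2, fun c => ?_⟩
  rw [Wrap_j_apply, hlam c, ← ValuationSubring.subtype_apply, map_sum]
  refine Finset.sum_congr rfl fun l _ => ?_
  rw [map_mul, ValuationSubring.subtype_apply, ValuationSubring.subtype_apply, Wrap_newt]

theorem inv_mem_adjoin (s : Set (ι → Ω)) (hsV : ∀ u ∈ s, ∀ c, u c ∈ V) {β : ι → Ω}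
    (hβ : β ∈ Algebra.adjoin V s) (hu : ∀ c, V.valuation (β c) = 1) :
    (fun c => (β c)⁻¹) ∈ Algebra.adjoin V s := by
  classical
  set β' : ι → ↥V := fun c => ⟨β c, adjoin_entries_mem V s hsV hβ c⟩ with hβ'
  set p : Polynomial ↥V := ∏ c, (Polynomial.X - Polynomial.C (β' c)) with hp
  have hroot : Polynomial.aeval β p = 0 := by
    funext c
    have h1 : (Polynomial.aeval β p) c = Polynomial.aeval (β c) p :=
      (Polynomial.aeval_algHom_apply (Pi.evalAlgHom ↥V (fun _ : ι => Ω) c) β p).symm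
    rw [h1, hp, map_prod]
    refine Finset.prod_eq_zero (Finset.mem_univ c) ?_
    rw [map_sub, Polynomial.aeval_X, Polynomial.aeval_C]
    exact sub_self _
  have hunit : IsUnit (p.coeff 0) := by
    rw [Polynomial.coeff_zero_eq_eval_zero, hp, Polynomial.eval_prod]
    refine IsUnit.prod_univ_iff.mpr fun c => ?_
    rw [Polynomial.eval_sub, Polynomial.eval_X, Polynomial.eval_C, zero_sub, IsUnit.neg_iff,
      ValuationSubring.valuation_eq_one_iff]
    exact hu c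
  obtain ⟨a, ha⟩ := hunit
  have hdec := Polynomial.divX_mul_X_add p
  have h2 : Polynomial.aeval β p.divX * β + algebraMap ↥V (ι → Ω) (p.coeff 0) = 0 := by
    rw [← hroot]
    conv_rhs => rw [← hdec]
    rw [map_add, map_mul, Polynomial.aeval_X, Polynomial.aeval_C]
  have hmem : Polynomial.aeval β p.divX ∈ Algebra.adjoin V s :=
    (Algebra.adjoin_le (Set.singleton_subset_iff.mpr hβ) :
      Algebra.adjoin ↥V {β} ≤ Algebra.adjoin ↥V s) (Polynomial.aeval_mem_adjoin_singleton ↥V β)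
  have hγ : (-(↑(a⁻¹) : ↥V)) • Polynomial.aeval β p.divX ∈ Algebra.adjoin V s :=
    Subalgebra.smul_mem _ hmem _
  have h3 : ((-(↑(a⁻¹) : ↥V)) • Polynomial.aeval β p.divX) * β = 1 := by
    rw [smul_mul_assoc, eq_neg_of_add_eq_zero_left h2, ← ha, smul_neg, neg_smul, neg_neg,
      Algebra.smul_def, ← map_mul, Units.inv_mul, map_one]
  have h4 : (fun c => (β c)⁻¹) = (-(↑(a⁻¹) : ↥V)) • Polynomial.aeval β p.divX := by
    funext c
    exact (eq_inv_of_mul_eq_one_left (congrFun h3 c)).symm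
  rw [h4]
  exact hγ

end Fermat.Agent.S17
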