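import Fermat.Agent.S17.Glob.Defs
import Fermat.Agent.S17.Loc.FrameGen
import Fermat.Agent.S17.Val.Wrap

/-!
# S17 / VAL leaf `LocAGen`: proof of `locA_gen` (stated in `Val/LocA.lean`)

Points with the same injective reduction.  `Ψ r = (ψ_c r)_c`, `ψ₀ = ψ_{c₀} : R → V`.  Modulo the span `T` of
`n² ∪ m_V B` the map `d r = Ψ r - ψ₀ r • 1` is a `K`-derivation (`R` acting through `ψ₀`), so that
`0 = d (G(x, r)) = β • d x + ψ₀ (G_Y(x, r)) • d r`.
-/

set_option autoImplicit false

namespace Fermat.Agent.S17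

open Polynomial

section Abstract

/-- `d` is a `K`-derivation, `R` acting on `M` through `ψ₀`. -/
structure LocAGen_IsDer (K : Type*) {R W M : Type*} [Field K] [CommRing R] [Algebra K R]
    [CommRing W] [AddCommGroup M] [Module W M] (ψ₀ : R →+* W) (d : R → M) : Prop where
  add : ∀ a b, d (a + b) = d a + d b
  mul : ∀ a b, d (a * b) = ψ₀ a • d b + ψ₀ b • d a
  const : ∀ c : K, d (algebraMap K R c) = 0

variable {K R W M : Type*} [Field K] [CommRing R] [Algebra K R]
    [CommRing W] [AddCommGroup M] [Module W M] {ψ₀ : R →+* W} {d : R → M}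

theorem LocAGen_IsDer.apply_pow (h : LocAGen_IsDer K ψ₀ d) (r : R) (t : ℕ) :
    d (r ^ t) = ((t : W) * ψ₀ r ^ (t - 1)) • d r := by
  induction t with
  | zero =>
    have h1 := h.const 1
    rw [map_one] at h1
    simp [h1]
  | succ t ih =>
    rw [pow_succ, h.mul, ih, smul_smul, ← add_smul, map_pow]
    congr 1
    rcases t with _ | t
    · simp
    · simp only [Nat.add_sub_cancel, Nat.cast_add, Nat.cast_one]
      ring

theorem LocAGen_IsDer.apply_aeval (h : LocAGen_IsDer K ψ₀ d) (x : R) (g : K[X]) :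
    ∃ β : W, d (aeval x g) = β • d x := by
  induction g using Polynomial.induction_on' with
  | add p q hp hq =>
    obtain ⟨a, ha⟩ := hp
    obtain ⟨b, hb⟩ := hq
    exact ⟨a + b, by rw [map_add, h.add, ha, hb, add_smul]⟩
  | monomial n c =>
    refine ⟨ψ₀ (algebraMap K R c) * ((n : W) * ψ₀ x ^ (n - 1)), ?_⟩
    rw [aeval_monomial, h.mul, h.const, smul_zero, add_zero, h.apply_pow, smul_smul]

theorem LocAGen_IsDer.apply_aeval₂ (h : LocAGen_IsDer K ψ₀ d) (x r : R) (G : K[X][X]) :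
    ∃ β : W, d ((G.map (aeval x).toRingHom).eval r) =
      β • d x + ψ₀ (((derivative G).map (aeval x).toRingHom).eval r) • d r := by
  induction G using Polynomial.induction_on' with
  | add p q hp hq =>
    obtain ⟨a, ha⟩ := hp
    obtain ⟨b, hb⟩ := hq
    refine ⟨a + b, ?_⟩
    rw [Polynomial.map_add, eval_add, h.add, ha, hb, derivative_add, Polynomial.map_add, eval_add,
      map_add, add_smul, add_smul]
    abel
  | monomial n g =>
    obtain ⟨β, hβ⟩ := h.apply_aeval x g
    refine ⟨ψ₀ (r ^ n) * β, ?_⟩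
    rw [map_monomial, eval_monomial, derivative_monomial, map_monomial, eval_monomial, h.mul, h.apply_pow]
    simp only [AlgHom.toRingHom_eq_coe, RingHom.coe_coe, map_mul, map_natCast, map_pow]
    rw [hβ, smul_smul, smul_smul, add_comm]
    congr 2
    ring

end Abstract

variable {K R : Type*} [Field K] [CommRing R] [Algebra K R] (F : Frame K R)
variable {Ω : Type*} [Field Ω] [Algebra K Ω] (V : ValuationSubring Ω)
variable {ι : Type*} [Fintype ι] [LinearOrder ι]

theorem LocAGen_main [CharZero K] (hK : ∀ c : K, algebraMap K Ω c ∈ V)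
    (ψ : ι → (R →ₐ[K] Ω)) (hA : ∀ c r, ψ c r ∈ V)
    (hcong : ∀ c c' r, V.valuation (ψ c r - ψ c' r) < 1)
    (hinj : ∀ c r, r ≠ 0 → V.valuation (ψ c r) = 1) :
    ∀ r : R, IsNewton V (fun c => ψ c (F.e 1)) (fun c => ψ c r) := by
  classical
  intro r
  let Ψ : R →ₐ[K] (ι → Ω) := AlgHom.pi ψ
  have hΨ : ∀ r c, Ψ r c = ψ c r := fun _ _ => rfl
  set s : Set (ι → Ω) := Ψ '' (F.e '' {i | F.wt i ≤ F.n1}) with hs
  have hfin : s.Finite := by
    refine Set.Finite.image _ (Set.Finite.image _ ?_)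
    exact (Set.finite_Iic F.n1).subset fun i hi => (F.le_wt i).trans hi
  have hsV : ∀ u ∈ s, ∀ c, u c ∈ V := by
    rintro _ ⟨r, _, rfl⟩ c
    exact hA c r
  have hB : ∀ r, Ψ r ∈ Algebra.adjoin V s := by
    intro r
    have hr : r ∈ Algebra.adjoin K (F.e '' {i | F.wt i ≤ F.n1}) := by
      rw [F.adjoin_eq_top]
      trivial
    induction hr using Algebra.adjoin_induction with
    | mem x hx => exact Algebra.subset_adjoin ⟨x, hx, rfl⟩
    | algebraMap c =>
      have h1 : Ψ (algebraMap K R c) = algebraMap V (ι → Ω) ⟨algebraMap K Ω c, hK c⟩ := by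
        ext i
        rw [hΨ, AlgHom.commutes]
        rfl
      rw [h1]
      exact Subalgebra.algebraMap_mem _ _
    | add a b _ _ ha hb =>
      rw [map_add]
      exact add_mem ha hb
    | mul a b _ _ ha hb =>
      rw [map_mul]
      exact mul_mem ha hb
  show IsNewton V (Ψ (F.e 1)) (Ψ r)
  refine isNewton_of_mem_adjoin V s hfin hsV (Ψ (F.e 1)) (hB _) ?_ ?_ (hB r)
  · rintro _ ⟨r, _, rfl⟩ c c'
    exact hcong c c' r
  · rintro _ ⟨_, ⟨j, _, rfl⟩, rfl⟩
    rcases isEmpty_or_nonempty ι with hι | ⟨⟨c₀⟩⟩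
    · refine ⟨0, 0, ?_⟩
      have h0 : (Ψ (F.e j) - (0 : V) • (1 : ι → Ω) - (0 : V) • Ψ (F.e 1)) = 0 :=
        Subsingleton.elim _ _
      rw [h0]
      exact Submodule.zero_mem _
    · set T := Submodule.span V
        ({x | ∃ p q, p ∈ Algebra.adjoin V s ∧ q ∈ Algebra.adjoin V s ∧
          (∀ c, V.valuation (p c) < 1) ∧ (∀ c, V.valuation (q c) < 1) ∧ x = p * q} ∪
        {x | ∃ m : V, V.valuation (m : Ω) < 1 ∧ ∃ β ∈ Algebra.adjoin V s, x = m • β}) with hT
      let ψ₀ : R →+* V := (ψ c₀).toRingHom.codRestrict V (hA c₀)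
      have hψ₀ : ∀ r, ((ψ₀ r : V) : Ω) = ψ c₀ r := fun _ => rfl
      let d : R → (ι → Ω) ⧸ T := fun r => T.mkQ (Ψ r - ψ₀ r • (1 : ι → Ω))
      have hn : ∀ r, Ψ r - ψ₀ r • (1 : ι → Ω) ∈ Algebra.adjoin V s ∧
          ∀ c, V.valuation ((Ψ r - ψ₀ r • (1 : ι → Ω)) c) < 1 := by
        intro r
        refine ⟨sub_mem (hB r) (Subalgebra.smul_mem _ (one_mem _) _), fun c => ?_⟩
        have h1 : (Ψ r - ψ₀ r • (1 : ι → Ω)) c = ψ c r - ψ c₀ r := by
          rw [Pi.sub_apply, Pi.smul_apply, hΨ, Pi.one_apply, Algebra.smul_def, mul_one]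
          rfl
        rw [h1]
        exact hcong c c₀ r
      have hd : LocAGen_IsDer K ψ₀ d := by
        refine ⟨fun a b => ?_, fun a b => ?_, fun c => ?_⟩
        · show T.mkQ _ = T.mkQ _ + T.mkQ _
          rw [← map_add]
          congr 1
          rw [map_add, map_add, add_smul]
          abel
        · show T.mkQ _ = ψ₀ a • T.mkQ _ + ψ₀ b • T.mkQ _
          rw [← map_smul, ← map_smul, ← map_add, ← sub_eq_zero, ← map_sub, Submodule.mkQ_apply,
            Submodule.Quotient.mk_eq_zero]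
          refine Submodule.subset_span (Or.inl ⟨_, _, (hn a).1, (hn b).1, (hn a).2, (hn b).2, ?_⟩)
          rw [map_mul, map_mul]
          simp only [sub_mul, mul_sub, smul_sub, smul_mul_assoc, mul_smul_comm, one_mul, mul_one,
            smul_smul]
          rw [mul_comm (ψ₀ b) (ψ₀ a)]
          abel
        · show T.mkQ _ = 0
          rw [Submodule.mkQ_apply, Submodule.Quotient.mk_eq_zero]
          have h1 : Ψ (algebraMap K R c) - ψ₀ (algebraMap K R c) • (1 : ι → Ω) = 0 := by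
            ext i
            rw [Pi.sub_apply, Pi.smul_apply, hΨ, Pi.one_apply, Algebra.smul_def, mul_one,
              AlgHom.commutes]
            show algebraMap K Ω c - ((ψ₀ (algebraMap K R c) : V) : Ω) = 0
            rw [hψ₀, AlgHom.commutes, sub_self]
          rw [h1]
          exact Submodule.zero_mem _
      obtain ⟨G, hG0, hG1⟩ := F.exists_sep_poly (F.e j)
      obtain ⟨β, hβ⟩ := hd.apply_aeval₂ (F.e 1) (F.e j) G
      have hd0 : d 0 = 0 := by
        have h1 := hd.const 0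
        rwa [map_zero] at h1
      rw [hG0, hd0] at hβ
      have hunit : IsUnit (ψ₀ (((derivative G).map (aeval (F.e 1)).toRingHom).eval (F.e j))) := by
        rw [ValuationSubring.valuation_eq_one_iff, hψ₀]
        exact hinj c₀ _ hG1
      obtain ⟨γ, hγ⟩ := hunit
      rw [← hγ] at hβ
      have h2 : d (F.e j) + ((γ⁻¹ : Vˣ) * β : V) • d (F.e 1) = 0 := by
        have h3 := congrArg (fun z => ((γ⁻¹ : Vˣ) : V) • z) hβ
        simp only [smul_zero, smul_add, smul_smul, Units.inv_mul, one_smul] at h3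
        rw [add_comm]
        exact h3.symm
      refine ⟨ψ₀ (F.e j) + ((γ⁻¹ : Vˣ) * β : V) * ψ₀ (F.e 1), -((γ⁻¹ : Vˣ) * β : V), ?_⟩
      have h4 : T.mkQ ((Ψ (F.e j) - ψ₀ (F.e j) • (1 : ι → Ω)) +
          ((γ⁻¹ : Vˣ) * β : V) • (Ψ (F.e 1) - ψ₀ (F.e 1) • (1 : ι → Ω))) = 0 := by
        rw [map_add, map_smul]
        exact h2
      rw [Submodule.mkQ_apply, Submodule.Quotient.mk_eq_zero] at h4
      convert h4 using 1
      simp only [add_smul, neg_smul, smul_sub, mul_smul]
      abel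

end Fermat.Agent.S17
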