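import Fermat.Agent.S17.Glob.Defs
import Fermat.Agent.S17.Loc.FrameGen
import Fermat.Agent.S17.Val.Wrap
import Fermat.Agent.S17.Val.LocAGen

/-!
# S17 / VAL leaves `LocA`: points with the same FINITE reduction

`Ω ⊇ K`, `V ⊇ K` a valuation subring, `ψ_c : R →ₐ[K] Ω` (`c ∈ ι`) with `ψ_c(R) ⊆ V`, pairwise congruent mod `m_V`.
Then there is an index `i`, `wt i ≤ n1`, such that with `τ_c = ψ_c (e i)` every vector `(ψ_c r)_c` is a
`V`-combination of the Newton vectors of `τ`.

Common part: `s :=` the vectors `(ψ_c (e j))_c ∈ V^ι`, `wt j ≤ n1`; `B = V[s]` contains all `(ψ_c r)_c`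
(`adjoin_eq_top`); apply `isNewton_of_mem_adjoin` (file `Val/Wrap.lean`: Nakayama + Newton, already transported to
vectors with entries in `Ω`).

* `exists_point_of_not_injective`: `χ : R →ₐ[K] k` not injective, `K` algebraically closed ⟹ `χ` factors through a
  `K`-point.  Proof: `0 ≠ f ∈ ker χ`.  For `wt l ≥ deg f + 2g` there is `j` with `wt j = wt l - deg f` and
  `e l - c • (f * e j)` of smaller degree; so `χ(R)` is spanned by the `χ (e l)`, `wt l < deg f + 2g`:
  finite dimensional; every element of `χ(R)` is integral over `K`, hence in `K`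
  (`IsAlgClosed.algebraMap_surjective_of_isIntegral`-type lemma applied to the subalgebra `χ.range`, a domain).
* `locA_const`: the common reduction is a `K`-point `P`.  Choose `i` (`wt i ≤ n1`) with
  `e i - P (e i) ∉ (ker P)²` if there is one (else `i = 0`).  By `Smooth`, for every `j`:
  `e j - P (e j) ∈ K (e i - P (e i)) + (ker P)²`.  Elements of `ker P` map into `n` (coordinates in `m_V`).
* `locA_gen`: the common reduction is injective, i.e. `v (ψ_c r) = 1` for all `r ≠ 0`.  `i = 1`.  For `r = e j`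
  take `G` from `exists_sep_poly`; Taylor expansion of `G` at `(x₀, r₀) = (ψ_{c₀} x, ψ_{c₀} r)`:
  `0 = G(x_c, r_c) = G(x₀,r₀) + G_X(x₀,r₀)(x_c - x₀) + G_Y(x₀,r₀)(r_c - r₀) + (terms in n²)`, `G(x₀,r₀) = 0`, and
  `G_Y(x₀,r₀) = ψ_{c₀}(G_Y(x,r))` is a unit of `V`.
-/

set_option autoImplicit false

namespace Fermat.Agent.S17

variable {K R : Type*} [Field K] [CommRing R] [Algebra K R] (F : Frame K R)

include F in
/-- the image of a non injective `χ` is spanned by finitely many `χ (e l)`. -/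
theorem LocA_mem_span {k : Type*} [Field k] [Algebra K k] (χ : R →ₐ[K] k) {f : R} (hf : f ≠ 0)
    (hχ : χ f = 0) (l : ℕ) :
    χ (F.e l) ∈ Submodule.span K ((fun i => χ (F.e i)) '' (Finset.range (F.deg f + 2 * F.g) : Set ℕ)) := by
  induction l using Nat.strong_induction_on with
  | _ l ih =>
    by_cases hl : l < F.deg f + 2 * F.g
    · exact Submodule.subset_span ⟨l, Finset.mem_coe.mpr (Finset.mem_range.mpr hl), rfl⟩
    · have hwl : F.deg f + 2 * F.g ≤ F.wt l := (not_lt.mp hl).trans (F.le_wt l)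
      obtain ⟨j, hj⟩ := F.exists_wt_eq (n := F.wt l - F.deg f) (by omega)
      have hej : F.e j ≠ 0 := F.e.ne_zero j
      have hne : f * F.e j ≠ 0 := F.mul_ne_zero' hf hej
      have hdeg : F.deg (f * F.e j) = F.wt l := by
        rw [F.deg_mul hf hej, F.deg_e, hj]
        omega
      obtain ⟨i, hi, hc, -⟩ := F.exists_top hne
      have hil : i = l := F.wt_injective (hi.trans hdeg)
      subst hil
      have hmem : f * F.e j ∈ F.le (F.wt i) := F.mem_le_iff_deg.mpr hdeg.le
      have hsum := F.eq_sum_idx hmem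
      have hi' : i ∈ F.idx (F.wt i) := F.mem_idx.mpr le_rfl
      rw [← Finset.add_sum_erase _ _ hi'] at hsum
      have h1 := congrArg χ hsum
      rw [map_mul, hχ, zero_mul, map_add, map_smul, map_sum] at h1
      have h2 : χ (F.e i) = -((F.e.repr (f * F.e j) i)⁻¹ •
          ∑ x ∈ (F.idx (F.wt i)).erase i, χ (F.e.repr (f * F.e j) x • F.e x)) := by
        rw [eq_neg_iff_add_eq_zero, ← smul_right_injective k hc |>.eq_iff, smul_add, smul_zero,
          smul_smul, mul_inv_cancel₀ hc, one_smul]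
        exact h1.symm
      rw [h2]
      refine Submodule.neg_mem _ (Submodule.smul_mem _ _ (Submodule.sum_mem _ fun x hx => ?_))
      rw [map_smul]
      refine Submodule.smul_mem _ _ (ih x ?_)
      obtain ⟨hx1, hx2⟩ := Finset.mem_erase.mp hx
      have hx3 := F.mem_idx.mp hx2
      exact lt_of_le_of_ne (F.wt_strictMono.le_iff_le.mp hx3) hx1

include F in
theorem exists_point_of_not_injective [IsAlgClosed K] {k : Type*} [Field k] [Algebra K k]
    (χ : R →ₐ[K] k) (h : ¬ Function.Injective χ) :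
    ∃ P : R →ₐ[K] K, ∀ r, χ r = algebraMap K k (P r) := by
  classical
  obtain ⟨f, hf, hχ⟩ : ∃ f : R, f ≠ 0 ∧ χ f = 0 := by
    by_contra hcon
    push_neg at hcon
    apply h
    rw [injective_iff_map_eq_zero]
    intro a ha
    by_contra ha0
    exact hcon a ha0 ha
  set W : Submodule K k := Submodule.span K
    ((fun i => χ (F.e i)) '' (Finset.range (F.deg f + 2 * F.g) : Set ℕ)) with hW
  haveI : FiniteDimensional K W :=
    FiniteDimensional.span_of_finite K ((Finset.finite_toSet _).image _)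
  have hle : Subalgebra.toSubmodule χ.range ≤ W := by
    have hall : ∀ r : R, χ r ∈ W := by
      intro r
      have h1 : r ∈ Submodule.span K (Set.range F.e) := by rw [F.e.span_eq]; trivial
      induction h1 using Submodule.span_induction with
      | mem x hx =>
        obtain ⟨l, rfl⟩ := hx
        exact LocA_mem_span F χ hf hχ l
      | zero => rw [map_zero]; exact W.zero_mem
      | add x y _ _ hx hy =>
        rw [map_add]
        exact W.add_mem hx hy
      | smul a x _ hx =>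
        rw [map_smul]
        exact W.smul_mem a hx
    rintro _ ⟨r, rfl⟩
    exact hall r
  haveI : FiniteDimensional K (Subalgebra.toSubmodule χ.range) :=
    Submodule.finiteDimensional_of_le hle
  haveI : FiniteDimensional K χ.range := this
  haveI : Algebra.IsIntegral K χ.range := Algebra.IsIntegral.of_finite K χ.range
  have hbij : Function.Bijective (algebraMap K χ.range) :=
    IsAlgClosed.algebraMap_bijective_of_isIntegral
  let e : K ≃ₐ[K] χ.range := AlgEquiv.ofBijective (Algebra.ofId K χ.range) hbij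
  refine ⟨e.symm.toAlgHom.comp χ.rangeRestrict, fun r => ?_⟩
  have h1 : e ((e.symm.toAlgHom.comp χ.rangeRestrict) r) = χ.rangeRestrict r :=
    e.apply_symm_apply _
  have h2 := congrArg (Subtype.val) h1
  exact h2.symm

variable {Ω : Type*} [Field Ω] [Algebra K Ω] (V : ValuationSubring Ω)
variable {ι : Type*} [Fintype ι] [LinearOrder ι]

/-- the cotangent space at `P` is generated by `b` if `b ∉ (ker P)²`. -/
theorem LocA_exists_coeff (hS : F.Smooth) (P : R →ₐ[K] K) {a b : R} (ha : P a = 0) (hb : P b = 0)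
    (hb2 : b ∉ (RingHom.ker (P : R →+* K)) ^ 2) :
    ∃ γ : K, a - γ • b ∈ (RingHom.ker (P : R →+* K)) ^ 2 := by
  obtain ⟨α, β, hαβ, hmem⟩ := hS P a b ha hb
  have hα : α ≠ 0 := by
    rintro rfl
    have hβ : β ≠ 0 := hαβ.resolve_left (fun h => h rfl)
    rw [zero_smul, zero_add] at hmem
    apply hb2
    have h1 := Ideal.mul_mem_left _ (algebraMap K R β⁻¹) hmem
    rwa [← Algebra.smul_def, smul_smul, inv_mul_cancel₀ hβ, one_smul] at h1
  refine ⟨-(α⁻¹ * β), ?_⟩
  have h1 := Ideal.mul_mem_left _ (algebraMap K R α⁻¹) hmem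
  rw [← Algebra.smul_def, smul_add, smul_smul, smul_smul, inv_mul_cancel₀ hα, one_smul] at h1
  rwa [neg_smul, sub_neg_eq_add]

theorem locA_const (hS : F.Smooth) (hK : ∀ c : K, algebraMap K Ω c ∈ V)
    (ψ : ι → (R →ₐ[K] Ω)) (P : R →ₐ[K] K)
    (hP : ∀ c r, V.valuation (ψ c r - algebraMap K Ω (P r)) < 1) :
    ∃ i, F.wt i ≤ F.n1 ∧ ∀ r : R, IsNewton V (fun c => ψ c (F.e i)) (fun c => ψ c r) := by
  classical
  let Ψ : R →ₐ[K] (ι → Ω) := AlgHom.pi ψ
  have hΨ : ∀ r c, Ψ r c = ψ c r := fun _ _ => rfl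
  let s : Set (ι → Ω) := Ψ '' (F.e '' {j | F.wt j ≤ F.n1})
  have hs : s.Finite := by
    apply Set.Finite.image
    apply Set.Finite.image
    refine (F.idx F.n1).finite_toSet.subset fun j hj => ?_
    exact Finset.mem_coe.mpr (F.mem_idx.mpr hj)
  -- integrality
  have hmemV : ∀ c r, ψ c r ∈ V := by
    intro c r
    have h1 : ψ c r - algebraMap K Ω (P r) ∈ V := (V.valuation_le_one_iff _).mp (hP c r).le
    have h2 := V.add_mem _ _ h1 (hK (P r))
    rwa [sub_add_cancel] at h2
  have hsV : ∀ u ∈ s, ∀ c, u c ∈ V := by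
    rintro _ ⟨r, -, rfl⟩ c
    exact hmemV c r
  -- constants
  have hconst : ∀ a : K, Ψ (algebraMap K R a) = (⟨algebraMap K Ω a, hK a⟩ : V) • (1 : ι → Ω) := by
    intro a
    funext c
    rw [hΨ, AlgHom.commutes, Pi.smul_apply, Pi.one_apply]
    exact (mul_one _).symm
  -- everything lies in `B`
  have hB : ∀ r, Ψ r ∈ Algebra.adjoin V s := by
    intro r
    have hr : r ∈ Algebra.adjoin K (F.e '' {i | F.wt i ≤ F.n1}) := by
      rw [F.adjoin_eq_top]; trivial
    induction hr using Algebra.adjoin_induction with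
    | mem x hx => exact Algebra.subset_adjoin ⟨x, hx, rfl⟩
    | algebraMap a =>
      rw [hconst]
      exact Subalgebra.smul_mem _ (one_mem _) _
    | add x y _ _ hx hy => rw [map_add]; exact add_mem hx hy
    | mul x y _ _ hx hy => rw [map_mul]; exact mul_mem hx hy
  -- elements of `ker P` are small
  have hsmall : ∀ r, P r = 0 → ∀ c, V.valuation (Ψ r c) < 1 := by
    intro r hr c
    have := hP c r
    rwa [hr, map_zero, sub_zero] at this
  -- the image of `(ker P)²`
  have hsq : ∀ w ∈ (RingHom.ker (P : R →+* K)) ^ 2, Ψ w ∈ Submodule.span V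
      ({x | ∃ p q, p ∈ Algebra.adjoin V s ∧ q ∈ Algebra.adjoin V s ∧
          (∀ c, V.valuation (p c) < 1) ∧ (∀ c, V.valuation (q c) < 1) ∧ x = p * q} ∪
        {x | ∃ m : V, V.valuation (m : Ω) < 1 ∧ ∃ β ∈ Algebra.adjoin V s, x = m • β}) := by
    intro w hw
    rw [sq] at hw
    induction hw using Submodule.mul_induction_on' with
    | mem_mul_mem x hx y hy =>
      apply Submodule.subset_span
      left
      exact ⟨Ψ x, Ψ y, hB x, hB y, hsmall x hx, hsmall y hy, map_mul _ _ _⟩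
    | add x _ y _ hx hy => rw [map_add]; exact add_mem hx hy
  -- the choice of `i`
  obtain ⟨i, hi, hγ⟩ : ∃ i, F.wt i ≤ F.n1 ∧ ∀ j, F.wt j ≤ F.n1 →
      ∃ γ : K, (F.e j - algebraMap K R (P (F.e j))) - γ • (F.e i - algebraMap K R (P (F.e i))) ∈
        (RingHom.ker (P : R →+* K)) ^ 2 := by
    by_cases hex : ∃ i, F.wt i ≤ F.n1 ∧
        F.e i - algebraMap K R (P (F.e i)) ∉ (RingHom.ker (P : R →+* K)) ^ 2
    · obtain ⟨i, hi, hi2⟩ := hex
      refine ⟨i, hi, fun j _ => LocA_exists_coeff F hS P ?_ ?_ hi2⟩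
      · rw [map_sub, AlgHom.commutes]; exact sub_self _
      · rw [map_sub, AlgHom.commutes]; exact sub_self _
    · push Not at hex
      refine ⟨0, by rw [F.wt_zero]; exact Nat.zero_le _, fun j hj => ⟨0, ?_⟩⟩
      rw [zero_smul, sub_zero]
      exact hex j hj
  refine ⟨i, hi, fun r => ?_⟩
  refine isNewton_of_mem_adjoin V s hs hsV (Ψ (F.e i)) (hB _) ?_ ?_ (hB r)
  · rintro _ ⟨r, -, rfl⟩ c c'
    have h1 : Ψ r c - Ψ r c' =
        (ψ c r - algebraMap K Ω (P r)) - (ψ c' r - algebraMap K Ω (P r)) := by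
      rw [hΨ, hΨ]; ring
    rw [h1]
    exact V.valuation.map_sub_lt (hP c r) (hP c' r)
  · rintro _ ⟨_, ⟨j, hj, rfl⟩, rfl⟩
    obtain ⟨γ, hγj⟩ := hγ j hj
    refine ⟨⟨algebraMap K Ω (P (F.e j) - γ * P (F.e i)), hK _⟩, ⟨algebraMap K Ω γ, hK γ⟩, ?_⟩
    have h1 := hsq _ hγj
    have h2 : Ψ ((F.e j - algebraMap K R (P (F.e j))) -
          γ • (F.e i - algebraMap K R (P (F.e i)))) =
        Ψ (F.e j) - (⟨algebraMap K Ω (P (F.e j) - γ * P (F.e i)), hK _⟩ : V) • (1 : ι → Ω) -
          (⟨algebraMap K Ω γ, hK γ⟩ : V) • Ψ (F.e i) := by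
      funext c
      have e1 : ((⟨algebraMap K Ω (P (F.e j) - γ * P (F.e i)), hK _⟩ : V) • (1 : ι → Ω)) c =
          algebraMap K Ω (P (F.e j) - γ * P (F.e i)) := mul_one _
      have e2 : ((⟨algebraMap K Ω γ, hK γ⟩ : V) • Ψ (F.e i)) c =
          algebraMap K Ω γ * ψ c (F.e i) := rfl
      rw [Pi.sub_apply, Pi.sub_apply, e1, e2, hΨ, hΨ, map_sub, map_sub, map_smul, map_sub,
        AlgHom.commutes, AlgHom.commutes, Algebra.smul_def, map_sub, map_mul]
      ring
    rw [← h2]
    exact h1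

theorem locA_gen [CharZero K] (hK : ∀ c : K, algebraMap K Ω c ∈ V)
    (ψ : ι → (R →ₐ[K] Ω)) (hA : ∀ c r, ψ c r ∈ V)
    (hcong : ∀ c c' r, V.valuation (ψ c r - ψ c' r) < 1)
    (hinj : ∀ c r, r ≠ 0 → V.valuation (ψ c r) = 1) :
    ∀ r : R, IsNewton V (fun c => ψ c (F.e 1)) (fun c => ψ c r) :=
  LocAGen_main F V hK ψ hA hcong hinj

/-- points with the same finite reduction. -/
theorem locA [IsAlgClosed K] [CharZero K] (hS : F.Smooth) (hK : ∀ c : K, algebraMap K Ω c ∈ V)
    (ψ : ι → (R →ₐ[K] Ω)) (hA : ∀ c r, ψ c r ∈ V)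
    (hcong : ∀ c c' r, V.valuation (ψ c r - ψ c' r) < 1) :
    ∃ i, F.wt i ≤ F.n1 ∧ ∀ r : R, IsNewton V (fun c => ψ c (F.e i)) (fun c => ψ c r) := by
  classical
  rcases isEmpty_or_nonempty ι with hι | ⟨⟨c₀⟩⟩
  · exact ⟨0, by rw [F.wt_zero]; exact Nat.zero_le _,
      fun r => ⟨fun _ => 0, fun l => isEmptyElim l, fun c => isEmptyElim c⟩⟩
  let iK : K →+* V := (algebraMap K Ω).codRestrict V hK
  let _ : Algebra K (IsLocalRing.ResidueField V) := ((IsLocalRing.residue V).comp iK).toAlgebra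
  let χ : R →ₐ[K] IsLocalRing.ResidueField V :=
    { toRingHom := (IsLocalRing.residue V).comp ((ψ c₀).toRingHom.codRestrict V (hA c₀))
      commutes' := fun a =>
        congrArg (IsLocalRing.residue V) (Subtype.ext ((ψ c₀).commutes a)) }
  have hχ : ∀ r, χ r = IsLocalRing.residue V ⟨ψ c₀ r, hA c₀ r⟩ := fun r => rfl
  by_cases hinj : Function.Injective χ
  · have h1 : ∀ r, r ≠ 0 → V.valuation (ψ c₀ r) = 1 := by
      intro r hr
      have h2 : χ r ≠ 0 := fun h0 => hr (hinj (by rw [h0, map_zero]))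
      rw [hχ, Ne, IsLocalRing.residue_eq_zero_iff, IsLocalRing.mem_maximalIdeal, mem_nonunits_iff,
        not_not] at h2
      exact (V.valuation_eq_one_iff ⟨ψ c₀ r, hA c₀ r⟩).1 h2
    have h2 : ∀ c r, r ≠ 0 → V.valuation (ψ c r) = 1 := by
      intro c r hr
      have h3 : ψ c r = (ψ c r - ψ c₀ r) + ψ c₀ r := by ring
      rw [h3, Valuation.map_add_eq_of_lt_right, h1 r hr]
      rw [h1 r hr]
      exact hcong c c₀ r
    refine ⟨1, ?_, locA_gen F V hK ψ hA hcong h2⟩
    rw [Frame.n1]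
    rcases Nat.lt_or_ge 1 F.g with hg | hg
    · have h3 := F.wt_strictMono.monotone hg.le
      rw [F.wt_large F.g le_rfl] at h3
      omega
    · rw [F.wt_large 1 hg]
      omega
  · obtain ⟨P, hP⟩ := exists_point_of_not_injective F χ hinj
    refine locA_const F V hS hK ψ P fun c r => ?_
    have h1 : V.valuation (ψ c₀ r - algebraMap K Ω (P r)) < 1 := by
      have h2 : IsLocalRing.residue V ⟨ψ c₀ r, hA c₀ r⟩ =
          IsLocalRing.residue V ⟨algebraMap K Ω (P r), hK (P r)⟩ := hP r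
      rw [← sub_eq_zero, ← map_sub, IsLocalRing.residue_eq_zero_iff,
        ValuationSubring.valuation_lt_one_iff] at h2
      exact h2
    have h3 : ψ c r - algebraMap K Ω (P r) =
        (ψ c r - ψ c₀ r) + (ψ c₀ r - algebraMap K Ω (P r)) := by ring
    rw [h3]
    exact Valuation.map_add_lt _ (hcong c c₀ r) h1

end Fermat.Agent.S17
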