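import Fermat.Agent.S17.Loc.FrameGen

/-!
# S17 / VAL leaves `LocBAux`: the chart at infinity `R' = {t / x^c | deg t ≤ c m}` (`x = e 1`, `m = wt 1`)

* `exists_lead` (pure `Frame`): two nonzero elements of the same degree are proportional modulo lower degree.
* `chart_gen` (pure `Frame`, DIVISION by `x`): if `deg t ≤ c m` then `t` is a `K`-linear combination of
  elements `x^a * e i` with `wt i < 2 g + m` and `a m + wt i ≤ c m`... more precisely with
  `a + ⌈wt i / m⌉ ≤ c`.  (Induction on `deg t`: for `wt l ≥ 2g + m` there is `l'` with `wt l' = wt l - m` and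
  `e l - κ • (x * e l')` of smaller degree.)
-/

set_option autoImplicit false

namespace Fermat.Agent.S17

variable {K R : Type*} [Field K] [CommRing R] [Algebra K R] (F : Frame K R)

theorem exists_lead {a b : R} (ha : a ≠ 0) (hb : b ≠ 0) (h : F.deg a = F.deg b) :
    ∃ κ : K, κ ≠ 0 ∧ (a - κ • b = 0 ∨ F.deg (a - κ • b) < F.deg b) := by
  obtain ⟨i, hi1, hi2, hi3⟩ := F.exists_top ha
  obtain ⟨i', hi1', hi2', hi3'⟩ := F.exists_top hb
  have hii : i = i' := F.wt_injective (by rw [hi1, hi1', h])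
  subst hii
  refine ⟨F.e.repr a i / F.e.repr b i, div_ne_zero hi2 hi2', ?_⟩
  by_cases h0 : a - (F.e.repr a i / F.e.repr b i) • b = 0
  · exact Or.inl h0
  · right
    obtain ⟨j, hj1, hj2, -⟩ := F.exists_top h0
    rw [← hj1, ← hi1']
    apply F.wt_strictMono
    by_contra hcon
    apply hj2
    rw [map_sub, map_smul, Finsupp.sub_apply, Finsupp.smul_apply, smul_eq_mul]
    rcases (not_lt.mp hcon).eq_or_lt with hij | hij
    · rw [← hij]
      field_simp
      ring
    · rw [hi3 j hij, hi3' j hij, mul_zero, sub_zero]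

/-- `⌈wt i / m⌉`. -/
def cidx (i : ℕ) : ℕ := (F.wt i + F.wt 1 - 1) / F.wt 1

theorem LocBAux_wt_one_pos : 0 < F.wt 1 := by
  have := F.wt_strictMono (Nat.zero_lt_one)
  rwa [F.wt_zero] at this

theorem wt_le_cidx_mul (i : ℕ) : F.wt i ≤ cidx F i * F.wt 1 := by
  unfold cidx
  have hm := LocBAux_wt_one_pos F
  have h1 := Nat.div_add_mod (F.wt i + F.wt 1 - 1) (F.wt 1)
  have h2 := Nat.mod_lt (F.wt i + F.wt 1 - 1) hm
  rw [mul_comm]
  omega

theorem LocBAux_cidx_le {i c : ℕ} (h : F.wt i ≤ c * F.wt 1) : cidx F i ≤ c := by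
  unfold cidx
  have hm := LocBAux_wt_one_pos F
  rw [← Nat.lt_succ_iff, Nat.div_lt_iff_lt_mul hm, Nat.succ_mul]
  omega

/-- the generating set at level `c`. -/
def LocBAux_S (c : ℕ) : Set R :=
  {y : R | ∃ a i : ℕ, F.wt i < 2 * F.g + F.wt 1 ∧ a + cidx F i ≤ c ∧ y = F.e 1 ^ a * F.e i}

theorem LocBAux_mul_mem {c : ℕ} {y : R} (hy : y ∈ Submodule.span K (LocBAux_S F c)) :
    F.e 1 * y ∈ Submodule.span K (LocBAux_S F (c + 1)) := by
  have h1 : F.e 1 * y ∈ (Submodule.span K (LocBAux_S F c)).map (LinearMap.mulLeft K (F.e 1)) :=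
    ⟨y, hy, rfl⟩
  rw [Submodule.map_span] at h1
  refine Submodule.span_mono ?_ h1
  rintro _ ⟨_, ⟨a, i, hi, hc, rfl⟩, rfl⟩
  refine ⟨a + 1, i, hi, by omega, ?_⟩
  rw [LinearMap.mulLeft_apply, pow_succ']
  ring

theorem LocBAux_e_mem (l : ℕ) :
    ∀ c : ℕ, F.wt l ≤ c * F.wt 1 → F.e l ∈ Submodule.span K (LocBAux_S F c) := by
  induction l using Nat.strong_induction_on with
  | _ l ih =>
    intro c hc
    have hm := LocBAux_wt_one_pos F
    by_cases hl : F.wt l < 2 * F.g + F.wt 1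
    · refine Submodule.subset_span ⟨0, l, hl, ?_, by rw [pow_zero, one_mul]⟩
      rw [zero_add]
      exact LocBAux_cidx_le F hc
    · have hl' : 2 * F.g + F.wt 1 ≤ F.wt l := not_lt.mp hl
      obtain ⟨l', hl'w⟩ := F.exists_wt_eq (n := F.wt l - F.wt 1) (by omega)
      obtain ⟨c', rfl⟩ : ∃ c', c = c' + 1 := by
        refine ⟨c - 1, ?_⟩
        have : c ≠ 0 := by
          rintro rfl
          rw [zero_mul] at hc
          omega
        omega
      have hlt : l' < l := F.wt_strictMono.lt_iff_lt.1 (by rw [hl'w]; omega)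
      have hc' : F.wt l' ≤ c' * F.wt 1 := by
        rw [hl'w]
        rw [Nat.succ_mul] at hc
        omega
      refine F.FrameGen_step _ (i := 1) (j := l') (by rw [hl'w]; omega)
        (LocBAux_mul_mem F (ih l' hlt c' hc')) fun m' hm' => ih m' hm' _ ?_
      exact (F.wt_strictMono hm').le.trans hc

theorem chart_gen (t : R) (c : ℕ) (h : F.deg t ≤ c * F.wt 1) :
    t ∈ Submodule.span K {y : R | ∃ a i : ℕ, F.wt i < 2 * F.g + F.wt 1 ∧ a + cidx F i ≤ c ∧
      y = F.e 1 ^ a * F.e i} := by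
  have ht : t ∈ F.le (c * F.wt 1) := F.mem_le_iff_deg.mpr h
  rw [F.eq_sum_idx ht]
  exact Submodule.sum_mem _ fun i hi =>
    Submodule.smul_mem _ _ (LocBAux_e_mem F i c (F.mem_idx.mp hi))

end Fermat.Agent.S17
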