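import Fermat.Agent.S17.Val.Wrap
import Fermat.Agent.S17.Val.LocBAux

/-!
# S17 / VAL: core of `locB` (points reducing to `∞`), with `locB_val` and `cot_infty` as hypotheses
-/

set_option autoImplicit false
set_option linter.unusedSectionVars false

namespace Fermat.Agent.S17

namespace LocBCore

variable {K R : Type*} [Field K] [CommRing R] [Algebra K R] (F : Frame K R)
variable {Ω : Type*} [Field Ω] [Algebra K Ω] (V : ValuationSubring Ω)
variable {ι : Type*} [Fintype ι] [LinearOrder ι]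

/-- the vector `(ψ_c p / ψ_c q)_c`. -/
def frac (ψ : ι → (R →ₐ[K] Ω)) (p q : R) : ι → Ω := fun c => ψ c p / ψ c q

/-- the conclusion of `locB_val` for all `ψ c`. -/
structure HV (ψ : ι → (R →ₐ[K] Ω)) : Prop where
  inj : ∀ c (a : R), a ≠ 0 → ψ c a ≠ 0
  lt : ∀ c (a b : R), a ≠ 0 → b ≠ 0 → F.deg a < F.deg b →
    V.valuation (ψ c a) < V.valuation (ψ c b)
  eq : ∀ c (a b : R), a ≠ 0 → b ≠ 0 → F.deg a = F.deg b →
    V.valuation (ψ c a) = V.valuation (ψ c b)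

variable {F V} {ψ : ι → (R →ₐ[K] Ω)}

theorem val_frac_lt (h : HV F V ψ) {a b : R} (hb : b ≠ 0) (hab : a = 0 ∨ F.deg a < F.deg b)
    (c : ι) : V.valuation (frac ψ a b c) < 1 := by
  have hb' := h.inj c b hb
  have hvb : V.valuation (ψ c b) ≠ 0 := (Valuation.ne_zero_iff _).mpr hb'
  unfold frac
  rw [map_div₀]
  rcases eq_or_ne a 0 with rfl | ha
  · simp
  · have hlt := h.lt c a b ha hb (hab.resolve_left ha)
    exact (div_lt_one₀ (zero_lt_iff.mpr hvb)).mpr hlt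

theorem val_frac_eq (h : HV F V ψ) {a b : R} (ha : a ≠ 0) (hb : b ≠ 0) (hab : F.deg a = F.deg b)
    (c : ι) : V.valuation (frac ψ a b c) = 1 := by
  have hb' := h.inj c b hb
  have hvb : V.valuation (ψ c b) ≠ 0 := (Valuation.ne_zero_iff _).mpr hb'
  unfold frac
  rw [map_div₀, h.eq c a b ha hb hab, div_self hvb]

theorem frac_mem (h : HV F V ψ) {a b : R} (hb : b ≠ 0) (hab : F.deg a ≤ F.deg b) (c : ι) :
    frac ψ a b c ∈ V := by
  rw [← ValuationSubring.valuation_le_one_iff]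
  rcases eq_or_ne a 0 with rfl | ha
  · exact (val_frac_lt h hb (Or.inl rfl) c).le
  rcases hab.lt_or_eq with h1 | h1
  · exact (val_frac_lt h hb (Or.inr h1) c).le
  · exact (val_frac_eq h ha hb h1 c).le

theorem frac_sub (p p' q : R) : frac ψ (p - p') q = frac ψ p q - frac ψ p' q := by
  funext c
  simp [frac, sub_div]

theorem frac_add (p p' q : R) : frac ψ (p + p') q = frac ψ p q + frac ψ p' q := by
  funext c
  simp [frac, add_div]

theorem frac_zero (q : R) : frac ψ 0 q = 0 := by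
  funext c
  simp [frac]

theorem frac_mul_mul (p p' q q' : R) : frac ψ (p * p') (q * q') = frac ψ p q * frac ψ p' q' := by
  funext c
  simp [frac, mul_div_mul_comm]

theorem frac_pow (p q : R) (j : ℕ) : frac ψ (p ^ j) (q ^ j) = frac ψ p q ^ j := by
  funext c
  simp [frac, div_pow]

theorem frac_self (h : HV F V ψ) {q : R} (hq : q ≠ 0) : frac ψ q q = 1 := by
  funext c
  simp [frac, div_self (h.inj c q hq)]

theorem frac_cancel_right (h : HV F V ψ) (p q : R) {w : R} (hw : w ≠ 0) :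
    frac ψ (p * w) (q * w) = frac ψ p q := by
  rw [frac_mul_mul, frac_self h hw, mul_one]

theorem frac_sum {α : Type*} (T : Finset α) (f : α → R) (q : R) :
    frac ψ (∑ i ∈ T, f i) q = ∑ i ∈ T, frac ψ (f i) q := by
  funext c
  simp [frac, Finset.sum_div]

/-- a constant as an element of `V`. -/
def kV (hK : ∀ c : K, algebraMap K Ω c ∈ V) (κ : K) : V := ⟨algebraMap K Ω κ, hK κ⟩

theorem kV_smul_apply (hK : ∀ c : K, algebraMap K Ω c ∈ V) (κ : K) (u : ι → Ω) (c : ι) :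
    (kV hK κ • u) c = algebraMap K Ω κ * u c := rfl

theorem frac_smul (hK : ∀ c : K, algebraMap K Ω c ∈ V) (κ : K) (p q : R) :
    frac ψ (κ • p) q = kV hK κ • frac ψ p q := by
  funext c
  rw [kV_smul_apply]
  simp only [frac, map_smul]
  rw [Algebra.smul_def, mul_div_assoc]

variable (V) in
/-- the module `n² + m_V B`. -/
def NN (s : Set (ι → Ω)) : Submodule V (ι → Ω) :=
  Submodule.span V
      ({x | ∃ p q, p ∈ Algebra.adjoin V s ∧ q ∈ Algebra.adjoin V s ∧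
          (∀ c, V.valuation (p c) < 1) ∧ (∀ c, V.valuation (q c) < 1) ∧ x = p * q} ∪
        {x | ∃ m : V, V.valuation (m : Ω) < 1 ∧ ∃ β ∈ Algebra.adjoin V s, x = m • β})

theorem NN_mul {s : Set (ι → Ω)} (hsV : ∀ u ∈ s, ∀ c, u c ∈ V) {n β : ι → Ω} (hn : n ∈ NN V s)
    (hβ : β ∈ Algebra.adjoin V s) : n * β ∈ NN V s := by
  refine Submodule.span_induction (p := fun z _ => z * β ∈ NN V s) ?_ ?_ ?_ ?_ hn
  · intro x hx
    rcases hx with ⟨p, q, hp, hq, hvp, hvq, rfl⟩ | ⟨m, hm, β', hβ', rfl⟩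
    · apply Submodule.subset_span
      left
      refine ⟨p, q * β, hp, mul_mem hq hβ, hvp, ?_, mul_assoc _ _ _⟩
      intro c
      rw [Pi.mul_apply, map_mul]
      have h1 := (V.valuation_le_one_iff _).2 (adjoin_entries_mem V s hsV hβ c)
      exact mul_lt_one_of_lt_of_le (hvq c) h1
    · apply Submodule.subset_span
      right
      exact ⟨m, hm, β' * β, mul_mem hβ' hβ, smul_mul_assoc _ _ _⟩
  · rw [zero_mul]; exact zero_mem _
  · intro x y _ _ hx hy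
    rw [add_mul]; exact add_mem hx hy
  · intro a x _ hx
    rw [smul_mul_assoc]; exact Submodule.smul_mem _ a hx

variable (F ψ) in
/-- the sets of generators we allow. -/
structure GoodSet (s : Set (ι → Ω)) : Prop where
  form : ∀ u ∈ s, ∃ p q : R, q ≠ 0 ∧ F.deg p ≤ F.deg q ∧ u = frac ψ p q
  x_mem : frac ψ 1 (F.e 1) ∈ s
  e_mem : ∀ i, F.wt i < 2 * F.g + F.wt 1 → frac ψ (F.e i) (F.e 1 ^ cidx F i) ∈ s

theorem GoodSet.entries (h : HV F V ψ) {s : Set (ι → Ω)} (hs : GoodSet F ψ s) :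
    ∀ u ∈ s, ∀ c, u c ∈ V := by
  intro u hu c
  obtain ⟨p, q, hq, hpq, rfl⟩ := hs.form u hu
  exact frac_mem h hq hpq c

theorem deg_x_pow (k : ℕ) : F.deg (F.e 1 ^ k) = k * F.wt 1 := by
  rw [F.SepPoly_deg_pow (F.e.ne_zero 1), F.deg_e]

theorem x_pow_ne_zero (k : ℕ) : F.e 1 ^ k ≠ 0 := by
  have := F.isDomain
  exact pow_ne_zero _ (F.e.ne_zero 1)

theorem frac_mem_adjoin (hK : ∀ c : K, algebraMap K Ω c ∈ V) (h : HV F V ψ) {s : Set (ι → Ω)}
    (hs : GoodSet F ψ s) {t : R} {k : ℕ} (ht : F.deg t ≤ k * F.wt 1) :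
    frac ψ t (F.e 1 ^ k) ∈ Algebra.adjoin V s := by
  refine Submodule.span_induction (p := fun z _ => frac ψ z (F.e 1 ^ k) ∈ Algebra.adjoin V s)
    ?_ ?_ ?_ ?_ (chart_gen F t k ht)
  · rintro _ ⟨a, i, hi, hai, rfl⟩
    obtain ⟨j, rfl⟩ : ∃ j, k = a + (j + cidx F i) := ⟨k - a - cidx F i, by omega⟩
    have h1 : frac ψ (F.e 1 ^ a * F.e i) (F.e 1 ^ (a + (j + cidx F i))) =
        (frac ψ 1 (F.e 1)) ^ j * frac ψ (F.e i) (F.e 1 ^ cidx F i) := by
      rw [pow_add, frac_mul_mul, frac_self h (x_pow_ne_zero a), one_mul, pow_add,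
        ← frac_pow, one_pow, ← frac_mul_mul, one_mul]
    rw [h1]
    exact mul_mem (pow_mem (Algebra.subset_adjoin hs.x_mem) _)
      (Algebra.subset_adjoin (hs.e_mem i hi))
  · rw [frac_zero]; exact zero_mem _
  · intro y z _ _ hy hz
    rw [frac_add]; exact add_mem hy hz
  · intro κ y _ hy
    rw [frac_smul hK]; exact Subalgebra.smul_mem _ hy _

variable (F) in
/-- the statement of `cot_infty`. -/
def HC : Prop := ∀ (t : R) (c : ℕ), F.deg t + 2 ≤ c * F.wt 1 →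
    ∃ (c' k : ℕ) (t₁ t₂ : Fin k → R) (c₁ c₂ : Fin k → ℕ),
      (∀ q, F.deg (t₁ q) + 1 ≤ c₁ q * F.wt 1 ∧ F.deg (t₂ q) + 1 ≤ c₂ q * F.wt 1 ∧
        c₁ q + c₂ q = c + c') ∧
      t * F.e 1 ^ c' = ∑ q, t₁ q * t₂ q

theorem frac_mem_NN (hK : ∀ c : K, algebraMap K Ω c ∈ V) (h : HV F V ψ) (hc : HC F)
    {s : Set (ι → Ω)} (hs : GoodSet F ψ s) {t : R} {k : ℕ} (ht : F.deg t + 2 ≤ k * F.wt 1) :
    frac ψ t (F.e 1 ^ k) ∈ NN V s := by
  obtain ⟨c', n, t₁, t₂, c₁, c₂, h1, h2⟩ := hc t k ht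
  have h3 : frac ψ t (F.e 1 ^ k) =
      ∑ q, frac ψ (t₁ q) (F.e 1 ^ c₁ q) * frac ψ (t₂ q) (F.e 1 ^ c₂ q) := by
    rw [← frac_cancel_right h t (F.e 1 ^ k) (x_pow_ne_zero (F := F) c'), h2, ← pow_add, frac_sum]
    refine Finset.sum_congr rfl fun q _ => ?_
    rw [← (h1 q).2.2, pow_add, frac_mul_mul]
  rw [h3]
  refine Submodule.sum_mem _ fun q _ => Submodule.subset_span (Or.inl
    ⟨_, _, frac_mem_adjoin hK h hs (by have := (h1 q).1; omega),
      frac_mem_adjoin hK h hs (by have := (h1 q).2.1; omega), ?_, ?_, rfl⟩)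
  · exact val_frac_lt h (x_pow_ne_zero _) (Or.inr (by rw [deg_x_pow]; have := (h1 q).1; omega))
  · exact val_frac_lt h (x_pow_ne_zero _) (Or.inr (by rw [deg_x_pow]; have := (h1 q).2.1; omega))

theorem deg_mul_le (f w : R) : F.deg (f * w) ≤ F.deg f + F.deg w :=
  F.mem_le_iff_deg.1 (F.mul_mem_le (F.mem_le_iff_deg.2 le_rfl) (F.mem_le_iff_deg.2 le_rfl))

theorem deg_zero' : F.deg (0 : R) = 0 := by
  simp [Frame.deg]

theorem key (hK : ∀ c : K, algebraMap K Ω c ∈ V) (h : HV F V ψ) (hc : HC F)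
    {s : Set (ι → Ω)} (hs : GoodSet F ψ s) {p q : R} (hq : q ≠ 0) (κ lam : K) (i0 k0 : ℕ)
    (hT : F.deg (p * F.e 1 ^ k0 - κ • (q * F.e 1 ^ k0) - lam • (F.e i0 * q)) + 2 ≤
      F.deg q + k0 * F.wt 1) :
    frac ψ p q - kV hK κ • (1 : ι → Ω) - kV hK lam • frac ψ (F.e i0) (F.e 1 ^ k0) ∈ NN V s := by
  have hm : 0 < F.wt 1 := F.SepPoly_wt_one_pos
  set k := F.deg q + 2 * F.g with hk
  have hkm : k ≤ k * F.wt 1 := Nat.le_mul_of_pos_right _ hm
  obtain ⟨iw, hiw⟩ := F.exists_wt_eq (n := k * F.wt 1 - F.deg q) (by omega)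
  have hw : F.e iw ≠ 0 := F.e.ne_zero iw
  have hqw : q * F.e iw ≠ 0 := F.mul_ne_zero' hq hw
  have hdqw : F.deg (q * F.e iw) = k * F.wt 1 := by
    rw [F.deg_mul hq hw, F.deg_e, hiw]
    omega
  have hU : frac ψ (q * F.e iw) (F.e 1 ^ k) ∈ Algebra.adjoin V s :=
    frac_mem_adjoin hK h hs hdqw.le
  have hUu : ∀ c, V.valuation (frac ψ (q * F.e iw) (F.e 1 ^ k) c) = 1 :=
    val_frac_eq h hqw (x_pow_ne_zero k) (by rw [hdqw, deg_x_pow])
  have hUi := inv_mem_adjoin V s (hs.entries h) hU hUu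
  set T' := p * F.e 1 ^ k0 - κ • (q * F.e 1 ^ k0) - lam • (F.e i0 * q) with hT'
  have hdT : F.deg (T' * F.e iw) + 2 ≤ (k + k0) * F.wt 1 := by
    have h1 := deg_mul_le (F := F) T' (F.e iw)
    rw [F.deg_e, hiw] at h1
    rw [add_mul]
    omega
  have h1 := NN_mul (hs.entries h) (frac_mem_NN hK h hc hs hdT) hUi
  convert h1 using 1
  funext c
  simp only [Pi.sub_apply, Pi.mul_apply, kV_smul_apply, Pi.one_apply, frac, hT', map_sub, map_mul,
    map_smul, map_pow]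
  simp only [Algebra.smul_def]
  have e1 : ψ c q ≠ 0 := h.inj c q hq
  have e2 : ψ c (F.e iw) ≠ 0 := h.inj c _ hw
  have e3 : ψ c (F.e 1) ≠ 0 := h.inj c _ (F.e.ne_zero 1)
  field_simp
  ring

theorem exists_const {p q : R} (hq : q ≠ 0) (hpq : F.deg p ≤ F.deg q) :
    ∃ κ : K, p - κ • q = 0 ∨ F.deg (p - κ • q) < F.deg q := by
  by_cases hp : p = 0
  · exact ⟨0, Or.inl (by rw [hp, zero_smul, sub_zero])⟩
  rcases hpq.lt_or_eq with h1 | h1
  · exact ⟨0, Or.inr (by rwa [zero_smul, sub_zero])⟩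
  · obtain ⟨κ, -, hκ⟩ := exists_lead F hp hq h1
    exact ⟨κ, hκ⟩

theorem exists_key (hK : ∀ c : K, algebraMap K Ω c ∈ V) (h : HV F V ψ) (hc : HC F)
    {s : Set (ι → Ω)} (hs : GoodSet F ψ s) {p q : R} (hq : q ≠ 0) (hpq : F.deg p ≤ F.deg q)
    (i0 k0 : ℕ) (hi0 : F.wt i0 + 1 = k0 * F.wt 1) (hk0 : 2 ≤ k0 * F.wt 1) :
    ∃ κ lam : K,
      frac ψ p q - kV hK κ • (1 : ι → Ω) - kV hK lam • frac ψ (F.e i0) (F.e 1 ^ k0) ∈ NN V s := by
  have hQ : q * F.e 1 ^ k0 ≠ 0 := F.mul_ne_zero' hq (x_pow_ne_zero k0)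
  have hdQ : F.deg (q * F.e 1 ^ k0) = F.deg q + k0 * F.wt 1 := by
    rw [F.deg_mul hq (x_pow_ne_zero k0), deg_x_pow]
  have hdP : F.deg (p * F.e 1 ^ k0) ≤ F.deg (q * F.e 1 ^ k0) := by
    have := deg_mul_le (F := F) p (F.e 1 ^ k0)
    rw [deg_x_pow] at this
    omega
  obtain ⟨κ, hκ⟩ := exists_const hQ hdP
  have hQ1 : F.e i0 * q ≠ 0 := F.mul_ne_zero' (F.e.ne_zero i0) hq
  have hdQ1 : F.deg (F.e i0 * q) + 1 = F.deg q + k0 * F.wt 1 := by
    rw [F.deg_mul (F.e.ne_zero i0) hq, F.deg_e]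
    omega
  have hdP1 : F.deg (p * F.e 1 ^ k0 - κ • (q * F.e 1 ^ k0)) ≤ F.deg (F.e i0 * q) := by
    rcases hκ with h0 | h1
    · rw [h0, deg_zero']; exact Nat.zero_le _
    · omega
  obtain ⟨lam, hlam⟩ := exists_const hQ1 hdP1
  refine ⟨κ, lam, key hK h hc hs hq κ lam i0 k0 ?_⟩
  rcases hlam with h0 | h1
  · rw [h0, deg_zero']; omega
  · omega

theorem exists_key_tau (hK : ∀ c : K, algebraMap K Ω c ∈ V) (h : HV F V ψ) (hc : HC F)
    {s : Set (ι → Ω)} (hs : GoodSet F ψ s) (t t' : ℕ) (htt : F.wt t' + 1 = F.wt t)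
    (i0 k0 : ℕ) (hi0 : F.wt i0 + 1 = k0 * F.wt 1) (hk0 : 2 ≤ k0 * F.wt 1) :
    ∃ lam : K, lam ≠ 0 ∧
      frac ψ (F.e t') (F.e t) - kV hK 0 • (1 : ι → Ω) -
        kV hK lam • frac ψ (F.e i0) (F.e 1 ^ k0) ∈ NN V s := by
  have hP : F.e t' * F.e 1 ^ k0 ≠ 0 := F.mul_ne_zero' (F.e.ne_zero t') (x_pow_ne_zero k0)
  have hQ1 : F.e i0 * F.e t ≠ 0 := F.mul_ne_zero' (F.e.ne_zero i0) (F.e.ne_zero t)
  have hdP : F.deg (F.e t' * F.e 1 ^ k0) = F.wt t' + k0 * F.wt 1 := by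
    rw [F.deg_mul (F.e.ne_zero t') (x_pow_ne_zero k0), deg_x_pow, F.deg_e]
  have hdQ1 : F.deg (F.e i0 * F.e t) = F.wt i0 + F.wt t := by
    rw [F.deg_mul (F.e.ne_zero i0) (F.e.ne_zero t), F.deg_e, F.deg_e]
  obtain ⟨lam, hlam0, hlam⟩ := exists_lead F hP hQ1 (by omega)
  refine ⟨lam, hlam0, key hK h hc hs (F.e.ne_zero t) 0 lam i0 k0 ?_⟩
  rw [zero_smul, sub_zero, F.deg_e]
  rcases hlam with h0 | h1
  · rw [h0, deg_zero']; omega
  · omega

theorem cong (hK : ∀ c : K, algebraMap K Ω c ∈ V) (h : HV F V ψ) {p q : R} (hq : q ≠ 0)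
    (hpq : F.deg p ≤ F.deg q) (c c' : ι) :
    V.valuation (frac ψ p q c - frac ψ p q c') < 1 := by
  obtain ⟨κ, hκ⟩ := exists_const hq hpq
  have h1 : ∀ c, V.valuation (frac ψ (p - κ • q) q c) < 1 := val_frac_lt h hq hκ
  have h2 : frac ψ p q c - frac ψ p q c' =
      frac ψ (p - κ • q) q c - frac ψ (p - κ • q) q c' := by
    rw [frac_sub, frac_smul hK, frac_self h hq]
    simp only [Pi.sub_apply, kV_smul_apply, Pi.one_apply]
    ring
  rw [h2]
  exact lt_of_le_of_lt (Valuation.map_sub _ _ _) (max_lt (h1 c) (h1 c'))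

theorem core (hK : ∀ c : K, algebraMap K Ω c ∈ V) (h : HV F V ψ) (hc : HC F)
    (t t' : ℕ) (htt : F.wt t' + 1 = F.wt t) (a b : R) (hb : b ≠ 0) (hab : F.deg a ≤ F.deg b) :
    IsNewton V (frac ψ (F.e t') (F.e t)) (frac ψ a b) := by
  have hm : 0 < F.wt 1 := F.SepPoly_wt_one_pos
  set s : Set (ι → Ω) := insert (frac ψ a b) (insert (frac ψ (F.e t') (F.e t))
    (insert (frac ψ 1 (F.e 1)) ((fun i => frac ψ (F.e i) (F.e 1 ^ cidx F i)) ''
      {i | F.wt i < 2 * F.g + F.wt 1}))) with hsdef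
  have hfin : s.Finite := by
    refine Set.Finite.insert _ (Set.Finite.insert _ (Set.Finite.insert _ (Set.Finite.image _ ?_)))
    exact (Set.finite_Iio (2 * F.g + F.wt 1)).subset fun i hi => lt_of_le_of_lt (F.le_wt i) hi
  have hs : GoodSet F ψ s := by
    refine ⟨?_, ?_, ?_⟩
    · intro u hu
      rcases hu with rfl | rfl | rfl | ⟨i, -, rfl⟩
      · exact ⟨a, b, hb, hab, rfl⟩
      · exact ⟨_, _, F.e.ne_zero t, by rw [F.deg_e, F.deg_e]; omega, rfl⟩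
      · exact ⟨_, _, F.e.ne_zero 1, by rw [F.SepPoly_deg_one]; exact Nat.zero_le _, rfl⟩
      · exact ⟨_, _, x_pow_ne_zero _, by rw [F.deg_e, deg_x_pow]; exact wt_le_cidx_mul F i, rfl⟩
    · exact Or.inr (Or.inr (Or.inl rfl))
    · intro i hi
      exact Or.inr (Or.inr (Or.inr ⟨i, hi, rfl⟩))
  set k0 := 2 * F.g + 2 with hk0
  have hk0m : k0 ≤ k0 * F.wt 1 := Nat.le_mul_of_pos_right _ hm
  obtain ⟨i0, hi0⟩ := F.exists_wt_eq (n := k0 * F.wt 1 - 1) (by omega)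
  obtain ⟨lt, hlt0, hlt⟩ := exists_key_tau hK h hc hs t t' htt i0 k0 (by omega) (by omega)
  refine isNewton_of_mem_adjoin V s hfin (hs.entries h) _
    (Algebra.subset_adjoin (Or.inr (Or.inl rfl))) ?_ ?_ (Algebra.subset_adjoin (Or.inl rfl))
  · intro u hu c c'
    obtain ⟨p, q, hq, hpq, rfl⟩ := hs.form u hu
    exact cong hK h hq hpq c c'
  · intro u hu
    obtain ⟨p, q, hq, hpq, rfl⟩ := hs.form u hu
    obtain ⟨κ, lam, hkl⟩ := exists_key hK h hc hs hq hpq i0 k0 (by omega) (by omega)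
    refine ⟨kV hK κ, kV hK (lam / lt), ?_⟩
    have h1 := Submodule.sub_mem _ hkl (Submodule.smul_mem _ (kV hK (lam / lt)) hlt)
    change _ ∈ NN V s
    convert h1 using 1
    funext c
    simp only [Pi.sub_apply, kV_smul_apply, Pi.one_apply, map_zero, zero_mul, sub_zero, mul_sub]
    rw [← mul_assoc, ← map_mul, div_mul_cancel₀ _ hlt0]
    ring

end LocBCore

end Fermat.Agent.S17
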