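import Fermat.Agent.S17.Val.LocA
import Fermat.Agent.S17.Val.LocBAux
import Fermat.Agent.S17.Val.LocBCore

/-!
# S17 / VAL leaves `LocB`: points reducing to `∞`

`ψ : R →ₐ[K] Ω` with `ψ(R) ⊄ V`.

* `locB_val`: `v ∘ ψ` is "the valuation at `∞`": `deg a < deg b ⟹ v(ψ a) < v(ψ b)`, `deg a = deg b ⟹ =` (`a, b ≠ 0`).
  Proof.  `ψ` is injective (else `ψ(R) = K ⊆ V` by `exists_point_of_not_injective`).  `γ_j := v (ψ (e j))`, `x = e 1`,
  `m = wt 1 ≥ 1`.  DIVISION: for `wt l ≥ 2g + m` there is `l'` with `wt l' = wt l - m`, `e l = c • (x * e l') + lower`.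
  (1) `γ_x > 1`: otherwise by DIVISION `γ_l ≤ max (γ_{l'}, lower)`, so `ρ := max_j γ_j` exists (attained for
  `wt j < 2g + m`), at `j*`; `(e j*)² ` is a `K`-combination of `e l`'s, so `ρ² ≤ ρ`, `ρ ≤ 1`: `ψ(R) ⊆ V`, contradiction.
  (2) `γ_j^m ≤ γ_x^(wt j)`: `ρ_j := γ_j^m / γ_x^(wt j)`; by DIVISION (and `γ_x > 1`) `ρ := max ρ_j` exists, at `j*`;
  `(e j*)² = ∑_{wt l ≤ 2 wt j*} c_l e l` gives `γ_{j*}^(2m) ≤ max_l γ_l^m ≤ ρ γ_x^(2 wt j*)`, i.e. `ρ² ≤ ρ`.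
  (3) `γ_x^(wt j) ≤ γ_j^m`: `x^(wt j) = c • (e j)^m + ∑_{wt l < m wt j} c_l e l`, and `γ_l^m ≤ γ_x^(wt l) < (γ_x^(wt j))^m`.
  (4) so `γ_j^m = γ_x^(wt j)`: `γ` is strictly increasing; `v (ψ a) = γ_top(a)` (ultrametric, coefficients are units).
* `cot_infty`: (pure `Frame`) with `x = e 1`, `m = wt 1`: if `deg t + 2 ≤ c m` then in `Frac`-free form:
  there are `c'` and finitely many `(t₁, c₁, t₂, c₂)` with `deg t_i + 1 ≤ c_i m`, `c₁ + c₂ = c + c'` and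
  `t x^c' = ∑ t₁ t₂`.  Proof: downward induction on the order `j = c m - deg t`: `j > m`: `t = 1 * t` with
  `(1, 1), (t, c - 1)`.  `2 ≤ j ≤ m`: choose `t₁, t₂` of degrees `c₁ m - 1`, `c₂ m - (j - 1)` (weights, `c_i` large);
  `t x^(c₁+c₂-c) - λ t₁ t₂` has smaller degree.
* `locB`: `ψ_c` all reducing to `∞`, `τ_c = ψ_c (e t') / ψ_c (e t)`, `wt t = n1`, `wt t' = n1 - 1`.  Then for `deg a ≤ deg b`,
  `b ≠ 0`, the vector `(ψ_c a / ψ_c b)_c` is a `V`-combination of Newton vectors of `τ`.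
  (USE `Val/Wrap.lean`: `isNewton_of_mem_adjoin`, `inv_mem_adjoin`, and `Val/LocBAux.lean`: `exists_lead`, `chart_gen`.)
  Proof: `R' = {t / x^c | deg t ≤ c m}`; `s :=` vectors of `1/x` and `e_i / x^(c_i)`, `wt i < 2g + m`, `c_i = ⌈wt i / m⌉`, and of
  `τ₀ = t₁/x^c` of order `1`, and `τ` itself together with ...: see below; `B = V[s]`.  All coordinates are
  congruent to the constant `φ(∞) ∈ K` (`locB_val`).  Cotangent condition from `cot_infty`.  A vector of units of `V`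
  lying in `B` has its inverse in `B` (integral equation with unit constant term), so `a/b = (a t/x^c)/(b t/x^c) ∈ B`.
  `τ = λ τ₀ + (order ≥ 2)`, `λ ∈ K^×`, so `τ` also generates the cotangent space.
  To keep `s` finite and `τ ∈ V[s]`: put the vector `τ` and the vector `a/b` themselves into `s`; their cotangent
  conditions: write `φ - φ(∞) - λ τ₀ = ` (order `≥ 2`) `= p/q` with `p, q ∈ R'`, `q` a unit, `p ∈ (m')²`.
-/

set_option autoImplicit false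

namespace Fermat.Agent.S17

variable {K R : Type*} [Field K] [CommRing R] [Algebra K R] (F : Frame K R)
variable {Ω : Type*} [Field Ω] [Algebra K Ω] (V : ValuationSubring Ω)
variable {ι : Type*} [Fintype ι] [LinearOrder ι]

section LocBVal

variable {Γ₀ : Type*} [LinearOrderedCommGroupWithZero Γ₀]

/-- the `K`-submodule `{r | w r ^ m ≤ c}`. -/
def LocB_ball (w : Valuation R Γ₀) (hw : ∀ κ : K, w (algebraMap K R κ) ≤ 1) {m : ℕ} (hm : m ≠ 0)
    (c : Γ₀) : Submodule K R where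
  carrier := {r | w r ^ m ≤ c}
  add_mem' := by
    intro a b ha hb
    have h1 : w (a + b) ≤ max (w a) (w b) := w.map_add a b
    rcases le_total (w a) (w b) with h | h
    · rw [max_eq_right h] at h1
      exact (pow_le_pow_left₀ zero_le h1 m).trans hb
    · rw [max_eq_left h] at h1
      exact (pow_le_pow_left₀ zero_le h1 m).trans ha
  zero_mem' := by
    show w 0 ^ m ≤ c
    rw [map_zero, zero_pow hm]
    exact zero_le
  smul_mem' := by
    intro κ a ha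
    show w (κ • a) ^ m ≤ c
    rw [Algebra.smul_def, map_mul]
    refine le_trans (pow_le_pow_left₀ zero_le ?_ m) ha
    exact mul_le_of_le_one_left' (hw κ)

theorem LocB_wt_one_ne_zero : F.wt 1 ≠ 0 := by
  have h := F.wt_strictMono Nat.zero_lt_one
  rw [F.wt_zero] at h
  omega

/-- steps (1) and (2) at once: if `w x ≤ θ`, `1 ≤ θ`, then `w r ^ m ≤ θ ^ deg r`. -/
theorem LocB_upper (w : Valuation R Γ₀) (hw : ∀ κ : K, w (algebraMap K R κ) ≤ 1) (θ : Γ₀)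
    (h1 : 1 ≤ θ) (hx : w (F.e 1) ≤ θ) (r : R) : w r ^ F.wt 1 ≤ θ ^ F.deg r := by
  have hm : F.wt 1 ≠ 0 := LocB_wt_one_ne_zero F
  have hθpos : 0 < θ := lt_of_lt_of_le zero_lt_one h1
  have hθ0 : θ ≠ 0 := hθpos.ne'
  obtain ⟨js, hjs, hmax⟩ := Finset.exists_max_image (F.idx (2 * F.g + F.wt 1))
    (fun j => w (F.e j) ^ F.wt 1 * (θ ^ F.wt j)⁻¹) (F.idx_nonempty _)
  obtain ⟨ρ, hρ⟩ : ∃ ρ, ρ = w (F.e js) ^ F.wt 1 * (θ ^ F.wt js)⁻¹ := ⟨_, rfl⟩
  rw [← hρ] at hmax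
  have hρ1 : 1 ≤ ρ := by
    have h0 := hmax 0 (F.mem_idx.2 (by rw [F.wt_zero]; exact Nat.zero_le _))
    simpa [F.wt_zero, F.e_zero] using h0
  have hρpos : 0 < ρ := lt_of_lt_of_le zero_lt_one hρ1
  have hmono : ∀ {a b : ℕ}, a ≤ b → ρ * θ ^ a ≤ ρ * θ ^ b := fun h =>
    mul_le_mul_right (pow_le_pow_right₀ h1 h) ρ
  have key : ∀ l, F.e l ∈ LocB_ball w hw hm (ρ * θ ^ F.wt l) := by
    intro l
    induction l using Nat.strong_induction_on with
    | _ l ih =>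
      by_cases hl : F.wt l ≤ 2 * F.g + F.wt 1
      · have h0 := hmax l (F.mem_idx.2 hl)
        show w (F.e l) ^ F.wt 1 ≤ ρ * θ ^ F.wt l
        rwa [mul_inv_le_iff₀ (pow_pos hθpos _)] at h0
      · obtain ⟨l', hl'⟩ := F.exists_wt_eq (n := F.wt l - F.wt 1) (by omega)
        have hl'l : l' < l := F.wt_strictMono.lt_iff_lt.1 (by omega)
        refine F.FrameGen_step _ (i := 1) (j := l') (by omega) ?_ (fun j hj => ?_)
        · show w (F.e 1 * F.e l') ^ F.wt 1 ≤ ρ * θ ^ F.wt l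
          have h2 : w (F.e l') ^ F.wt 1 ≤ ρ * θ ^ F.wt l' := ih l' hl'l
          rw [map_mul, mul_pow]
          calc w (F.e 1) ^ F.wt 1 * w (F.e l') ^ F.wt 1 ≤ θ ^ F.wt 1 * (ρ * θ ^ F.wt l') :=
                mul_le_mul' (pow_le_pow_left₀ zero_le hx _) h2
            _ = ρ * θ ^ F.wt l := by
                rw [show F.wt l = F.wt 1 + F.wt l' by omega, pow_add, mul_left_comm]
        · exact le_trans (ih j hj) (hmono (F.wt_strictMono hj).le)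
  have key2 : ∀ n, F.le n ≤ LocB_ball w hw hm (ρ * θ ^ n) := by
    intro n
    unfold Frame.le
    rw [Submodule.span_le]
    rintro _ ⟨l, hl, rfl⟩
    exact le_trans (key l) (hmono hl)
  have hρle : ρ ≤ 1 := by
    have h3 : F.e js * F.e js ∈ F.le (F.wt js + F.wt js) :=
      F.mul_mem_le (F.e_mem_le le_rfl) (F.e_mem_le le_rfl)
    have h4 : w (F.e js * F.e js) ^ F.wt 1 ≤ ρ * θ ^ (F.wt js + F.wt js) := key2 _ h3
    have h5 : w (F.e js) ^ F.wt 1 = ρ * θ ^ F.wt js := by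
      rw [hρ, mul_assoc, inv_mul_cancel₀ (pow_ne_zero _ hθ0), mul_one]
    rw [map_mul, mul_pow, h5, pow_add] at h4
    have h6 : ρ * (ρ * (θ ^ F.wt js * θ ^ F.wt js)) ≤ 1 * (ρ * (θ ^ F.wt js * θ ^ F.wt js)) := by
      rw [one_mul]
      calc ρ * (ρ * (θ ^ F.wt js * θ ^ F.wt js)) = ρ * θ ^ F.wt js * (ρ * θ ^ F.wt js) := by
            rw [mul_mul_mul_comm, mul_assoc]
        _ ≤ _ := h4
    exact le_of_mul_le_mul_right h6
      (mul_pos hρpos (mul_pos (pow_pos hθpos _) (pow_pos hθpos _)))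
  have h7 : w r ^ F.wt 1 ≤ ρ * θ ^ F.deg r := key2 (F.deg r) (F.mem_le_iff_deg.2 le_rfl)
  exact le_trans h7 (mul_le_of_le_one_left' hρle)

theorem LocB_deg_pow {f : R} (hf : f ≠ 0) (n : ℕ) : F.deg (f ^ n) = n * F.deg f := by
  have := F.isDomain
  induction n with
  | zero =>
    rw [pow_zero, zero_mul, ← F.e_zero, F.deg_e, F.wt_zero]
  | succ n ih =>
    rw [pow_succ, F.deg_mul (pow_ne_zero n hf) hf, ih]
    ring

/-- step (3): `w a ^ m = w x ^ deg a`. -/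
theorem LocB_eq (w : Valuation R Γ₀) (hw : ∀ κ : K, κ ≠ 0 → w (algebraMap K R κ) = 1)
    (hx : 1 < w (F.e 1)) {a : R} (ha : a ≠ 0) : w a ^ F.wt 1 = w (F.e 1) ^ F.deg a := by
  have := F.isDomain
  have hm : F.wt 1 ≠ 0 := LocB_wt_one_ne_zero F
  have hw' : ∀ κ : K, w (algebraMap K R κ) ≤ 1 := by
    intro κ
    by_cases hκ : κ = 0
    · rw [hκ, map_zero, map_zero]
      exact zero_le
    · exact (hw κ hκ).le
  have hx0 : F.e 1 ≠ 0 := F.e.ne_zero 1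
  have hdeg : F.deg (F.e 1 ^ F.deg a) = F.deg (a ^ F.wt 1) := by
    rw [LocB_deg_pow F hx0, LocB_deg_pow F ha, F.deg_e, mul_comm]
  obtain ⟨κ, hκ, hs⟩ := exists_lead F (pow_ne_zero _ hx0) (pow_ne_zero _ ha) hdeg
  have hκa : w (κ • a ^ F.wt 1) = w a ^ F.wt 1 := by
    rw [Algebra.smul_def, map_mul, hw κ hκ, one_mul, map_pow]
  rcases hs with hs | hs
  · rw [← hκa, ← sub_eq_zero.1 hs, map_pow]
  · have h1 := LocB_upper F w hw' (w (F.e 1)) hx.le le_rfl (F.e 1 ^ F.deg a - κ • a ^ F.wt 1)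
    have h2 : w (F.e 1) ^ F.deg (F.e 1 ^ F.deg a - κ • a ^ F.wt 1)
        < (w (F.e 1 ^ F.deg a)) ^ F.wt 1 := by
      rw [map_pow, ← pow_mul]
      refine pow_lt_pow_right₀ hx ?_
      rwa [LocB_deg_pow F ha, mul_comm] at hs
    have h3 : w (F.e 1 ^ F.deg a - κ • a ^ F.wt 1) < w (F.e 1 ^ F.deg a) :=
      lt_of_pow_lt_pow_left₀ _ zero_le (lt_of_le_of_lt h1 h2)
    have h4 : w (F.e 1 ^ F.deg a - (F.e 1 ^ F.deg a - κ • a ^ F.wt 1)) = w (F.e 1 ^ F.deg a) :=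
      w.map_sub_eq_of_lt_left h3
    rw [sub_sub_cancel, hκa, map_pow] at h4
    exact h4

end LocBVal

theorem locB_val [IsAlgClosed K] (hK : ∀ c : K, algebraMap K Ω c ∈ V) (ψ : R →ₐ[K] Ω)
    (hB : ∃ r, ψ r ∉ V) :
    (∀ a : R, a ≠ 0 → ψ a ≠ 0) ∧ ∀ a b : R, a ≠ 0 → b ≠ 0 →
      (F.deg a < F.deg b → V.valuation (ψ a) < V.valuation (ψ b)) ∧
      (F.deg a = F.deg b → V.valuation (ψ a) = V.valuation (ψ b)) := by
  have hm : F.wt 1 ≠ 0 := LocB_wt_one_ne_zero F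
  obtain ⟨w, hwdef⟩ : ∃ w : Valuation R V.ValueGroup, ∀ r, w r = V.valuation (ψ r) :=
    ⟨V.valuation.comap (ψ : R →+* Ω), fun r => rfl⟩
  have hw' : ∀ κ : K, w (algebraMap K R κ) ≤ 1 := by
    intro κ
    rw [hwdef, AlgHom.commutes]
    exact (V.valuation_le_one_iff _).2 (hK κ)
  have hw : ∀ κ : K, κ ≠ 0 → w (algebraMap K R κ) = 1 := by
    intro κ hκ
    refine le_antisymm (hw' κ) ?_
    have h1 : w (algebraMap K R κ) * w (algebraMap K R κ⁻¹) = 1 := by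
      rw [← map_mul, ← map_mul, mul_inv_cancel₀ hκ, map_one, map_one]
    calc (1 : V.ValueGroup) = w (algebraMap K R κ) * w (algebraMap K R κ⁻¹) := h1.symm
      _ ≤ w (algebraMap K R κ) * 1 := mul_le_mul_right (hw' κ⁻¹) _
      _ = w (algebraMap K R κ) := mul_one _
  have hx : 1 < w (F.e 1) := by
    by_contra hcon
    push Not at hcon
    obtain ⟨r, hr⟩ := hB
    apply hr
    rw [← V.valuation_le_one_iff, ← hwdef]
    have h1 := LocB_upper F w hw' 1 le_rfl hcon r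
    rw [one_pow] at h1
    by_contra hlt
    push Not at hlt
    exact absurd h1 (not_le.2 (one_lt_pow₀ hlt hm))
  have heq : ∀ a : R, a ≠ 0 → w a ^ F.wt 1 = w (F.e 1) ^ F.deg a := fun a ha =>
    LocB_eq F w hw hx ha
  have hx0 : w (F.e 1) ≠ 0 := (lt_trans zero_lt_one hx).ne'
  refine ⟨fun a ha h0 => ?_, fun a b ha hb => ⟨fun hab => ?_, fun hab => ?_⟩⟩
  · have h1 := heq a ha
    rw [hwdef a, h0, map_zero, zero_pow hm] at h1
    exact pow_ne_zero _ hx0 h1.symm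
  · rw [← hwdef, ← hwdef]
    refine lt_of_pow_lt_pow_left₀ (F.wt 1) zero_le ?_
    rw [heq a ha, heq b hb]
    exact pow_lt_pow_right₀ hx hab
  · rw [← hwdef, ← hwdef]
    have h1 : w a ^ F.wt 1 = w b ^ F.wt 1 := by rw [heq a ha, heq b hb, hab]
    exact (pow_left_inj₀ zero_le zero_le hm).1 h1

/-- the products `t₁ t₂` with `deg t_i + 1 ≤ c_i m`, `c₁ + c₂ = N`. -/
def cotSet (N : ℕ) : Set R :=
  {y | ∃ (t₁ t₂ : R) (c₁ c₂ : ℕ), F.deg t₁ + 1 ≤ c₁ * F.wt 1 ∧ F.deg t₂ + 1 ≤ c₂ * F.wt 1 ∧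
    c₁ + c₂ = N ∧ y = t₁ * t₂}

theorem cot_wt_one_pos : 0 < F.wt 1 := by
  have h := F.wt_strictMono Nat.zero_lt_one
  rw [F.wt_zero] at h
  exact h

theorem cot_pow_ne_zero (k : ℕ) : F.e 1 ^ k ≠ 0 := by
  haveI := F.isDomain
  exact pow_ne_zero k (F.e.ne_zero 1)

theorem cot_deg_one : F.deg (1 : R) = 0 := by
  rw [← F.e_zero, F.deg_e, F.wt_zero]

theorem cot_deg_pow (k : ℕ) : F.deg (F.e 1 ^ k) = k * F.wt 1 := by
  induction k with
  | zero => rw [pow_zero, cot_deg_one, zero_mul]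
  | succ k ih =>
    rw [pow_succ, F.deg_mul (cot_pow_ne_zero F k) (F.e.ne_zero 1), ih, F.deg_e]
    ring

theorem cot_deg_mul_le (a b : R) : F.deg (a * b) ≤ F.deg a + F.deg b :=
  F.mem_le_iff_deg.1 (F.mul_mem_le (F.mem_le_iff_deg.2 le_rfl) (F.mem_le_iff_deg.2 le_rfl))

theorem cot_deg_smul_le (r : K) (a : R) : F.deg (r • a) ≤ F.deg a :=
  F.mem_le_iff_deg.1 (Submodule.smul_mem _ r (F.mem_le_iff_deg.2 le_rfl))

theorem cot_shift {N : ℕ} {y : R} (hy : y ∈ Submodule.span K (cotSet F N)) (k : ℕ) :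
    y * F.e 1 ^ k ∈ Submodule.span K (cotSet F (N + k)) := by
  induction hy using Submodule.span_induction with
  | mem y hy =>
    obtain ⟨t₁, t₂, c₁, c₂, h1, h2, h3, rfl⟩ := hy
    refine Submodule.subset_span ⟨t₁, t₂ * F.e 1 ^ k, c₁, c₂ + k, h1, ?_, by omega, by ring⟩
    have h4 := cot_deg_mul_le F t₂ (F.e 1 ^ k)
    rw [cot_deg_pow] at h4
    rw [add_mul]
    omega
  | zero =>
    rw [zero_mul]
    exact Submodule.zero_mem _
  | add a b _ _ ha hb =>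
    rw [add_mul]
    exact Submodule.add_mem _ ha hb
  | smul r a _ ha =>
    rw [smul_mul_assoc]
    exact Submodule.smul_mem _ r ha

theorem cot_direct (t : R) (c : ℕ) (h : F.wt 1 + 1 + F.deg t ≤ c * F.wt 1) :
    ∃ c' : ℕ, t * F.e 1 ^ c' ∈ Submodule.span K (cotSet F (c + c')) := by
  have hm := cot_wt_one_pos F
  refine ⟨0, Submodule.subset_span ⟨1, t, 1, c - 1, ?_, ?_, ?_, ?_⟩⟩
  · rw [cot_deg_one, one_mul]
    omega
  · rcases c with _ | c₀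
    · rw [zero_mul] at h
      omega
    · rw [add_mul, one_mul] at h
      rw [Nat.add_sub_cancel]
      omega
  · rcases c with _ | c₀
    · rw [zero_mul] at h
      omega
    · omega
  · rw [pow_zero, mul_one, one_mul]

theorem cot_main (s : ℕ) : ∀ (t : R) (c : ℕ), F.deg t + 2 ≤ c * F.wt 1 →
    F.wt 1 + 1 + F.deg t ≤ c * F.wt 1 + s →
    ∃ c' : ℕ, t * F.e 1 ^ c' ∈ Submodule.span K (cotSet F (c + c')) := by
  induction s with
  | zero =>
    intro t c _ hs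
    exact cot_direct F t c hs
  | succ s ih =>
    intro t c h hs
    by_cases hbig : F.wt 1 + 1 + F.deg t ≤ c * F.wt 1
    · exact cot_direct F t c hbig
    by_cases ht : t = 0
    · exact ⟨0, by rw [ht, zero_mul]; exact Submodule.zero_mem _⟩
    have hm := cot_wt_one_pos F
    have hA : 2 * F.g ≤ 2 * F.g * F.wt 1 := Nat.le_mul_of_pos_right _ hm
    have hC : (2 * F.g + c + 1) * F.wt 1 = 2 * F.g * F.wt 1 + c * F.wt 1 + F.wt 1 := by ring
    have hc' : (4 * F.g + c + 2) * F.wt 1 =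
        2 * (2 * F.g * F.wt 1) + c * F.wt 1 + 2 * F.wt 1 := by ring
    have hcc : (c + (4 * F.g + c + 2)) * F.wt 1 =
        2 * (2 * F.g * F.wt 1) + 2 * (c * F.wt 1) + 2 * F.wt 1 := by ring
    obtain ⟨i₁, hi₁⟩ := F.exists_wt_eq (n := 2 * F.g * F.wt 1 + c * F.wt 1 + F.wt 1 - 1)
      (by omega)
    obtain ⟨i₂, hi₂⟩ := F.exists_wt_eq (n := 2 * F.g * F.wt 1 + F.wt 1 + F.deg t + 1) (by omega)
    have hb0 : F.e i₁ * F.e i₂ ≠ 0 := F.mul_ne_zero' (F.e.ne_zero i₁) (F.e.ne_zero i₂)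
    have ha0 : t * F.e 1 ^ (4 * F.g + c + 2) ≠ 0 := F.mul_ne_zero' ht (cot_pow_ne_zero F _)
    have hdb : F.deg (F.e i₁ * F.e i₂) =
        2 * (2 * F.g * F.wt 1) + c * F.wt 1 + 2 * F.wt 1 + F.deg t := by
      rw [F.deg_mul (F.e.ne_zero i₁) (F.e.ne_zero i₂), F.deg_e, F.deg_e, hi₁, hi₂]
      omega
    have hda : F.deg (t * F.e 1 ^ (4 * F.g + c + 2)) = F.deg (F.e i₁ * F.e i₂) := by
      rw [F.deg_mul ht (cot_pow_ne_zero F _), cot_deg_pow, hdb, hc']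
      omega
    have hgen : F.e i₁ * F.e i₂ ∈ Submodule.span K (cotSet F (c + (4 * F.g + c + 2))) := by
      refine Submodule.subset_span ⟨F.e i₁, F.e i₂, 2 * F.g + c + 1, 2 * F.g + c + 1, ?_, ?_,
        by omega, rfl⟩
      · rw [F.deg_e, hi₁, hC]
        omega
      · rw [F.deg_e, hi₂, hC]
        omega
    obtain ⟨κ, -, hκ⟩ := exists_lead F ha0 hb0 hda
    rcases hκ with hκ | hκ
    · refine ⟨4 * F.g + c + 2, ?_⟩
      rw [sub_eq_zero.mp hκ]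
      exact Submodule.smul_mem _ κ hgen
    · obtain ⟨c'', hc''⟩ := ih (t * F.e 1 ^ (4 * F.g + c + 2) - κ • (F.e i₁ * F.e i₂))
        (c + (4 * F.g + c + 2)) (by rw [hcc]; omega) (by rw [hcc]; omega)
      refine ⟨4 * F.g + c + 2 + c'', ?_⟩
      have e1 : t * F.e 1 ^ (4 * F.g + c + 2 + c'') =
          (t * F.e 1 ^ (4 * F.g + c + 2) - κ • (F.e i₁ * F.e i₂)) * F.e 1 ^ c'' +
            κ • ((F.e i₁ * F.e i₂) * F.e 1 ^ c'') := by
        rw [sub_mul, smul_mul_assoc, sub_add_cancel, pow_add, mul_assoc]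
      rw [e1, ← add_assoc]
      exact Submodule.add_mem _ hc'' (Submodule.smul_mem _ κ (cot_shift F hgen c''))

theorem cot_infty (t : R) (c : ℕ) (h : F.deg t + 2 ≤ c * F.wt 1) :
    ∃ (c' k : ℕ) (t₁ t₂ : Fin k → R) (c₁ c₂ : Fin k → ℕ),
      (∀ q, F.deg (t₁ q) + 1 ≤ c₁ q * F.wt 1 ∧ F.deg (t₂ q) + 1 ≤ c₂ q * F.wt 1 ∧
        c₁ q + c₂ q = c + c') ∧
      t * F.e 1 ^ c' = ∑ q, t₁ q * t₂ q := by
  obtain ⟨c', hc'⟩ := cot_main F (F.wt 1 + 1) t c h (by omega)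
  obtain ⟨k, f, g, hsum⟩ := Submodule.mem_span_set'.mp hc'
  have hg : ∀ q, ∃ (t₁ t₂ : R) (c₁ c₂ : ℕ), F.deg t₁ + 1 ≤ c₁ * F.wt 1 ∧
      F.deg t₂ + 1 ≤ c₂ * F.wt 1 ∧ c₁ + c₂ = c + c' ∧ ((g q : R)) = t₁ * t₂ := fun q => (g q).2
  choose t₁ t₂ c₁ c₂ h1 h2 h3 h4 using hg
  refine ⟨c', k, fun q => f q • t₁ q, t₂, c₁, c₂, fun q => ⟨?_, h2 q, h3 q⟩, ?_⟩
  · have h5 := cot_deg_smul_le F (f q) (t₁ q)
    have h6 := h1 q
    show F.deg (f q • t₁ q) + 1 ≤ c₁ q * F.wt 1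
    omega
  · rw [← hsum]
    refine Finset.sum_congr rfl fun q _ => ?_
    rw [h4 q, smul_mul_assoc]

theorem locB [IsAlgClosed K] (hK : ∀ c : K, algebraMap K Ω c ∈ V) (ψ : ι → (R →ₐ[K] Ω))
    (hB : ∀ c, ∃ r, ψ c r ∉ V) (t t' : ℕ) (ht : F.wt t = F.n1) (ht' : F.wt t' + 1 = F.n1)
    (a b : R) (hb : b ≠ 0) (hab : F.deg a ≤ F.deg b) :
    IsNewton V (fun c => ψ c (F.e t') / ψ c (F.e t)) (fun c => ψ c a / ψ c b) := by
  have h : LocBCore.HV F V ψ :=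
    ⟨fun c a ha => (locB_val F V hK (ψ c) (hB c)).1 a ha,
     fun c a b ha hb hlt => ((locB_val F V hK (ψ c) (hB c)).2 a b ha hb).1 hlt,
     fun c a b ha hb heq => ((locB_val F V hK (ψ c) (hB c)).2 a b ha hb).2 heq⟩
  exact LocBCore.core hK h (cot_infty F) t t' (by omega) a b hb hab

end Fermat.Agent.S17
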