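import Mathlib

/-!
# S17 / VAL leaf `Nakayama` (pure commutative algebra)

`nakayama_adjoin_eq_top`: abstract form.  `V` local, `R` a finite `V`-algebra, `n` an ideal with
`R = V + (S)`, `S ⊆ n` finite, all elements of `n` nilpotent modulo `m_V R`, and every `u ∈ S` is
`≡ b t` modulo `n² + m_V R`.  Then `R = V[t]`.

`adjoin_le_of_cotangent'`: the concrete form for subalgebras of `V^ι`.
-/

set_option autoImplicit false

namespace Fermat.Agent.S17

open IsLocalRing

section abstract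

variable {V R : Type*} [CommRing V] [IsLocalRing V] [CommRing R] [Algebra V R] [Module.Finite V R]

theorem nakayama_le_jacobson (n : Ideal R)
    (hb : ∀ p ∈ n, ∃ k : ℕ, p ^ k ∈ (maximalIdeal V).map (algebraMap V R)) :
    n ≤ Ideal.jacobson ⊥ := by
  have : Algebra.IsIntegral V R := Algebra.IsIntegral.of_finite V R
  refine le_sInf ?_
  rintro M ⟨-, hM⟩
  intro p hp
  obtain ⟨k, hk⟩ := hb p hp
  have := hM
  have h1 : (M.comap (algebraMap V R)).IsMaximal :=
    Ideal.isMaximal_comap_of_isIntegral_of_isMaximal M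
  have h2 : M.comap (algebraMap V R) = maximalIdeal V := IsLocalRing.eq_maximalIdeal h1
  have h3 : (maximalIdeal V).map (algebraMap V R) ≤ M := by
    rw [Ideal.map_le_iff_le_comap, h2]
  exact hM.isPrime.mem_of_pow_mem k (h3 hk)

theorem nakayama_adjoin_eq_top (n : Ideal R) (S : Set R) (hS : S.Finite) (t : R)
    (hSn : S ⊆ n)
    (ha : ∀ x : R, ∃ a : V, x - algebraMap V R a ∈ Ideal.span S)
    (he : ∀ a : V, algebraMap V R a ∈ n → a ∈ maximalIdeal V)
    (hb : ∀ p ∈ n, ∃ k : ℕ, p ^ k ∈ (maximalIdeal V).map (algebraMap V R))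
    (ht : t ∈ n)
    (hd : ∀ u ∈ S, ∃ b : V, u - b • t ∈ n * n ⊔ (maximalIdeal V).map (algebraMap V R)) :
    Algebra.adjoin V {t} = ⊤ := by
  set mR : Ideal R := (maximalIdeal V).map (algebraMap V R) with hmR
  set J : Ideal R := Ideal.span S with hJ
  have hJn : J ≤ n := Ideal.span_le.mpr hSn
  -- `n ≤ mR ⊔ J`
  have hn : n ≤ mR ⊔ J := by
    intro x hx
    obtain ⟨a, hxa⟩ := ha x
    have h1 : algebraMap V R a ∈ n := by
      have : algebraMap V R a = x - (x - algebraMap V R a) := by ring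
      rw [this]
      exact n.sub_mem hx (hJn hxa)
    have h2 : algebraMap V R a ∈ mR := Ideal.mem_map_of_mem _ (he a h1)
    have : x = algebraMap V R a + (x - algebraMap V R a) := by ring
    rw [this]
    exact Ideal.add_mem _ (Ideal.mem_sup_left h2) (Ideal.mem_sup_right hxa)
  have hjac : n ≤ Ideal.jacobson ⊥ := nakayama_le_jacobson n hb
  -- `J ≤ (t) ⊔ mR`
  have hJt : J ≤ Ideal.span {t} ⊔ mR := by
    refine Submodule.le_of_le_smul_of_le_jacobson_bot (I := n) ⟨hS.toFinset, by simp [hJ]⟩ hjac ?_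
    rw [smul_eq_mul]
    conv_lhs => rw [hJ]
    rw [Ideal.span_le]
    intro u hu
    obtain ⟨b, hbu⟩ := hd u hu
    have h1 : n * n ⊔ mR ≤ (Ideal.span {t} ⊔ mR) ⊔ n * J := by
      refine sup_le ?_ (le_sup_of_le_left le_sup_right)
      calc n * n ≤ n * (mR ⊔ J) := Ideal.mul_mono_right hn
        _ = n * mR ⊔ n * J := Ideal.mul_sup _ _ _
        _ ≤ (Ideal.span {t} ⊔ mR) ⊔ n * J :=
          sup_le_sup_right (le_trans Ideal.mul_le_right le_sup_right) _
    have h2 : b • t ∈ (Ideal.span {t} ⊔ mR) ⊔ n * J := by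
      rw [Algebra.smul_def]
      exact Ideal.mem_sup_left (Ideal.mem_sup_left
        (Ideal.mul_mem_left _ _ (Ideal.mem_span_singleton_self t)))
    have : u = b • t + (u - b • t) := by ring
    rw [SetLike.mem_coe, this]
    exact Ideal.add_mem _ h2 (h1 hbu)
  -- iteration
  have hiter : ∀ (j : ℕ) (x : R), ∃ c ∈ Algebra.adjoin V {t}, ∃ y : R, x - c - t ^ j * y ∈ mR := by
    intro j
    induction j with
    | zero =>
      intro x
      exact ⟨0, Subalgebra.zero_mem _, x, by simp⟩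
    | succ j ih =>
      intro x
      obtain ⟨c, hc, y, hy⟩ := ih x
      obtain ⟨a, hya⟩ := ha y
      obtain ⟨w, hw, μ, hμ, hwμ⟩ := Submodule.mem_sup.mp (hJt hya)
      obtain ⟨y', rfl⟩ := Ideal.mem_span_singleton'.mp hw
      have htmem : t ∈ Algebra.adjoin V {t} := Algebra.self_mem_adjoin_singleton V t
      refine ⟨c + a • t ^ j, Subalgebra.add_mem _ hc
        (Subalgebra.smul_mem _ (Subalgebra.pow_mem _ htmem j) a), y', ?_⟩
      have : x - (c + a • t ^ j) - t ^ (j + 1) * y' = (x - c - t ^ j * y) + t ^ j * μ := by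
        have h3 : y = algebraMap V R a + (y' * t + μ) := by rw [hwμ]; ring
        rw [h3, Algebra.smul_def]
        ring
      rw [this]
      exact Ideal.add_mem _ hy (Ideal.mul_mem_left _ _ hμ)
  obtain ⟨k, hk⟩ := hb t ht
  -- `⊤ ≤ V[t] + m ⊤`
  have htop : (⊤ : Submodule V R) ≤
      Subalgebra.toSubmodule (Algebra.adjoin V {t}) ⊔ maximalIdeal V • (⊤ : Submodule V R) := by
    intro x _
    obtain ⟨c, hc, y, hy⟩ := hiter k x
    have h1 : x - c ∈ mR := by
      have : x - c = (x - c - t ^ k * y) + t ^ k * y := by ring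
      rw [this]
      exact Ideal.add_mem _ hy (Ideal.mul_mem_right _ _ hk)
    have : x = c + (x - c) := by ring
    rw [this]
    refine Submodule.add_mem_sup hc ?_
    rw [Ideal.smul_top_eq_map]
    exact h1
  have hfin : (⊤ : Submodule V R).FG := Module.Finite.fg_top
  have hfinal := Submodule.le_of_le_smul_of_le_jacobson_bot hfin
    (le_of_eq (IsLocalRing.jacobson_eq_maximalIdeal ⊥ bot_ne_top).symm) htop
  rw [eq_top_iff]
  intro x _
  exact hfinal (Submodule.mem_top (x := x))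

end abstract

section concrete

variable {V ι : Type*} [CommRing V] [IsLocalRing V] [Fintype ι]

omit [Fintype ι] in
theorem nakayama_cong (s : Set (ι → V))
    (hcong : ∀ u ∈ s, ∀ c c', u c - u c' ∈ maximalIdeal V) :
    ∀ β ∈ Algebra.adjoin V s, ∀ c c', β c - β c' ∈ maximalIdeal V := by
  intro β hβ c c'
  induction hβ using Algebra.adjoin_induction with
  | mem u hu => exact hcong u hu c c'
  | algebraMap r => simp
  | add x y _ _ hx hy =>
    have : (x + y) c - (x + y) c' = (x c - x c') + (y c - y c') := by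
      simp only [Pi.add_apply]; ring
    rw [this]
    exact Ideal.add_mem _ hx hy
  | mul x y _ _ hx hy =>
    have : (x * y) c - (x * y) c' = x c * (y c - y c') + (x c - x c') * y c' := by
      simp only [Pi.mul_apply]; ring
    rw [this]
    exact Ideal.add_mem _ (Ideal.mul_mem_left _ _ hy) (Ideal.mul_mem_right _ _ hx)

omit [IsLocalRing V] in
theorem nakayama_pow_mem_of_prod {R : Type*} [CommRing R] (I : Ideal R) (p : R) (a : ι → R)
    (ha : ∀ c, a c ∈ I) (h0 : ∏ c : ι, (p - a c) = 0) : p ^ Fintype.card ι ∈ I := by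
  have h2 := congrArg (Ideal.Quotient.mk I) h0
  rw [map_prod, map_zero] at h2
  have h3 : ∀ c : ι, Ideal.Quotient.mk I (p - a c) = Ideal.Quotient.mk I p := by
    intro c
    rw [map_sub, Ideal.Quotient.eq_zero_iff_mem.mpr (ha c), sub_zero]
  rw [Finset.prod_congr rfl (fun c _ => h3 c), Finset.prod_const, Finset.card_univ, ← map_pow,
    Ideal.Quotient.eq_zero_iff_mem] at h2
  exact h2

theorem nakayama_pow_mem (B : Subalgebra V (ι → V)) (p : ↥B)
    (hp : ∀ c, (p : ι → V) c ∈ maximalIdeal V) :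
    p ^ Fintype.card ι ∈ (maximalIdeal V).map (algebraMap V ↥B) := by
  classical
  have h0 : ∏ c : ι, (p - algebraMap V ↥B ((p : ι → V) c)) = 0 := by
    apply Subtype.ext
    funext c
    have h1 : ((∏ c : ι, (p - algebraMap V ↥B ((p : ι → V) c)) : ↥B) : ι → V) =
        ∏ c : ι, ((p : ι → V) - algebraMap V (ι → V) ((p : ι → V) c)) := by
      rw [← Subalgebra.coe_val, map_prod]
      rfl
    rw [h1, Finset.prod_apply]
    refine Finset.prod_eq_zero (Finset.mem_univ c) ?_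
    simp
  exact nakayama_pow_mem_of_prod _ p _ (fun c => Ideal.mem_map_of_mem _ (hp c)) h0

theorem adjoin_le_of_cotangent'
    (s : Set (ι → V)) (hs : s.Finite) (τ : ι → V) (hτ : τ ∈ Algebra.adjoin V s)
    (hcong : ∀ u ∈ s, ∀ c c', u c - u c' ∈ maximalIdeal V)
    (hcot : ∀ u ∈ s, ∃ a b : V, u - a • 1 - b • τ ∈ Submodule.span V
      ({x | ∃ p q, p ∈ Algebra.adjoin V s ∧ q ∈ Algebra.adjoin V s ∧
          (∀ c, p c ∈ maximalIdeal V) ∧ (∀ c, q c ∈ maximalIdeal V) ∧ x = p * q} ∪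
        {x | ∃ m ∈ maximalIdeal V, ∃ β ∈ Algebra.adjoin V s, x = m • β})) :
    Algebra.adjoin V s ≤ Algebra.adjoin V {τ} := by
  classical
  rcases isEmpty_or_nonempty ι with hι | ⟨⟨c₀⟩⟩
  · intro x _
    have : x = 1 := Subsingleton.elim _ _
    rw [this]
    exact Subalgebra.one_mem _
  have hcongB := nakayama_cong s hcong
  set B := Algebra.adjoin V s with hB
  have hfg : (Subalgebra.toSubmodule B).FG :=
    fg_adjoin_of_finite hs (fun x _ => Algebra.IsIntegral.isIntegral x)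
  have hfin : Module.Finite V ↥B := (Module.Finite.iff_fg (N := Subalgebra.toSubmodule B)).mpr hfg
  let ev : ↥B →ₐ[V] V := (Pi.evalAlgHom V (fun _ : ι => V) c₀).comp B.val
  have hev : ∀ x : ↥B, ev x = (x : ι → V) c₀ := fun _ => rfl
  let n : Ideal ↥B := (maximalIdeal V).comap ev
  have hn_iff : ∀ x : ↥B, x ∈ n ↔ ∀ c, (x : ι → V) c ∈ maximalIdeal V := by
    intro x
    constructor
    · intro hx c
      have h1 : (x : ι → V) c₀ ∈ maximalIdeal V := hx
      have : (x : ι → V) c = (x : ι → V) c₀ + ((x : ι → V) c - (x : ι → V) c₀) := by ring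
      rw [this]
      exact Ideal.add_mem _ h1 (hcongB x x.2 c c₀)
    · intro hx
      exact hx c₀
  let S : Set ↥B := {x | ∃ u ∈ s, (x : ι → V) = u - u c₀ • 1}
  have hSfin : S.Finite := by
    refine ((hs.image (fun u => u - u c₀ • (1 : ι → V))).preimage
      (Subtype.val_injective.injOn (s := Set.univ) |>.mono (Set.subset_univ _))).subset ?_
    rintro x ⟨u, hu, hx⟩
    exact ⟨u, hu, hx.symm⟩
  have ht_mem : τ - τ c₀ • 1 ∈ B := B.sub_mem hτ (B.smul_mem B.one_mem _)
  have hcoe_alg : ∀ a : V, ((algebraMap V ↥B a : ↥B) : ι → V) = a • 1 := by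
    intro a
    rw [Subalgebra.coe_algebraMap, Algebra.algebraMap_eq_smul_one]
  have hSn : S ⊆ n := by
    rintro x ⟨u, hu, hx⟩
    show ev x ∈ maximalIdeal V
    rw [hev, hx]
    simp
  have ha : ∀ x : ↥B, ∃ a : V, x - algebraMap V ↥B a ∈ Ideal.span S := by
    have key : ∀ β (hβ : β ∈ B), ∃ a : V, (⟨β, hβ⟩ : ↥B) - algebraMap V ↥B a ∈ Ideal.span S := by
      intro β hβ
      induction hβ using Algebra.adjoin_induction with
      | mem u hu =>
        refine ⟨u c₀, Ideal.subset_span ⟨u, hu, ?_⟩⟩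
        rw [Subalgebra.coe_sub, hcoe_alg]
      | algebraMap r =>
        refine ⟨r, ?_⟩
        have : (⟨algebraMap V (ι → V) r, Subalgebra.algebraMap_mem _ r⟩ : ↥B) -
            algebraMap V ↥B r = 0 := by
          apply Subtype.ext
          simp
        rw [this]
        exact Ideal.zero_mem _
      | add x y hx hy ihx ihy =>
        obtain ⟨a, ha⟩ := ihx
        obtain ⟨a', ha'⟩ := ihy
        refine ⟨a + a', ?_⟩
        have : (⟨x + y, Subalgebra.add_mem _ hx hy⟩ : ↥B) - algebraMap V ↥B (a + a') =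
            ((⟨x, hx⟩ : ↥B) - algebraMap V ↥B a) + ((⟨y, hy⟩ : ↥B) - algebraMap V ↥B a') := by
          rw [map_add]
          have h0 : (⟨x + y, Subalgebra.add_mem _ hx hy⟩ : ↥B) = ⟨x, hx⟩ + ⟨y, hy⟩ := rfl
          rw [h0]
          ring
        rw [this]
        exact Ideal.add_mem _ ha ha'
      | mul x y hx hy ihx ihy =>
        obtain ⟨a, ha⟩ := ihx
        obtain ⟨a', ha'⟩ := ihy
        refine ⟨a * a', ?_⟩
        have : (⟨x * y, Subalgebra.mul_mem _ hx hy⟩ : ↥B) - algebraMap V ↥B (a * a') =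
            ((⟨x, hx⟩ : ↥B) - algebraMap V ↥B a) * ⟨y, hy⟩ +
              algebraMap V ↥B a * ((⟨y, hy⟩ : ↥B) - algebraMap V ↥B a') := by
          rw [map_mul]
          have h0 : (⟨x * y, Subalgebra.mul_mem _ hx hy⟩ : ↥B) = ⟨x, hx⟩ * ⟨y, hy⟩ := rfl
          rw [h0]
          ring
        rw [this]
        exact Ideal.add_mem _ (Ideal.mul_mem_right _ _ ha) (Ideal.mul_mem_left _ _ ha')
    intro x
    exact key x x.2
  have he : ∀ a : V, algebraMap V ↥B a ∈ n → a ∈ maximalIdeal V := by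
    intro a h
    have h1 : ev (algebraMap V ↥B a) ∈ maximalIdeal V := h
    rwa [AlgHom.commutes] at h1
  have hb : ∀ p ∈ n, ∃ k : ℕ, p ^ k ∈ (maximalIdeal V).map (algebraMap V ↥B) := by
    intro p hp
    exact ⟨_, nakayama_pow_mem B p ((hn_iff p).mp hp)⟩
  have hmRn : (maximalIdeal V).map (algebraMap V ↥B) ≤ n := by
    rw [Ideal.map_le_iff_le_comap]
    intro a ha
    show ev (algebraMap V ↥B a) ∈ maximalIdeal V
    rwa [AlgHom.commutes]
  have htn : (⟨τ - τ c₀ • 1, ht_mem⟩ : ↥B) ∈ n := by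
    show ev _ ∈ maximalIdeal V
    rw [hev]
    simp
  -- conversion of the span
  have hconv : ∀ w ∈ Submodule.span V
      ({x | ∃ p q, p ∈ B ∧ q ∈ B ∧
          (∀ c, p c ∈ maximalIdeal V) ∧ (∀ c, q c ∈ maximalIdeal V) ∧ x = p * q} ∪
        {x | ∃ m ∈ maximalIdeal V, ∃ β ∈ B, x = m • β}),
      ∃ W : ↥B, (W : ι → V) = w ∧ W ∈ n * n ⊔ (maximalIdeal V).map (algebraMap V ↥B) := by
    intro w hw
    induction hw using Submodule.span_induction with
    | mem x hx =>
      rcases hx with ⟨p, q, hp, hq, hpm, hqm, rfl⟩ | ⟨m, hm, β, hβ, rfl⟩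
      · exact ⟨⟨p, hp⟩ * ⟨q, hq⟩, rfl, Ideal.mem_sup_left
          (Ideal.mul_mem_mul ((hn_iff ⟨p, hp⟩).mpr hpm) ((hn_iff ⟨q, hq⟩).mpr hqm))⟩
      · refine ⟨algebraMap V ↥B m * ⟨β, hβ⟩, ?_, Ideal.mem_sup_right
          (Ideal.mul_mem_right _ _ (Ideal.mem_map_of_mem _ hm))⟩
        rw [Subalgebra.coe_mul, hcoe_alg, smul_mul_assoc, one_mul]
    | zero => exact ⟨0, rfl, Ideal.zero_mem _⟩
    | add x y _ _ ihx ihy =>
      obtain ⟨X, rfl, hX⟩ := ihx
      obtain ⟨Y, rfl, hY⟩ := ihy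
      exact ⟨X + Y, rfl, Ideal.add_mem _ hX hY⟩
    | smul a x _ ihx =>
      obtain ⟨X, rfl, hX⟩ := ihx
      refine ⟨algebraMap V ↥B a * X, ?_, Ideal.mul_mem_left _ _ hX⟩
      rw [Subalgebra.coe_mul, hcoe_alg, smul_mul_assoc, one_mul]
  have hd : ∀ u ∈ S, ∃ b : V, u - b • (⟨τ - τ c₀ • 1, ht_mem⟩ : ↥B) ∈
      n * n ⊔ (maximalIdeal V).map (algebraMap V ↥B) := by
    rintro x ⟨u, hu, hx⟩
    obtain ⟨a, b, hab⟩ := hcot u hu
    obtain ⟨W, hW, hWmem⟩ := hconv _ hab
    have hWn : W ∈ n := (sup_le Ideal.mul_le_left hmRn) hWmem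
    have hW0 : (W : ι → V) c₀ ∈ maximalIdeal V := hWn
    refine ⟨b, ?_⟩
    have h1 : x - b • (⟨τ - τ c₀ • 1, ht_mem⟩ : ↥B) =
        W + algebraMap V ↥B (-((W : ι → V) c₀)) := by
      apply Subtype.ext
      rw [Subalgebra.coe_sub, Subalgebra.coe_add, hcoe_alg, Subalgebra.coe_smul, hx, hW]
      funext c
      simp
      ring
    rw [h1]
    exact Ideal.add_mem _ hWmem (Ideal.mem_sup_right
      (Ideal.mem_map_of_mem _ (Ideal.neg_mem_iff _ |>.mpr hW0)))
  have htop := nakayama_adjoin_eq_top n S hSfin ⟨τ - τ c₀ • 1, ht_mem⟩ hSn ha he hb htn hd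
  intro x hx
  have h1 : (⟨x, hx⟩ : ↥B) ∈ Algebra.adjoin V {(⟨τ - τ c₀ • 1, ht_mem⟩ : ↥B)} := by
    rw [htop]; exact Algebra.mem_top
  have h2 : x ∈ (Algebra.adjoin V {(⟨τ - τ c₀ • 1, ht_mem⟩ : ↥B)}).map B.val :=
    ⟨⟨x, hx⟩, h1, rfl⟩
  rw [AlgHom.map_adjoin, Set.image_singleton] at h2
  refine (Algebra.adjoin_le ?_) h2
  rintro _ rfl
  have hτ' : τ ∈ Algebra.adjoin V {τ} := Algebra.self_mem_adjoin_singleton V τ
  exact Subalgebra.sub_mem _ hτ' (Subalgebra.smul_mem _ (Subalgebra.one_mem _) _)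

end concrete

end Fermat.Agent.S17
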