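import Fermat.Agent.S17.Defs
import Fermat.Agent.S17.Val.Nakayama

/-!
# S17 / VAL leaves `Newton`, `Nakayama` (pure commutative algebra)

`ι` a finite linearly ordered set, `τ : ι → V`.  Newton vectors `newt τ l c = ∏_{c' < l} (τ c - τ c')`.

* `exists_newton_of_mem_adjoin`: every element of `V[τ] ⊆ V^ι` is a `V`-combination of Newton vectors.
  Proof: the span `M` of the Newton vectors contains `1` (`l = ` minimum; if `ι` is empty everything is
  trivial) and is stable under multiplication by `τ`: `τ * N_l = τ_l N_l + N'_l`,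
  `N'_l c = ∏_{c' ≤ l} (τ c - τ c')`, which is `N_{l⁺}` (`l⁺` the successor of `l`) or `0` (if `l` is the
  maximum).  `Algebra.adjoin_induction`.  (You may transport to `Fin n` by `Fintype.orderIsoFinOfCardEq`.)

* `adjoin_le_of_cotangent` (Nakayama): `V` local, `B = V[s] ⊆ V^ι`, `s` finite, all `u ∈ s` have coordinates
  congruent mod `m_V`, `τ ∈ B`, and every `u ∈ s` is `≡ a + b τ` modulo `n² + m_V B`,
  `n = {p ∈ B | all coordinates in m_V}`.  Then `B = V[τ]`.
  Proof.  (0) every `β ∈ B` has congruent coordinates (subalgebra).  (1) `B` is a finite `V`-module: every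
  `u ∈ V^ι` is integral (root of `∏_c (X - C (u c))`), `IsIntegral.fg_adjoin_of_finite`-type lemma.
  (2) fix `c₀`; `u' := u - u c₀ • 1 ∈ n`; `B = V[s']`, `n = m_V • 1 + ∑ u' B ⊆ m_V B + ∑ V u' + n²`.
  (3) by hypothesis `u' ∈ V τ' + n² + m_V B` (evaluate at `c₀` to see that the scalar part lies in `m_V`).
  So `n ⊆ V τ' + n² + m_V B`, by induction `n^j ⊆ V τ'^j + n^(j+1) + m_V B`.  (4) `n^E ⊆ m_V B` for `E` large:
  every `p ∈ n` satisfies `p^#ι ∈ m_V B` (monic equation with lower coefficients in `m_V`), `n` is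
  generated mod `m_V B` by the finitely many `u'`; pigeonhole.  (5) `B = V + n ⊆ V[τ] + m_V B`; Nakayama
  (`Submodule.le_of_le_smul_of_le_jacobson_bot`).
-/

set_option autoImplicit false

namespace Fermat.Agent.S17

/-- Newton products. -/
def newt {V ι : Type*} [CommRing V] [Fintype ι] [LinearOrder ι] (τ : ι → V) (l c : ι) : V :=
  ∏ c' ∈ Finset.univ.filter (· < l), (τ c - τ c')

theorem newt_eq_zero_of_lt {V ι : Type*} [CommRing V] [Fintype ι] [LinearOrder ι] (τ : ι → V)
    {l c : ι} (h : c < l) : newt τ l c = 0 :=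
  Finset.prod_eq_zero (Finset.mem_filter.mpr ⟨Finset.mem_univ c, h⟩) (sub_self _)

/-- the conclusion of the `Loc` lemmas for the vector `(x c)_c`: a `V`-combination of Newton vectors. -/
def IsNewton {Ω ι : Type*} [Field Ω] [Fintype ι] [LinearOrder ι] (V : ValuationSubring Ω)
    (τ x : ι → Ω) : Prop :=
  ∃ lam : ι → Ω, (∀ l, lam l ∈ V) ∧ ∀ c, x c = ∑ l, lam l * newt τ l c

/-- the span of the Newton vectors is stable under multiplication by `τ`. -/
theorem Newton_mul_newt_mem {V ι : Type*} [CommRing V] [Fintype ι] [LinearOrder ι] (τ : ι → V)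
    (l : ι) : τ * (fun c => newt τ l c) ∈
      Submodule.span V (Set.range fun l : ι => (fun c => newt τ l c)) := by
  classical
  set M := Submodule.span V (Set.range fun l : ι => (fun c => newt τ l c)) with hM
  have hN : ∀ l, (fun c => newt τ l c) ∈ M := fun l => Submodule.subset_span ⟨l, rfl⟩
  have hdec : τ * (fun c => newt τ l c) =
      τ l • (fun c => newt τ l c) + fun c => (τ c - τ l) * newt τ l c := by
    funext c
    simp only [Pi.mul_apply, Pi.add_apply, Pi.smul_apply, smul_eq_mul]
    ring
  rw [hdec]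
  refine M.add_mem (M.smul_mem _ (hN l)) ?_
  have hprod : ∀ c, (τ c - τ l) * newt τ l c =
      ∏ c' ∈ Finset.univ.filter (· ≤ l), (τ c - τ c') := by
    intro c
    have h1 : Finset.univ.filter (· ≤ l) = insert l (Finset.univ.filter (· < l)) := by
      ext x
      simp [le_iff_eq_or_lt]
    rw [h1, Finset.prod_insert (by simp)]
    rfl
  by_cases hs : (Finset.univ.filter (l < ·)).Nonempty
  · have h2 : (fun c => (τ c - τ l) * newt τ l c) =
        fun c => newt τ ((Finset.univ.filter (l < ·)).min' hs) c := by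
      funext c
      rw [hprod, newt]
      congr 1
      ext x
      simp only [Finset.mem_filter, Finset.mem_univ, true_and]
      constructor
      · intro hx
        exact lt_of_le_of_lt hx (Finset.mem_filter.1 (Finset.min'_mem _ hs)).2
      · intro hx
        by_contra hcon
        exact absurd (Finset.min'_le _ x
          (Finset.mem_filter.2 ⟨Finset.mem_univ _, not_le.1 hcon⟩)) (not_le.2 hx)
    rw [h2]
    exact hN _
  · have h2 : (fun c => (τ c - τ l) * newt τ l c) = 0 := by
      funext c
      rw [hprod]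
      refine Finset.prod_eq_zero (i := c) ?_ (sub_self _)
      rw [Finset.mem_filter]
      refine ⟨Finset.mem_univ _, ?_⟩
      by_contra hcon
      exact hs ⟨c, Finset.mem_filter.2 ⟨Finset.mem_univ _, not_le.1 hcon⟩⟩
    rw [h2]
    exact M.zero_mem

/-- the span of the Newton vectors contains `1`. -/
theorem Newton_one_mem {V ι : Type*} [CommRing V] [Fintype ι] [LinearOrder ι] (τ : ι → V) :
    (1 : ι → V) ∈ Submodule.span V (Set.range fun l : ι => (fun c => newt τ l c)) := by
  classical
  rcases isEmpty_or_nonempty ι with hι | hι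
  · have h1 : (1 : ι → V) = 0 := Subsingleton.elim _ _
    rw [h1]
    exact Submodule.zero_mem _
  · refine Submodule.subset_span ⟨Finset.univ.min' Finset.univ_nonempty, ?_⟩
    funext c
    have h1 : Finset.univ.filter (· < Finset.univ.min' (Finset.univ_nonempty (α := ι))) = ∅ := by
      rw [Finset.filter_eq_empty_iff]
      intro x _
      exact not_lt.2 (Finset.min'_le _ x (Finset.mem_univ x))
    show newt τ _ c = 1
    rw [newt, h1, Finset.prod_empty]

theorem exists_newton_of_mem_adjoin {V ι : Type*} [CommRing V] [Fintype ι] [LinearOrder ι]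
    (τ : ι → V) {u : ι → V} (hu : u ∈ Algebra.adjoin V {τ}) :
    ∃ lam : ι → V, ∀ c, u c = ∑ l, lam l * newt τ l c := by
  classical
  set M := Submodule.span V (Set.range fun l : ι => (fun c => newt τ l c)) with hM
  have hstab : ∀ x ∈ M, u * x ∈ M := by
    induction hu using Algebra.adjoin_induction with
    | mem y hy =>
      rw [Set.mem_singleton_iff.1 hy]
      intro x hx
      induction hx using Submodule.span_induction with
      | mem z hz =>
        obtain ⟨l, rfl⟩ := hz
        exact Newton_mul_newt_mem τ l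
      | zero =>
        rw [mul_zero]
        exact M.zero_mem
      | add a b _ _ iha ihb =>
        rw [mul_add]
        exact M.add_mem iha ihb
      | smul r a _ iha =>
        rw [mul_smul_comm]
        exact M.smul_mem r iha
    | algebraMap r =>
      intro x hx
      rw [← Algebra.smul_def]
      exact M.smul_mem r hx
    | add a b _ _ iha ihb =>
      intro x hx
      rw [add_mul]
      exact M.add_mem (iha x hx) (ihb x hx)
    | mul a b _ _ iha ihb =>
      intro x hx
      rw [mul_assoc]
      exact iha _ (ihb x hx)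
  have huM : u ∈ M := by
    have := hstab 1 (Newton_one_mem τ)
    rwa [mul_one] at this
  obtain ⟨lam, hlam⟩ := (Submodule.mem_span_range_iff_exists_fun V).1 huM
  refine ⟨lam, fun c => ?_⟩
  rw [← hlam, Finset.sum_apply]
  rfl

open IsLocalRing in
theorem adjoin_le_of_cotangent {V ι : Type*} [CommRing V] [IsLocalRing V] [Fintype ι]
    (s : Set (ι → V)) (hs : s.Finite) (τ : ι → V) (hτ : τ ∈ Algebra.adjoin V s)
    (hcong : ∀ u ∈ s, ∀ c c', u c - u c' ∈ maximalIdeal V)
    (hcot : ∀ u ∈ s, ∃ a b : V, u - a • 1 - b • τ ∈ Submodule.span V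
      ({x | ∃ p q, p ∈ Algebra.adjoin V s ∧ q ∈ Algebra.adjoin V s ∧
          (∀ c, p c ∈ maximalIdeal V) ∧ (∀ c, q c ∈ maximalIdeal V) ∧ x = p * q} ∪
        {x | ∃ m ∈ maximalIdeal V, ∃ β ∈ Algebra.adjoin V s, x = m • β})) :
    Algebra.adjoin V s ≤ Algebra.adjoin V {τ} :=
  adjoin_le_of_cotangent' s hs τ hτ hcong hcot

end Fermat.Agent.S17
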